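/-
S55 (Poitou–Tate), layer G — adapter HP (Hasse principle): DEFINITIONS.
Sub-architect: helper421.   Plan and leaves: `coord/S55-G-HP.md`.

Bridge between
* helper1's ground-truth Brauer groups `Rec.gBr U = H²_cont(U, ℚ̄ˣ)` (level-constant cochains on an
  open `U ≤ G_ℚ`, file `G/Rec/Defs.lean`), and
* the finite-level model of layer G (`G/Defs.lean`): a finite group acting on a number field.

Finite levels of `U`: a subfield `E ⊂ ℚ̄`, finite and NORMAL OVER `ℚ`.  The finite-level group is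
the image `lvlGal U E ≤ Gal(E/ℚ)` of `U` (so that all levels `U' ≤ U` live in the same ambient
group and act on the same type `↥E`; restriction = restriction of functions).

* `lvlGal U E : Subgroup (E ≃ₐ[ℚ] E)`, `lvlHom U E : U →* lvlGal U E` (surjective);
* `lvlIncl : lvlGal U' E →* lvlGal U E` for `U' ≤ U`;
* `unitsInclQ E : Eˣ →* ℚ̄ˣ`;
* `glInfl₁`, `glInfl₂` : inflation of finite-level cochains to `U`;
* `IsGlobInflation U E f c` : the level cocycle `c` on `U` is the inflation of the cocycle `f` of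
  `LRep (lvlGal U E) E` (= `Eˣ` as a module over the image of `U` in `Gal(E/ℚ)`);
* `lDiagRepHom : Lˣ ⟶ J_S(L)` (the diagonal embedding as a morphism of `Rep ℤ G`).

No `sorry`.
-/
import Fermat.Agent.S55.G.DefsLocal
import Fermat.Agent.S55.G.Rec.Defs

set_option autoImplicit false
set_option linter.unusedSectionVars false

open groupCohomology CategoryTheory

noncomputable section

namespace Fermat.Agent.S55.G.HP

local notation "Qb" => AlgebraicClosure ℚ
local notation "GQ" => (AlgebraicClosure ℚ ≃ₐ[ℚ] AlgebraicClosure ℚ)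

/-! ## The diagonal `Lˣ → J_S(L)` as a morphism of representations -/

section Diag

variable (S : Finset Nat.Primes) (G L : Type) [Group G] [Field L] [CharZero L]
  [MulSemiringAction G L]

/-- The diagonal embedding `Lˣ ⟶ J_S(L) = (L ⊗ ℚ_S)ˣ` in `Rep ℤ G`. -/
def lDiagRepHom : LRep G L ⟶ JRep G S L :=
  Rep.ofHom ⟨(unitsDiag S L).toIntLinearMap,
    fun g => LinearMap.ext fun x => unitsDiag_equivariant G S L g x⟩

@[simp] lemma lDiagRepHom_hom_apply (x : Additive Lˣ) :
    (lDiagRepHom S G L).hom x = unitsDiag S L x := rfl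

end Diag

/-! ## Finite levels of an open subgroup of `G_ℚ` -/

section Level

variable (U : Subgroup GQ) (E : IntermediateField ℚ Qb) [Normal ℚ E]

/-- The image of `U` in `Gal(E/ℚ)`: the Galois group of `E / (E ∩ ℚ̄^U)`
(`= Gal(E / ℚ̄^U)` when `Gal(ℚ̄/E) ≤ U`). -/
def lvlGal : Subgroup (E ≃ₐ[ℚ] E) := U.map (AlgEquiv.restrictNormalHom E)

/-- Restriction `U → lvlGal U E`. -/
def lvlHom : ↥U →* ↥(lvlGal U E) :=
  ((AlgEquiv.restrictNormalHom E).comp U.subtype).codRestrict (lvlGal U E)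
    fun u => Subgroup.mem_map_of_mem _ u.2

lemma lvlHom_coe (u : ↥U) :
    ((lvlHom U E u : ↥(lvlGal U E)) : E ≃ₐ[ℚ] E) = AlgEquiv.restrictNormalHom E (u : GQ) := rfl

lemma lvlHom_apply_coe (u : ↥U) (x : E) :
    ((((lvlHom U E u : ↥(lvlGal U E)) : E ≃ₐ[ℚ] E) x : E) : Qb) = (u : GQ) (x : Qb) := by
  rw [lvlHom_coe]
  exact AlgEquiv.restrictNormal_commutes (u : GQ) E x

lemma lvlHom_surjective : Function.Surjective (lvlHom U E) := by
  rintro ⟨_, u, hu, rfl⟩
  exact ⟨⟨u, hu⟩, rfl⟩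

variable {U} in
lemma lvlGal_mono {U' : Subgroup GQ} (h : U' ≤ U) : lvlGal U' E ≤ lvlGal U E :=
  Subgroup.map_mono h

variable {U} in
/-- `lvlGal U' E → lvlGal U E` for `U' ≤ U`. -/
def lvlIncl {U' : Subgroup GQ} (h : U' ≤ U) : ↥(lvlGal U' E) →* ↥(lvlGal U E) :=
  Subgroup.inclusion (lvlGal_mono E h)

variable {U} in
lemma lvlIncl_lvlHom {U' : Subgroup GQ} (h : U' ≤ U) (u : ↥U') :
    lvlIncl E h (lvlHom U' E u) = lvlHom U E (Subgroup.inclusion h u) := rfl

/-- The inclusion `Eˣ → ℚ̄ˣ`. -/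
def unitsInclQ : (↥E)ˣ →* Qbˣ := Units.map (algebraMap E Qb : E →* Qb)

lemma unitsInclQ_coe (x : (↥E)ˣ) : ((unitsInclQ E x : Qbˣ) : Qb) = ((x : E) : Qb) := rfl

lemma unitsInclQ_injective : Function.Injective (unitsInclQ E) :=
  Units.map_injective (f := (algebraMap E Qb : E →* Qb)) (algebraMap E Qb).injective

/-- Inflation of finite-level 1-cochains to `U`. -/
def glInfl₁ (b : ↥(lvlGal U E) → Additive (↥E)ˣ) : ↥U → Rec.gModOn U :=
  fun u => Additive.ofMul (unitsInclQ E (Additive.toMul (b (lvlHom U E u))))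

/-- Inflation of finite-level 2-cochains to `U`. -/
def glInfl₂ (f : ↥(lvlGal U E) × ↥(lvlGal U E) → Additive (↥E)ˣ) : ↥U × ↥U → Rec.gModOn U :=
  fun p => Additive.ofMul (unitsInclQ E (Additive.toMul (f (lvlHom U E p.1, lvlHom U E p.2))))

lemma glInfl₂_apply (f : ↥(lvlGal U E) × ↥(lvlGal U E) → Additive (↥E)ˣ) (u v : ↥U) :
    glInfl₂ U E f (u, v) =
      Additive.ofMul (unitsInclQ E (Additive.toMul (f (lvlHom U E u, lvlHom U E v)))) := rfl

/-- The level cocycle `c` on `U` is the inflation of the finite-level cocycle `f` of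
`Eˣ` over `lvlGal U E`. -/
def IsGlobInflation (f : cocycles₂ (LRep ↥(lvlGal U E) E))
    (c : ↥(levelCocycles₂ U.subtype (Rec.gModOn U))) : Prop :=
  (c : ↥U × ↥U → Rec.gModOn U) =
    glInfl₂ U E (f : ↥(lvlGal U E) × ↥(lvlGal U E) → Additive (↥E)ˣ)

/-- Restriction of finite-level 2-cochains from `lvlGal U E` to `lvlGal U' E`, `U' ≤ U`. -/
def lvlRes₂ {U' : Subgroup GQ} (h : U' ≤ U)
    (f : ↥(lvlGal U E) × ↥(lvlGal U E) → Additive (↥E)ˣ) :
    ↥(lvlGal U' E) × ↥(lvlGal U' E) → Additive (↥E)ˣ :=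
  fun p => f (lvlIncl E h p.1, lvlIncl E h p.2)

end Level

end Fermat.Agent.S55.G.HP
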