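import Fermat.Agent.S55.G.HP.Spec

/-!
# S55 / G / HP (helper421), leaves HP-D1 and HP-D2 (helper510):
`globDescent : GlobDescentSpec`, `globUp : GlobUpSpec`

Dictionary between level cocycles on an open `U ≤ G_ℚ` with values in `ℚ̄ˣ` and cocycles of the
finite group `lvlGal U E` with values in `Eˣ`, `E/ℚ` finite normal with `G_E ≤ U`.
(Port of helper126's `Rec/HP/DescH126.lean` to the shape of `G/HP/Defs.lean`.)
-/

set_option autoImplicit false
set_option linter.style.haveILetI false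
set_option linter.unusedSectionVars false

noncomputable section

namespace Fermat.Agent.S55.G.HP.H510

open groupCohomology Fermat.Agent.S55.G Fermat.Agent.S55.G.HP

local notation "Qb" => AlgebraicClosure ℚ
local notation "GQ" => (AlgebraicClosure ℚ ≃ₐ[ℚ] AlgebraicClosure ℚ)

section Up

variable (U : Subgroup GQ) (E : IntermediateField ℚ Qb) [Normal ℚ E]

/-- The inclusion `Eˣ → ℚ̄ˣ` as a linear map of the underlying modules. -/
def inclLin : (LRep ↥(lvlGal U E) ↥E) →ₗ[ℤ] Rec.gModOn U :=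
  (MonoidHom.toAdditive (unitsInclQ E)).toIntLinearMap

lemma inclLin_apply (x : LRep ↥(lvlGal U E) ↥E) :
    inclLin U E x = Additive.ofMul (unitsInclQ E (Additive.toMul x)) := rfl

lemma inclLin_injective : Function.Injective (inclLin U E) := by
  intro x y h
  apply Additive.toMul.injective
  apply Units.ext
  apply Subtype.ext
  have h2 := congrArg (fun z : Rec.gModOn U => ((Additive.toMul z : Qbˣ) : Qb)) h
  exact h2

/-- the inclusion `Eˣ → ℚ̄ˣ` is equivariant along `lvlHom` -/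
lemma inclLin_equivariant (u : ↥U) (x : LRep ↥(lvlGal U E) ↥E) :
    inclLin U E ((LRep ↥(lvlGal U E) ↥E).ρ (lvlHom U E u) x) =
      (Rec.gModOn U).ρ u (inclLin U E x) := by
  apply Additive.toMul.injective
  apply Units.ext
  exact lvlHom_apply_coe U E u _

lemma glInfl₁_eq (b : ↥(lvlGal U E) → Additive (↥E)ˣ) :
    glInfl₁ U E b = cochainsPullPush₁ (lvlHom U E) (inclLin U E) b := rfl

lemma glInfl₂_eq (f : ↥(lvlGal U E) × ↥(lvlGal U E) → Additive (↥E)ˣ) :
    glInfl₂ U E f = cochainsPullPush₂ (lvlHom U E) (inclLin U E) f := rfl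

/-- inflation commutes with the differential -/
theorem glInfl₂_d₁₂ (b : ↥(lvlGal U E) → Additive (↥E)ˣ) :
    glInfl₂ U E ((d₁₂ (LRep ↥(lvlGal U E) ↥E)).hom b) =
      (d₁₂ (Rec.gModOn U)).hom (glInfl₁ U E b) :=
  cochainsPullPush₂_d₁₂ (lvlHom U E) (inclLin U E) (inclLin_equivariant U E) b

/-- an element of `U` fixing `E` pointwise has trivial image in `lvlGal U E` -/
lemma lvlHom_eq_one_of_mem {s : ↥U} (hs : (s : GQ) ∈ E.fixingSubgroup) : lvlHom U E s = 1 := by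
  apply Subtype.ext
  ext x
  exact (lvlHom_apply_coe U E s x).trans ((IntermediateField.mem_fixingSubgroup_iff E _).1 hs x x.2)

lemma mem_fixingSubgroup_of_lvlHom_eq_one {s : ↥U} (hs : lvlHom U E s = 1) :
    (s : GQ) ∈ E.fixingSubgroup := by
  rw [IntermediateField.mem_fixingSubgroup_iff]
  intro x hx
  have h1 := lvlHom_apply_coe U E s ⟨x, hx⟩
  rw [hs] at h1
  exact h1.symm

theorem isLevelConstant₁_glInfl₁ [FiniteDimensional ℚ E]
    (b : ↥(lvlGal U E) → Additive (↥E)ˣ) :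
    IsLevelConstant₁ U.subtype (glInfl₁ U E b) := by
  refine ⟨E, inferInstance, fun g s hs => ?_⟩
  unfold glInfl₁
  rw [map_mul, lvlHom_eq_one_of_mem U E hs, mul_one]

theorem isLevelConstant₂_glInfl₂ [FiniteDimensional ℚ E]
    (f : ↥(lvlGal U E) × ↥(lvlGal U E) → Additive (↥E)ˣ) :
    IsLevelConstant₂ U.subtype (glInfl₂ U E f) := by
  refine ⟨E, inferInstance, fun g g' s s' hs hs' => ?_⟩
  unfold glInfl₂
  simp only []
  rw [map_mul, map_mul, lvlHom_eq_one_of_mem U E hs, lvlHom_eq_one_of_mem U E hs', mul_one,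
    mul_one]

end Up

/-- **HP-D2.** -/
theorem globUp : GlobUpSpec := by
  intro U E _ _ f c hinf hcls
  have hf : (f : ↥(lvlGal U E) × ↥(lvlGal U E) → Additive (↥E)ˣ) ∈
      coboundaries₂ (LRep ↥(lvlGal U E) ↥E) := (H2π_eq_zero_iff f).mp hcls
  obtain ⟨b, hb⟩ := hf
  rw [continuousH2π_eq_zero_iff, mem_levelCoboundaries₂_iff]
  refine ⟨glInfl₁ U E b, isLevelConstant₁_glInfl₁ U E b, ?_⟩
  rw [hinf]
  exact (glInfl₂_d₁₂ U E b).symm.trans (congrArg (glInfl₂ U E) hb)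

section Descent

/-- `ℚ̄/ℚ` is algebraic (for the `Algebra ℚ ℚ̄` instance found by instance search). -/
theorem isAlgebraic_Qb : Algebra.IsAlgebraic ℚ Qb :=
  AlgebraicClosure.isAlgebraic ℚ

/-- `ℚ̄/ℚ` is normal (for the `Algebra ℚ ℚ̄` instance found by instance search). -/
theorem normal_Qb : Normal ℚ Qb := by
  haveI : Algebra.IsAlgebraic ℚ Qb := isAlgebraic_Qb
  haveI : IsAlgClosure ℚ Qb := ⟨inferInstance, inferInstance⟩
  exact IsAlgClosure.normal ℚ Qb

/-- `ℚ̄/ℚ` is Galois (for the `Algebra ℚ ℚ̄` instance found by instance search). -/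
theorem isGalois_Qb : IsGalois ℚ Qb := by
  haveI : Algebra.IsAlgebraic ℚ Qb := isAlgebraic_Qb
  haveI : Normal ℚ Qb := normal_Qb
  exact isGalois_iff.mpr ⟨inferInstance, inferInstance⟩

attribute [local instance] isAlgebraic_Qb normal_Qb isGalois_Qb

variable (U : Subgroup GQ) (E : IntermediateField ℚ Qb) [Normal ℚ E]

/-- two elements of `U` with the same image in `lvlGal U E` differ by an element fixing `E` -/
lemma exists_mul_of_lvlHom_eq {u u' : ↥U} (h : lvlHom U E u = lvlHom U E u') :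
    ∃ s : ↥U, (s : GQ) ∈ E.fixingSubgroup ∧ u' = u * s := by
  refine ⟨u⁻¹ * u', mem_fixingSubgroup_of_lvlHom_eq_one U E ?_, by group⟩
  rw [map_mul, map_inv, h, inv_mul_cancel]

/-- an element of `ℚ̄ˣ` fixed by `G_E ≤ U` comes from `Eˣ` -/
lemma exists_inclLin_eq (hEU : E.fixingSubgroup ≤ U) (a : Rec.gModOn U)
    (ha : ∀ s : ↥U, (s : GQ) ∈ E.fixingSubgroup → (Rec.gModOn U).ρ s a = a) :
    ∃ y : LRep ↥(lvlGal U E) ↥E, inclLin U E y = a := by
  have hmem : ((Additive.toMul a : Qbˣ) : Qb) ∈ E := by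
    rw [← InfiniteGalois.fixedField_fixingSubgroup E, IntermediateField.mem_fixedField_iff]
    intro s hs
    have h1 := ha ⟨s, hEU hs⟩ hs
    have h2 := congrArg (fun z : Rec.gModOn U => ((Additive.toMul z : Qbˣ) : Qb)) h1
    exact h2
  have h0 : (⟨_, hmem⟩ : E) ≠ 0 := by
    intro h
    have := congrArg Subtype.val h
    exact (Additive.toMul a : Qbˣ).ne_zero this
  refine ⟨Additive.ofMul (Units.mk0 ⟨_, hmem⟩ h0), ?_⟩
  apply Additive.toMul.injective
  apply Units.ext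
  rfl

/-- inflation of 1-cochains is injective -/
lemma glInfl₁_injective (b₁ b₂ : ↥(lvlGal U E) → Additive (↥E)ˣ)
    (h : glInfl₁ U E b₁ = glInfl₁ U E b₂) : b₁ = b₂ := by
  funext σ
  obtain ⟨u, rfl⟩ := lvlHom_surjective U E σ
  exact inclLin_injective U E (congrFun h u)

/-- inflation of 2-cochains is injective -/
lemma glInfl₂_injective
    (f₁ f₂ : ↥(lvlGal U E) × ↥(lvlGal U E) → Additive (↥E)ˣ)
    (h : glInfl₂ U E f₁ = glInfl₂ U E f₂) : f₁ = f₂ := by
  funext ⟨σ, τ⟩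
  obtain ⟨u, rfl⟩ := lvlHom_surjective U E σ
  obtain ⟨v, rfl⟩ := lvlHom_surjective U E τ
  exact inclLin_injective U E (congrFun h (u, v))

/-- Descent of a 1-cochain on `U` which is right-invariant under `G_E` with values fixed by
`G_E ≤ U`. -/
lemma exists_glInfl₁_eq (hEU : E.fixingSubgroup ≤ U) (x : ↥U → Rec.gModOn U)
    (hinv : ∀ g s : ↥U, (s : GQ) ∈ E.fixingSubgroup → x (g * s) = x g)
    (hfix : ∀ g s : ↥U, (s : GQ) ∈ E.fixingSubgroup → (Rec.gModOn U).ρ s (x g) = x g) :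
    ∃ b : ↥(lvlGal U E) → Additive (↥E)ˣ, glInfl₁ U E b = x := by
  let lift : ↥(lvlGal U E) → ↥U := Function.surjInv (lvlHom_surjective U E)
  have hlift : ∀ σ, lvlHom U E (lift σ) = σ := Function.surjInv_eq (lvlHom_surjective U E)
  have hexb : ∀ σ : ↥(lvlGal U E), ∃ y : LRep ↥(lvlGal U E) ↥E, inclLin U E y = x (lift σ) :=
    fun σ => exists_inclLin_eq U E hEU _ (fun s hs => hfix _ s hs)
  choose b hb using hexb
  refine ⟨b, ?_⟩
  funext u
  show inclLin U E (b (lvlHom U E u)) = x u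
  rw [hb]
  obtain ⟨s, hs, hus⟩ := exists_mul_of_lvlHom_eq U E (hlift (lvlHom U E u))
  exact ((congrArg x hus).trans (hinv _ s hs)).symm

end Descent

set_option maxHeartbeats 400000 in

/-- Descent of a level cocycle which is constant modulo `G_E ≤ U`. -/
lemma exists_cocycle_of_level (U : Subgroup GQ) (E : IntermediateField ℚ Qb) [Normal ℚ E]
    (hEU : E.fixingSubgroup ≤ U)
    (c : ↥(levelCocycles₂ U.subtype (Rec.gModOn U)))
    (hc : ∀ g g' s s' : ↥U, (s : GQ) ∈ E.fixingSubgroup → (s' : GQ) ∈ E.fixingSubgroup →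
      (c : ↥U × ↥U → Rec.gModOn U) (g * s, g' * s') = (c : ↥U × ↥U → Rec.gModOn U) (g, g')) :
    ∃ f : cocycles₂ (LRep ↥(lvlGal U E) E), IsGlobInflation U E f c := by
  have hcoc : (c : ↥U × ↥U → Rec.gModOn U) ∈ cocycles₂ (Rec.gModOn U) := c.2.1
  -- `c` depends only on the images in `lvlGal U E`
  have hc1 : ∀ u₁ u₂ u₁' u₂' : ↥U, lvlHom U E u₁ = lvlHom U E u₁' →
      lvlHom U E u₂ = lvlHom U E u₂' →
      (c : ↥U × ↥U → Rec.gModOn U) (u₁', u₂') = (c : ↥U × ↥U → Rec.gModOn U) (u₁, u₂) := by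
    intro u₁ u₂ u₁' u₂' h₁ h₂
    obtain ⟨s₁, hs₁, rfl⟩ := exists_mul_of_lvlHom_eq U E h₁
    obtain ⟨s₂, hs₂, rfl⟩ := exists_mul_of_lvlHom_eq U E h₂
    exact hc u₁ u₂ s₁ s₂ hs₁ hs₂
  have hcoc' := (mem_cocycles₂_iff _).1 hcoc
  -- the values of `c` are fixed by `G_E`
  have hcfix : ∀ s : ↥U, (s : GQ) ∈ E.fixingSubgroup → ∀ h j : ↥U,
      (Rec.gModOn U).ρ s ((c : ↥U × ↥U → Rec.gModOn U) (h, j)) =
        (c : ↥U × ↥U → Rec.gModOn U) (h, j) := by
    intro s hs h j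
    have hs1 : lvlHom U E s = 1 := lvlHom_eq_one_of_mem U E hs
    have e1 := hcoc' s h j
    have e2 := hcoc' 1 h j
    rw [hc1 h j (s * h) j (by rw [map_mul, hs1, one_mul]) rfl,
      hc1 1 h s h (by rw [map_one, hs1]) rfl,
      hc1 1 (h * j) s (h * j) (by rw [map_one, hs1]) rfl] at e1
    rw [one_mul, map_one, Module.End.one_apply] at e2
    have e3 := add_left_cancel e2
    rw [e3] at e1
    exact (add_right_cancel e1).symm
  -- descent of `c`
  let lift : ↥(lvlGal U E) → ↥U := Function.surjInv (lvlHom_surjective U E)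
  have hlift : ∀ σ, lvlHom U E (lift σ) = σ := Function.surjInv_eq (lvlHom_surjective U E)
  have hexf : ∀ p : ↥(lvlGal U E) × ↥(lvlGal U E), ∃ y : LRep ↥(lvlGal U E) ↥E,
      inclLin U E y = (c : ↥U × ↥U → Rec.gModOn U) (lift p.1, lift p.2) :=
    fun p => exists_inclLin_eq U E hEU _ (fun s hs => hcfix s hs _ _)
  choose f hf using hexf
  have hfc : ∀ u v : ↥U, inclLin U E (f (lvlHom U E u, lvlHom U E v)) =
      (c : ↥U × ↥U → Rec.gModOn U) (u, v) := by
    intro u v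
    rw [hf]
    exact hc1 u v _ _ (hlift _).symm (hlift _).symm
  have hinf : (c : ↥U × ↥U → Rec.gModOn U) = glInfl₂ U E f := by
    funext ⟨u, v⟩
    exact (hfc u v).symm
  -- `f` is a cocycle
  have hfcoc : f ∈ cocycles₂ (LRep ↥(lvlGal U E) ↥E) := by
    rw [mem_cocycles₂_iff]
    intro σ τ υ
    obtain ⟨u, rfl⟩ := lvlHom_surjective U E σ
    obtain ⟨v, rfl⟩ := lvlHom_surjective U E τ
    obtain ⟨w, rfl⟩ := lvlHom_surjective U E υ
    have e1 : lvlHom U E u * lvlHom U E v = lvlHom U E (u * v) := (map_mul _ u v).symm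
    have e2 : lvlHom U E v * lvlHom U E w = lvlHom U E (v * w) := (map_mul _ v w).symm
    rw [e1, e2]
    apply inclLin_injective U E
    rw [map_add, map_add, inclLin_equivariant, hfc, hfc, hfc, hfc]
    exact hcoc' u v w
  exact ⟨⟨f, hfcoc⟩, hinf⟩

/-- **HP-D1.** -/
theorem globDescent : GlobDescentSpec := by
  haveI : Algebra.IsAlgebraic ℚ Qb := isAlgebraic_Qb
  haveI : Normal ℚ Qb := normal_Qb
  intro U hU c E₀ hE₀
  obtain ⟨F₀, hF₀, hF₀U⟩ := hU
  obtain ⟨-, Fc, hFc, hc⟩ := c.2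
  haveI := hF₀; haveI := hE₀; haveI := hFc
  have hE'E : F₀ ⊔ E₀ ⊔ Fc ≤ IntermediateField.normalClosure ℚ ↥(F₀ ⊔ E₀ ⊔ Fc) Qb :=
    IntermediateField.le_normalClosure _
  have hF₀E : F₀ ≤ IntermediateField.normalClosure ℚ ↥(F₀ ⊔ E₀ ⊔ Fc) Qb :=
    (le_sup_left.trans le_sup_left).trans hE'E
  have hE₀E : E₀ ≤ IntermediateField.normalClosure ℚ ↥(F₀ ⊔ E₀ ⊔ Fc) Qb :=
    (le_sup_right.trans le_sup_left).trans hE'E
  have hFcE : Fc ≤ IntermediateField.normalClosure ℚ ↥(F₀ ⊔ E₀ ⊔ Fc) Qb :=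
    le_sup_right.trans hE'E
  have hEU : (IntermediateField.normalClosure ℚ ↥(F₀ ⊔ E₀ ⊔ Fc) Qb).fixingSubgroup ≤ U :=
    le_trans (IntermediateField.fixingSubgroup_antitone hF₀E) hF₀U
  haveI : FiniteDimensional ℚ ↥(IntermediateField.normalClosure ℚ ↥(F₀ ⊔ E₀ ⊔ Fc) Qb) :=
    normalClosure.is_finiteDimensional ℚ ↥(F₀ ⊔ E₀ ⊔ Fc) Qb
  haveI : Normal ℚ ↥(IntermediateField.normalClosure ℚ ↥(F₀ ⊔ E₀ ⊔ Fc) Qb) :=
    normalClosure.normal ℚ ↥(F₀ ⊔ E₀ ⊔ Fc) Qb
  obtain ⟨f, hf⟩ := exists_cocycle_of_level U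
    (IntermediateField.normalClosure ℚ ↥(F₀ ⊔ E₀ ⊔ Fc) Qb) hEU c
    (fun g g' s s' hs hs' => hc g g' s s' (IntermediateField.fixingSubgroup_antitone hFcE hs)
      (IntermediateField.fixingSubgroup_antitone hFcE hs'))
  exact ⟨IntermediateField.normalClosure ℚ ↥(F₀ ⊔ E₀ ⊔ Fc) Qb, inferInstance, inferInstance, f,
    hE₀E, hEU, hf⟩

end Fermat.Agent.S55.G.HP.H510
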