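import Fermat.Agent.S55.G.HP.Spec

/-!
# S55 / G / HP, leaves HP-D1 and HP-D2 (helper54)

* `globUp : GlobUpSpec` — a finite-level coboundary inflates to a level coboundary;
* `globDescent : GlobDescentSpec` — every level cocycle on an open `U ≤ G_ℚ` is the inflation of a
  cocycle of a finite level;
* `descent_core` — the common engine (also used by `DownH54.lean` for HP-D2'): a level cocycle
  `c` together with a level-constant `1`-cochain `b` with `d b = n • c` descend simultaneously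
  to a finite level.

Adapted from helper126's `G/Rec/HP/DescH126.lean` (same mathematics, helper473's model of the
finite levels) to helper421's model `lvlGal U E = U.map (restrictNormalHom E)`.
-/

set_option autoImplicit false
set_option linter.unusedSectionVars false

noncomputable section

namespace Fermat.Agent.S55.G.HP.H54

open groupCohomology Fermat.Agent.S55.G Fermat.Agent.S55.G.Rec Fermat.Agent.S55.G.HP

local notation "Qb" => AlgebraicClosure ℚ
local notation "GQ" => (AlgebraicClosure ℚ ≃ₐ[ℚ] AlgebraicClosure ℚ)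

section Up

variable (U : Subgroup GQ) (F : IntermediateField ℚ Qb) [Normal ℚ F]

/-- The inclusion `Fˣ → ℚ̄ˣ` as a linear map of the underlying modules. -/
def inclLin : (LRep ↥(lvlGal U F) ↥F) →ₗ[ℤ] gModOn U :=
  (MonoidHom.toAdditive (unitsInclQ F)).toIntLinearMap

lemma inclLin_apply (x : LRep ↥(lvlGal U F) ↥F) :
    inclLin U F x = Additive.ofMul (unitsInclQ F (Additive.toMul x)) := rfl

lemma inclLin_injective : Function.Injective (inclLin U F) := by
  intro x y h
  apply Additive.toMul.injective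
  apply Units.ext
  apply Subtype.ext
  have h2 := congrArg (fun z : gModOn U => ((Additive.toMul z : Qbˣ) : Qb)) h
  exact h2

/-- the inclusion `Fˣ → ℚ̄ˣ` is equivariant along `lvlHom` -/
lemma inclLin_equivariant (u : ↥U) (x : LRep ↥(lvlGal U F) ↥F) :
    inclLin U F ((LRep ↥(lvlGal U F) ↥F).ρ (lvlHom U F u) x) =
      (gModOn U).ρ u (inclLin U F x) := by
  apply Additive.toMul.injective
  apply Units.ext
  exact lvlHom_apply_coe U F u _

lemma glInfl₁_eq (b : ↥(lvlGal U F) → Additive (↥F)ˣ) :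
    glInfl₁ U F b = cochainsPullPush₁ (lvlHom U F) (inclLin U F) b := rfl

lemma glInfl₂_eq (f : ↥(lvlGal U F) × ↥(lvlGal U F) → Additive (↥F)ˣ) :
    glInfl₂ U F f = cochainsPullPush₂ (lvlHom U F) (inclLin U F) f := rfl

/-- inflation commutes with the differential -/
theorem glInfl₂_d₁₂ (b : ↥(lvlGal U F) → Additive (↥F)ˣ) :
    glInfl₂ U F ((d₁₂ (LRep ↥(lvlGal U F) ↥F)).hom b) =
      (d₁₂ (gModOn U)).hom (glInfl₁ U F b) := by
  rw [glInfl₂_eq, glInfl₁_eq]
  exact cochainsPullPush₂_d₁₂ (lvlHom U F) (inclLin U F) (inclLin_equivariant U F) b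

/-- an element of `U` fixing `F` pointwise has trivial image in `lvlGal U F` -/
lemma lvlHom_eq_one_of_mem {s : ↥U} (hs : (s : GQ) ∈ F.fixingSubgroup) : lvlHom U F s = 1 := by
  apply Subtype.ext
  ext x
  rw [lvlHom_apply_coe]
  exact (IntermediateField.mem_fixingSubgroup_iff F _).1 hs x x.2

lemma mem_fixingSubgroup_of_lvlHom_eq_one {s : ↥U} (hs : lvlHom U F s = 1) :
    (s : GQ) ∈ F.fixingSubgroup := by
  rw [IntermediateField.mem_fixingSubgroup_iff]
  intro x hx
  have h1 := lvlHom_apply_coe U F s ⟨x, hx⟩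
  rw [hs] at h1
  exact h1.symm

theorem isLevelConstant₁_glInfl₁ [FiniteDimensional ℚ F]
    (b : ↥(lvlGal U F) → Additive (↥F)ˣ) :
    IsLevelConstant₁ U.subtype (glInfl₁ U F b) := by
  refine ⟨F, inferInstance, fun g s hs => ?_⟩
  unfold glInfl₁
  rw [map_mul, lvlHom_eq_one_of_mem U F hs, mul_one]

theorem isLevelConstant₂_glInfl₂ [FiniteDimensional ℚ F]
    (f : ↥(lvlGal U F) × ↥(lvlGal U F) → Additive (↥F)ˣ) :
    IsLevelConstant₂ U.subtype (glInfl₂ U F f) := by
  refine ⟨F, inferInstance, fun g g' s s' hs hs' => ?_⟩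
  unfold glInfl₂
  simp only []
  rw [map_mul, map_mul, lvlHom_eq_one_of_mem U F hs, lvlHom_eq_one_of_mem U F hs', mul_one,
    mul_one]

end Up

/-- **HP-D2.** A finite-level coboundary inflates to a level coboundary. -/
theorem globUp : GlobUpSpec := by
  intro U F _ _ f c hinf hcls
  have hf : (f : ↥(lvlGal U F) × ↥(lvlGal U F) → Additive (↥F)ˣ) ∈
      coboundaries₂ (LRep ↥(lvlGal U F) ↥F) := (H2π_eq_zero_iff f).mp hcls
  obtain ⟨b, hb⟩ := hf
  rw [continuousH2π_eq_zero_iff, mem_levelCoboundaries₂_iff]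
  refine ⟨glInfl₁ U F b, isLevelConstant₁_glInfl₁ U F b, ?_⟩
  rw [hinf, ← glInfl₂_d₁₂, hb]

section Descent

/-- `ℚ̄/ℚ` is algebraic (for the `Algebra ℚ ℚ̄` instance found by instance search). -/
theorem isAlgebraic_Qb : Algebra.IsAlgebraic ℚ Qb :=
  AlgebraicClosure.isAlgebraic ℚ

/-- `ℚ̄/ℚ` is normal (for the `Algebra ℚ ℚ̄` instance found by instance search). -/
theorem normal_Qb : Normal ℚ Qb := by
  haveI : Algebra.IsAlgebraic ℚ Qb := isAlgebraic_Qb
  haveI : IsAlgClosure ℚ Qb := ⟨inferInstance, inferInstance⟩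
  exact IsAlgClosure.normal ℚ Qb

/-- `ℚ̄/ℚ` is Galois (for the `Algebra ℚ ℚ̄` instance found by instance search). -/
theorem isGalois_Qb : IsGalois ℚ Qb := by
  haveI : Algebra.IsAlgebraic ℚ Qb := isAlgebraic_Qb
  haveI : Normal ℚ Qb := normal_Qb
  exact isGalois_iff.mpr ⟨inferInstance, inferInstance⟩

attribute [local instance] isAlgebraic_Qb normal_Qb isGalois_Qb

variable (U : Subgroup GQ) (F : IntermediateField ℚ Qb) [Normal ℚ F]

/-- two elements of `U` with the same image in `lvlGal U F` differ by an element fixing `F` -/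
lemma exists_mul_of_lvlHom_eq {u u' : ↥U} (h : lvlHom U F u = lvlHom U F u') :
    ∃ s : ↥U, (s : GQ) ∈ F.fixingSubgroup ∧ u' = u * s := by
  refine ⟨u⁻¹ * u', mem_fixingSubgroup_of_lvlHom_eq_one U F ?_, by group⟩
  rw [map_mul, map_inv, h, inv_mul_cancel]

/-- an element of `ℚ̄ˣ` fixed by `G_F ≤ U` comes from `Fˣ` -/
lemma exists_inclLin_eq (hFU : F.fixingSubgroup ≤ U) (a : gModOn U)
    (ha : ∀ s : ↥U, (s : GQ) ∈ F.fixingSubgroup → (gModOn U).ρ s a = a) :
    ∃ y : LRep ↥(lvlGal U F) ↥F, inclLin U F y = a := by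
  have hmem : ((Additive.toMul a : Qbˣ) : Qb) ∈ F := by
    rw [← InfiniteGalois.fixedField_fixingSubgroup F, IntermediateField.mem_fixedField_iff]
    intro s hs
    have h1 := ha ⟨s, hFU hs⟩ hs
    have h2 := congrArg (fun z : gModOn U => ((Additive.toMul z : Qbˣ) : Qb)) h1
    exact h2
  have h0 : (⟨_, hmem⟩ : F) ≠ 0 := by
    intro h
    have := congrArg Subtype.val h
    exact (Additive.toMul a : Qbˣ).ne_zero this
  refine ⟨Additive.ofMul (Units.mk0 ⟨_, hmem⟩ h0), ?_⟩
  apply Additive.toMul.injective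
  apply Units.ext
  rfl

/-- inflation of 2-cochains is injective -/
lemma glInfl₂_injective
    (f₁ f₂ : ↥(lvlGal U F) × ↥(lvlGal U F) → Additive (↥F)ˣ)
    (h : glInfl₂ U F f₁ = glInfl₂ U F f₂) : f₁ = f₂ := by
  funext ⟨σ, τ⟩
  obtain ⟨u, rfl⟩ := lvlHom_surjective U F σ
  obtain ⟨v, rfl⟩ := lvlHom_surjective U F τ
  exact inclLin_injective U F (congrFun h (u, v))

end Descent

/-- **Descent engine.**  Let `c` be a level cocycle on `U ⊇ G_{F₀}` and `b` a level-constant
`1`-cochain with `d b = n • c`.  Above any finite `F₁` there is a finite normal level `F` with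
`G_F ≤ U` to which both descend: `c = Inf f`, `b = Inf b'`, `d b' = n • f`. -/
theorem descent_core (U : Subgroup GQ) (F₀ : IntermediateField ℚ Qb)
    (hF₀ : FiniteDimensional ℚ F₀) (hF₀U : F₀.fixingSubgroup ≤ U)
    (c : ↥(levelCocycles₂ U.subtype (gModOn U))) (n : ℕ)
    (b : ↥U → gModOn U) (hbl : IsLevelConstant₁ U.subtype b)
    (hdb : (d₁₂ (gModOn U)).hom b = n • (c : ↥U × ↥U → gModOn U))
    (F₁ : IntermediateField ℚ Qb) (hF₁ : FiniteDimensional ℚ F₁) :
    ∃ (F : IntermediateField ℚ Qb) (_ : FiniteDimensional ℚ F) (_ : Normal ℚ F)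
      (f : cocycles₂ (LRep ↥(lvlGal U F) ↥F)) (b' : ↥(lvlGal U F) → Additive (↥F)ˣ),
      F₁ ≤ F ∧ F.fixingSubgroup ≤ U ∧ IsGlobInflation U F f c ∧ b = glInfl₁ U F b' ∧
        (d₁₂ (LRep ↥(lvlGal U F) ↥F)).hom b' =
          n • (f : ↥(lvlGal U F) × ↥(lvlGal U F) → Additive (↥F)ˣ) := by
  haveI : Algebra.IsAlgebraic ℚ Qb := isAlgebraic_Qb
  haveI : Normal ℚ Qb := normal_Qb
  obtain ⟨hcoc, Fc, hFc, hc⟩ := c.2
  obtain ⟨Fb, hFb, hb⟩ := hbl
  -- the level
  haveI := hF₀; haveI := hF₁; haveI := hFc; haveI := hFb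
  let E : IntermediateField ℚ Qb := F₀ ⊔ F₁ ⊔ Fc ⊔ Fb
  let F : IntermediateField ℚ Qb := IntermediateField.normalClosure ℚ E Qb
  haveI : FiniteDimensional ℚ F := normalClosure.is_finiteDimensional ℚ E Qb
  haveI : Normal ℚ F := normalClosure.normal ℚ E Qb
  have hEF : E ≤ F := IntermediateField.le_normalClosure E
  have hF₀F : F₀ ≤ F := ((le_sup_left.trans le_sup_left).trans le_sup_left).trans hEF
  have hF₁F : F₁ ≤ F := ((le_sup_right.trans le_sup_left).trans le_sup_left).trans hEF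
  have hFcF : Fc ≤ F := (le_sup_right.trans le_sup_left).trans hEF
  have hFbF : Fb ≤ F := le_sup_right.trans hEF
  have hFU : F.fixingSubgroup ≤ U :=
    le_trans (IntermediateField.fixingSubgroup_antitone hF₀F) hF₀U
  -- `c` and `b` depend only on the images in `lvlGal U F`
  have hc1 : ∀ u₁ u₂ u₁' u₂' : ↥U, lvlHom U F u₁ = lvlHom U F u₁' →
      lvlHom U F u₂ = lvlHom U F u₂' →
      (c : ↥U × ↥U → gModOn U) (u₁', u₂') = (c : ↥U × ↥U → gModOn U) (u₁, u₂) := by
    intro u₁ u₂ u₁' u₂' h₁ h₂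
    obtain ⟨s₁, hs₁, rfl⟩ := exists_mul_of_lvlHom_eq U F h₁
    obtain ⟨s₂, hs₂, rfl⟩ := exists_mul_of_lvlHom_eq U F h₂
    exact hc u₁ u₂ s₁ s₂ (IntermediateField.fixingSubgroup_antitone hFcF hs₁)
      (IntermediateField.fixingSubgroup_antitone hFcF hs₂)
  have hb1 : ∀ u u' : ↥U, lvlHom U F u = lvlHom U F u' → b u' = b u := by
    intro u u' h
    obtain ⟨s, hs, rfl⟩ := exists_mul_of_lvlHom_eq U F h
    exact hb u s (IntermediateField.fixingSubgroup_antitone hFbF hs)
  have hcoc' := (mem_cocycles₂_iff _).1 hcoc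
  -- the values of `c` are fixed by `G_F`
  have hcfix : ∀ s : ↥U, (s : GQ) ∈ F.fixingSubgroup → ∀ h j : ↥U,
      (gModOn U).ρ s ((c : ↥U × ↥U → gModOn U) (h, j)) = (c : ↥U × ↥U → gModOn U) (h, j) := by
    intro s hs h j
    have hs1 : lvlHom U F s = 1 := lvlHom_eq_one_of_mem U F hs
    have e1 := hcoc' s h j
    have e2 := hcoc' 1 h j
    rw [hc1 h j (s * h) j (by rw [map_mul, hs1, one_mul]) rfl,
      hc1 1 h s h (by rw [map_one, hs1]) rfl,
      hc1 1 (h * j) s (h * j) (by rw [map_one, hs1]) rfl] at e1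
    rw [one_mul, map_one, Module.End.one_apply] at e2
    have e3 := add_left_cancel e2
    rw [e3] at e1
    exact (add_right_cancel e1).symm
  -- the values of `b` are fixed by `G_F`
  have hdb2 : ∀ g h : ↥U, (gModOn U).ρ g (b h) - b (g * h) + b g =
      n • (c : ↥U × ↥U → gModOn U) (g, h) := by
    intro g h
    have := congrFun hdb (g, h)
    rw [d₁₂_hom_apply] at this
    exact this
  have hbfix : ∀ s : ↥U, (s : GQ) ∈ F.fixingSubgroup → ∀ h : ↥U,
      (gModOn U).ρ s (b h) = b h := by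
    intro s hs h
    have hs1 : lvlHom U F s = 1 := lvlHom_eq_one_of_mem U F hs
    have e1 := hdb2 s h
    have e2 := hdb2 1 h
    rw [hb1 h (s * h) (by rw [map_mul, hs1, one_mul]), hb1 1 s (by rw [map_one, hs1]),
      hc1 1 h s h (by rw [map_one, hs1]) rfl, ← e2] at e1
    rw [one_mul, map_one, Module.End.one_apply] at e1
    have e3 := add_right_cancel e1
    exact sub_left_injective e3
  -- descent of `c` and `b`
  let lift : ↥(lvlGal U F) → ↥U := Function.surjInv (lvlHom_surjective U F)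
  have hlift : ∀ σ, lvlHom U F (lift σ) = σ := Function.surjInv_eq (lvlHom_surjective U F)
  have hexf : ∀ p : ↥(lvlGal U F) × ↥(lvlGal U F), ∃ y : LRep ↥(lvlGal U F) ↥F,
      inclLin U F y = (c : ↥U × ↥U → gModOn U) (lift p.1, lift p.2) :=
    fun p => exists_inclLin_eq U F hFU _ (fun s hs => hcfix s hs _ _)
  choose f hf using hexf
  have hexb : ∀ σ : ↥(lvlGal U F), ∃ y : LRep ↥(lvlGal U F) ↥F,
      inclLin U F y = b (lift σ) :=
    fun σ => exists_inclLin_eq U F hFU _ (fun s hs => hbfix s hs _)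
  choose b' hb' using hexb
  have hfc : ∀ u v : ↥U, inclLin U F (f (lvlHom U F u, lvlHom U F v)) =
      (c : ↥U × ↥U → gModOn U) (u, v) := by
    intro u v
    rw [hf]
    exact hc1 u v _ _ (hlift _).symm (hlift _).symm
  have hbb : ∀ u : ↥U, inclLin U F (b' (lvlHom U F u)) = b u := by
    intro u
    rw [hb']
    exact hb1 u _ (hlift _).symm
  have hinf : (c : ↥U × ↥U → gModOn U) = glInfl₂ U F f := by
    funext ⟨u, v⟩
    exact (hfc u v).symm
  have hinfb : b = glInfl₁ U F b' := by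
    funext u
    exact (hbb u).symm
  -- `f` is a cocycle
  have hfcoc : f ∈ cocycles₂ (LRep ↥(lvlGal U F) ↥F) := by
    rw [mem_cocycles₂_iff]
    intro σ τ υ
    obtain ⟨u, rfl⟩ := lvlHom_surjective U F σ
    obtain ⟨v, rfl⟩ := lvlHom_surjective U F τ
    obtain ⟨w, rfl⟩ := lvlHom_surjective U F υ
    apply inclLin_injective U F
    rw [map_add, map_add, inclLin_equivariant, ← map_mul, ← map_mul, hfc, hfc, hfc, hfc]
    exact hcoc' u v w
  -- `d b' = n • f`
  have hdb' : (d₁₂ (LRep ↥(lvlGal U F) ↥F)).hom b' = n • f := by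
    apply glInfl₂_injective U F
    rw [glInfl₂_d₁₂, ← hinfb, hdb, glInfl₂_eq, map_nsmul, ← glInfl₂_eq, ← hinf]
  exact ⟨F, inferInstance, inferInstance, ⟨f, hfcoc⟩, b', hF₁F, hFU, hinf, hinfb, hdb'⟩

/-- **HP-D1.** Every level cocycle on an open `U` is the inflation of a finite-level cocycle. -/
theorem globDescent : GlobDescentSpec := by
  intro U hU c E₀ hE₀
  obtain ⟨F₀, hF₀, hF₀U⟩ := hU
  obtain ⟨F, hF, hN, f, -, h1, h2, h3, -, -⟩ :=
    descent_core U F₀ hF₀ hF₀U c 0 (fun _ => 0) (isLevelConstant₁_const U.subtype _)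
      (by rw [zero_smul]; exact map_zero _) E₀ hE₀
  exact ⟨F, hF, hN, f, h1, h2, h3⟩

end Fermat.Agent.S55.G.HP.H54
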