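import Fermat.Agent.S55.G.HP.Spec
import Fermat.Agent.S55.G.DescH853.Hilbert90

/-!
# S55 / layer G / adapter HP, leaves HP-D1, HP-D2, HP-D2' (helper934)

Dictionary between level cocycles on an open `U ≤ G_ℚ` with values in `ℚ̄ˣ` and cocycles of the
finite group `lvlGal U E ≤ Gal(E/ℚ)` with values in `Eˣ` (`E/ℚ` finite normal), in the shape of
`G/HP/Defs.lean` (helper421):

* `globUp      : GlobUpSpec`       (a finite-level coboundary inflates to a level coboundary);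
* `globDescent : GlobDescentSpec`  (every level cocycle is inflated from a finite level);
* `globDown    : GlobDownSpec`     (inflation to the absolute level is injective on classes:
  Hilbert 90 for `Gal(ℚ̄/E)` on level-constant cochains + inflation–restriction at cochain
  level).

The first two follow helper126's `G/Rec/HP/DescH126.lean` (same mathematics, other shape).
-/

set_option autoImplicit false
set_option linter.unusedSectionVars false
set_option linter.style.haveILetI false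

noncomputable section

namespace Fermat.Agent.S55.G.HP.H934

open groupCohomology

local notation "Qb" => AlgebraicClosure ℚ
local notation "GQ" => (AlgebraicClosure ℚ ≃ₐ[ℚ] AlgebraicClosure ℚ)

/-! ## Galois theory of `ℚ̄ / ℚ` -/

/-- `ℚ̄/ℚ` is algebraic (for the `Algebra ℚ ℚ̄` instance found by instance search). -/
theorem isAlgebraic_Qb : Algebra.IsAlgebraic ℚ Qb :=
  AlgebraicClosure.isAlgebraic ℚ

/-- `ℚ̄/ℚ` is normal (for the `Algebra ℚ ℚ̄` instance found by instance search). -/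
theorem normal_Qb : Normal ℚ Qb := by
  haveI : Algebra.IsAlgebraic ℚ Qb := isAlgebraic_Qb
  haveI : IsAlgClosure ℚ Qb := ⟨inferInstance, inferInstance⟩
  exact IsAlgClosure.normal ℚ Qb

/-- `ℚ̄/ℚ` is Galois (for the `Algebra ℚ ℚ̄` instance found by instance search). -/
theorem isGalois_Qb : IsGalois ℚ Qb := by
  haveI : Algebra.IsAlgebraic ℚ Qb := isAlgebraic_Qb
  haveI : Normal ℚ Qb := normal_Qb
  exact isGalois_iff.mpr ⟨inferInstance, inferInstance⟩

attribute [local instance] isAlgebraic_Qb normal_Qb isGalois_Qb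

/-- An element of `ℚ̄` fixed by `Gal(ℚ̄/F)` lies in `F`. -/
lemma mem_of_fixed (F : IntermediateField ℚ Qb) (x : Qb)
    (h : ∀ s : GQ, s ∈ F.fixingSubgroup → s x = x) : x ∈ F := by
  rw [← InfiniteGalois.fixedField_fixingSubgroup F, IntermediateField.mem_fixedField_iff]
  exact h

/-- A normal subfield is stable under `G_ℚ`. -/
lemma apply_mem_of_normal (N : IntermediateField ℚ Qb) [Normal ℚ N] (s : GQ) {x : Qb}
    (hx : x ∈ N) : s x ∈ N := by
  have h := AlgEquiv.restrictNormal_commutes s N ⟨x, hx⟩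
  have h2 : s x = ((AlgEquiv.restrictNormal s N ⟨x, hx⟩ : N) : Qb) := h.symm
  rw [h2]
  exact (AlgEquiv.restrictNormal s N ⟨x, hx⟩).2

/-- `Gal(ℚ̄/N)` is normal in `G_ℚ` for `N/ℚ` normal. -/
lemma conj_mem_fixingSubgroup (N : IntermediateField ℚ Qb) [Normal ℚ N] (s t : GQ)
    (ht : t ∈ N.fixingSubgroup) : s⁻¹ * t * s ∈ N.fixingSubgroup := by
  rw [IntermediateField.mem_fixingSubgroup_iff] at ht ⊢
  intro x hx
  have h1 : t (s x) = s x := ht (s x) (apply_mem_of_normal N s hx)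
  show (s⁻¹ : GQ) (t (s x)) = x
  rw [h1]
  exact AlgEquiv.symm_apply_apply s x

/-! ## Inflation: basic properties -/

section Basic

variable (U : Subgroup GQ) (E : IntermediateField ℚ Qb) [Normal ℚ E]

/-- The inclusion `Eˣ → ℚ̄ˣ` as a linear map of the underlying modules. -/
def inclLin : (LRep ↥(lvlGal U E) E) →ₗ[ℤ] Rec.gModOn U :=
  (MonoidHom.toAdditive (unitsInclQ E)).toIntLinearMap

lemma inclLin_apply (x : LRep ↥(lvlGal U E) E) :
    inclLin U E x = Additive.ofMul (unitsInclQ E (Additive.toMul x)) := rfl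

lemma inclLin_injective : Function.Injective (inclLin U E) := by
  intro x y h
  apply Additive.toMul.injective
  apply Units.ext
  apply Subtype.ext
  have h2 := congrArg (fun z : Rec.gModOn U => ((Additive.toMul z : Qbˣ) : Qb)) h
  exact h2

/-- the inclusion `Eˣ → ℚ̄ˣ` is equivariant along `lvlHom` -/
lemma inclLin_equivariant (u : ↥U) (x : LRep ↥(lvlGal U E) E) :
    inclLin U E ((LRep ↥(lvlGal U E) E).ρ (lvlHom U E u) x) =
      (Rec.gModOn U).ρ u (inclLin U E x) := by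
  apply Additive.toMul.injective
  apply Units.ext
  exact lvlHom_apply_coe U E u _

lemma glInfl₁_eq (b : ↥(lvlGal U E) → Additive (↥E)ˣ) :
    glInfl₁ U E b = cochainsPullPush₁ (lvlHom U E) (inclLin U E) b := rfl

lemma glInfl₂_eq (f : ↥(lvlGal U E) × ↥(lvlGal U E) → Additive (↥E)ˣ) :
    glInfl₂ U E f = cochainsPullPush₂ (lvlHom U E) (inclLin U E) f := rfl

/-- inflation commutes with the differential -/
theorem glInfl₂_d₁₂ (b : ↥(lvlGal U E) → Additive (↥E)ˣ) :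
    glInfl₂ U E ((d₁₂ (LRep ↥(lvlGal U E) E)).hom b) =
      (d₁₂ (Rec.gModOn U)).hom (glInfl₁ U E b) := by
  rw [glInfl₂_eq, glInfl₁_eq]
  exact cochainsPullPush₂_d₁₂ (lvlHom U E) (inclLin U E) (inclLin_equivariant U E) b

/-- an element of `U` fixing `E` pointwise has trivial image in `lvlGal U E` -/
lemma lvlHom_eq_one_of_mem {s : ↥U} (hs : (s : GQ) ∈ E.fixingSubgroup) : lvlHom U E s = 1 := by
  apply Subtype.ext
  ext x
  rw [lvlHom_apply_coe]
  exact (IntermediateField.mem_fixingSubgroup_iff E _).1 hs x x.2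

lemma mem_fixingSubgroup_of_lvlHom_eq_one {s : ↥U} (hs : lvlHom U E s = 1) :
    (s : GQ) ∈ E.fixingSubgroup := by
  rw [IntermediateField.mem_fixingSubgroup_iff]
  intro x hx
  have h1 := lvlHom_apply_coe U E s ⟨x, hx⟩
  rw [hs] at h1
  exact h1.symm

/-- two elements of `U` with the same image in `lvlGal U E` differ by an element fixing `E` -/
lemma exists_mul_of_lvlHom_eq {u u' : ↥U} (h : lvlHom U E u = lvlHom U E u') :
    ∃ s : ↥U, (s : GQ) ∈ E.fixingSubgroup ∧ u' = u * s := by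
  refine ⟨u⁻¹ * u', mem_fixingSubgroup_of_lvlHom_eq_one U E ?_, by group⟩
  rw [map_mul, map_inv, h, inv_mul_cancel]

theorem isLevelConstant₁_glInfl₁ [FiniteDimensional ℚ E]
    (b : ↥(lvlGal U E) → Additive (↥E)ˣ) :
    IsLevelConstant₁ U.subtype (glInfl₁ U E b) := by
  refine ⟨E, inferInstance, fun g s hs => ?_⟩
  unfold glInfl₁
  rw [map_mul, lvlHom_eq_one_of_mem U E hs, mul_one]

/-- an element of `ℚ̄ˣ` fixed by `G_E ≤ U` comes from `Eˣ` -/
lemma exists_inclLin_eq (hEU : E.fixingSubgroup ≤ U) (a : Rec.gModOn U)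
    (ha : ∀ s : ↥U, (s : GQ) ∈ E.fixingSubgroup → (Rec.gModOn U).ρ s a = a) :
    ∃ y : LRep ↥(lvlGal U E) E, inclLin U E y = a := by
  have hmem : ((Additive.toMul a : Qbˣ) : Qb) ∈ E := by
    apply mem_of_fixed
    intro s hs
    have h1 := ha ⟨s, hEU hs⟩ hs
    have h2 := congrArg (fun z : Rec.gModOn U => ((Additive.toMul z : Qbˣ) : Qb)) h1
    exact h2
  have h0 : (⟨_, hmem⟩ : E) ≠ 0 := by
    intro h
    have := congrArg Subtype.val h
    exact (Additive.toMul a : Qbˣ).ne_zero this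
  refine ⟨Additive.ofMul (Units.mk0 ⟨_, hmem⟩ h0), ?_⟩
  apply Additive.toMul.injective
  apply Units.ext
  rfl

/-- inflation of 2-cochains is injective -/
lemma glInfl₂_injective
    (f₁ f₂ : ↥(lvlGal U E) × ↥(lvlGal U E) → Additive (↥E)ˣ)
    (h : glInfl₂ U E f₁ = glInfl₂ U E f₂) : f₁ = f₂ := by
  funext ⟨σ, τ⟩
  obtain ⟨u, rfl⟩ := lvlHom_surjective U E σ
  obtain ⟨v, rfl⟩ := lvlHom_surjective U E τ
  exact inclLin_injective U E (congrFun h (u, v))

end Basic

/-! ## HP-D2 : up -/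

/-- **HP-D2.** -/
theorem globUp : GlobUpSpec := by
  intro U E _ _ f c hinf hcls
  have hf : (f : ↥(lvlGal U E) × ↥(lvlGal U E) → Additive (↥E)ˣ) ∈
      coboundaries₂ (LRep ↥(lvlGal U E) E) := (H2π_eq_zero_iff f).mp hcls
  obtain ⟨b, hb⟩ := hf
  rw [continuousH2π_eq_zero_iff, mem_levelCoboundaries₂_iff]
  refine ⟨glInfl₁ U E b, isLevelConstant₁_glInfl₁ U E b, ?_⟩
  rw [hinf, ← glInfl₂_d₁₂, hb]

/-! ## HP-D1 : descent -/

/-- **HP-D1.** -/
theorem globDescent : GlobDescentSpec := by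
  intro U hU c E₀ hE₀
  obtain ⟨F₀, hF₀, hF₀U⟩ := hU
  obtain ⟨hcoc, Fc, hFc, hc⟩ := c.2
  -- the level
  haveI := hF₀; haveI := hE₀; haveI := hFc
  let E' : IntermediateField ℚ Qb := F₀ ⊔ E₀ ⊔ Fc
  let E : IntermediateField ℚ Qb := IntermediateField.normalClosure ℚ E' Qb
  haveI : FiniteDimensional ℚ E := normalClosure.is_finiteDimensional ℚ E' Qb
  haveI : Normal ℚ E := normalClosure.normal ℚ E' Qb
  have hE'E : E' ≤ E := IntermediateField.le_normalClosure E'
  have hF₀E : F₀ ≤ E := (le_sup_left.trans le_sup_left).trans hE'E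
  have hE₀E : E₀ ≤ E := (le_sup_right.trans le_sup_left).trans hE'E
  have hFcE : Fc ≤ E := le_sup_right.trans hE'E
  have hEU : E.fixingSubgroup ≤ U :=
    le_trans (IntermediateField.fixingSubgroup_antitone hF₀E) hF₀U
  -- `c` depends only on the images in `lvlGal U E`
  have hc1 : ∀ u₁ u₂ u₁' u₂' : ↥U, lvlHom U E u₁ = lvlHom U E u₁' →
      lvlHom U E u₂ = lvlHom U E u₂' →
      (c : ↥U × ↥U → Rec.gModOn U) (u₁', u₂') = (c : ↥U × ↥U → Rec.gModOn U) (u₁, u₂) := by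
    intro u₁ u₂ u₁' u₂' h₁ h₂
    obtain ⟨s₁, hs₁, rfl⟩ := exists_mul_of_lvlHom_eq U E h₁
    obtain ⟨s₂, hs₂, rfl⟩ := exists_mul_of_lvlHom_eq U E h₂
    exact hc u₁ u₂ s₁ s₂ (IntermediateField.fixingSubgroup_antitone hFcE hs₁)
      (IntermediateField.fixingSubgroup_antitone hFcE hs₂)
  have hcoc' := (mem_cocycles₂_iff _).1 hcoc
  -- the values of `c` are fixed by `G_E`
  have hcfix : ∀ s : ↥U, (s : GQ) ∈ E.fixingSubgroup → ∀ h j : ↥U,
      (Rec.gModOn U).ρ s ((c : ↥U × ↥U → Rec.gModOn U) (h, j)) =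
        (c : ↥U × ↥U → Rec.gModOn U) (h, j) := by
    intro s hs h j
    have hs1 : lvlHom U E s = 1 := lvlHom_eq_one_of_mem U E hs
    have e1 := hcoc' s h j
    have e2 := hcoc' 1 h j
    rw [hc1 h j (s * h) j (by rw [map_mul, hs1, one_mul]) rfl,
      hc1 1 h s h (by rw [map_one, hs1]) rfl,
      hc1 1 (h * j) s (h * j) (by rw [map_one, hs1]) rfl] at e1
    rw [one_mul, map_one, Module.End.one_apply] at e2
    have e3 := add_left_cancel e2
    rw [e3] at e1
    exact (add_right_cancel e1).symm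
  -- descent of `c`
  let lift : ↥(lvlGal U E) → ↥U := Function.surjInv (lvlHom_surjective U E)
  have hlift : ∀ σ, lvlHom U E (lift σ) = σ := Function.surjInv_eq (lvlHom_surjective U E)
  have hexf : ∀ p : ↥(lvlGal U E) × ↥(lvlGal U E), ∃ y : LRep ↥(lvlGal U E) E,
      inclLin U E y = (c : ↥U × ↥U → Rec.gModOn U) (lift p.1, lift p.2) :=
    fun p => exists_inclLin_eq U E hEU _ (fun s hs => hcfix s hs _ _)
  choose f hf using hexf
  have hfc : ∀ u v : ↥U, inclLin U E (f (lvlHom U E u, lvlHom U E v)) =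
      (c : ↥U × ↥U → Rec.gModOn U) (u, v) := by
    intro u v
    rw [hf]
    exact hc1 u v _ _ (hlift _).symm (hlift _).symm
  have hinf : (c : ↥U × ↥U → Rec.gModOn U) = glInfl₂ U E f := by
    funext ⟨u, v⟩
    exact (hfc u v).symm
  -- `f` is a cocycle
  have hfcoc : f ∈ cocycles₂ (LRep ↥(lvlGal U E) E) := by
    rw [mem_cocycles₂_iff]
    intro σ τ υ
    obtain ⟨u, rfl⟩ := lvlHom_surjective U E σ
    obtain ⟨v, rfl⟩ := lvlHom_surjective U E τ
    obtain ⟨w, rfl⟩ := lvlHom_surjective U E υ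
    apply inclLin_injective U E
    rw [map_add, map_add, inclLin_equivariant, ← map_mul, ← map_mul, hfc, hfc, hfc, hfc]
    exact hcoc' u v w
  exact ⟨E, inferInstance, inferInstance, ⟨f, hfcoc⟩, hE₀E, hEU, hinf⟩

/-! ## Hilbert 90 for `Gal(ℚ̄/E)` on level-constant cochains -/

/-- **Hilbert 90** for `Gal(ℚ̄/E)`, multiplicative form: a level-constant `1`-cocycle
`β : Gal(ℚ̄/E) → ℚ̄ˣ` is a coboundary. -/
theorem hilbert90_abs (E F : IntermediateField ℚ Qb) [FiniteDimensional ℚ E]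
    [FiniteDimensional ℚ F] (β : ↥E.fixingSubgroup → Qbˣ)
    (hcoc : ∀ s t : ↥E.fixingSubgroup,
      ((β (s * t) : Qbˣ) : Qb) = (β s : Qb) * (s : GQ) ((β t : Qbˣ) : Qb))
    (hlc : ∀ s t : ↥E.fixingSubgroup, (t : GQ) ∈ F.fixingSubgroup → β (s * t) = β s) :
    ∃ z : Qbˣ, ∀ s : ↥E.fixingSubgroup, (β s : Qb) * (s : GQ) (z : Qb) = (z : Qb) := by
  -- the level
  let E' : IntermediateField ℚ Qb := E ⊔ F
  let N : IntermediateField ℚ Qb := IntermediateField.normalClosure ℚ E' Qb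
  haveI : FiniteDimensional ℚ N := normalClosure.is_finiteDimensional ℚ E' Qb
  haveI : Normal ℚ N := normalClosure.normal ℚ E' Qb
  have hE'N : E' ≤ N := IntermediateField.le_normalClosure E'
  have hEN : E ≤ N := le_sup_left.trans hE'N
  have hFN : F ≤ N := le_sup_right.trans hE'N
  have hNS : N.fixingSubgroup ≤ E.fixingSubgroup := IntermediateField.fixingSubgroup_antitone hEN
  have hNF : N.fixingSubgroup ≤ F.fixingSubgroup := IntermediateField.fixingSubgroup_antitone hFN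
  -- normalisation
  have hβ1 : β 1 = 1 := by
    have h := hcoc 1 1
    rw [mul_one] at h
    have h1 : ((1 : ↥E.fixingSubgroup) : GQ) ((β 1 : Qbˣ) : Qb) = ((β 1 : Qbˣ) : Qb) := rfl
    rw [h1] at h
    apply Units.ext
    have h2 : ((β 1 : Qbˣ) : Qb) ≠ 0 := (β 1).ne_zero
    have h3 : ((β 1 : Qbˣ) : Qb) * 1 = (β 1 : Qb) * (β 1 : Qb) := by rw [mul_one]; exact h
    exact (mul_left_cancel₀ h2 h3).symm
  have hβT : ∀ t : ↥E.fixingSubgroup, (t : GQ) ∈ N.fixingSubgroup → β t = 1 := by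
    intro t ht
    have := hlc 1 t (hNF ht)
    rw [one_mul] at this
    rw [this, hβ1]
  -- the values lie in `N`
  have hval : ∀ s : ↥E.fixingSubgroup, ((β s : Qbˣ) : Qb) ∈ N := by
    intro s
    apply mem_of_fixed
    intro t ht
    have h1 := hcoc ⟨t, hNS ht⟩ s
    rw [hβT ⟨t, hNS ht⟩ ht, Units.val_one, one_mul] at h1
    have hconj : (s : GQ)⁻¹ * t * (s : GQ) ∈ N.fixingSubgroup :=
      conj_mem_fixingSubgroup N (s : GQ) t ht
    have h2 : (⟨t, hNS ht⟩ : ↥E.fixingSubgroup) * s =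
        s * ⟨(s : GQ)⁻¹ * t * (s : GQ), hNS hconj⟩ := by
      apply Subtype.ext
      show t * (s : GQ) = (s : GQ) * ((s : GQ)⁻¹ * t * (s : GQ))
      group
    rw [h2, hlc s _ (hNF hconj)] at h1
    exact h1.symm
  -- `β` factors through the image of `Gal(ℚ̄/E)` in `Gal(N/ℚ)`
  have hdep : ∀ s s' : ↥E.fixingSubgroup,
      lvlHom E.fixingSubgroup N s = lvlHom E.fixingSubgroup N s' → β s' = β s := by
    intro s s' h
    obtain ⟨t, ht, rfl⟩ := exists_mul_of_lvlHom_eq E.fixingSubgroup N h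
    exact hlc s t (hNF ht)
  let lift : ↥(lvlGal E.fixingSubgroup N) → ↥E.fixingSubgroup :=
    Function.surjInv (lvlHom_surjective E.fixingSubgroup N)
  have hlift : ∀ σ, lvlHom E.fixingSubgroup N (lift σ) = σ :=
    Function.surjInv_eq (lvlHom_surjective E.fixingSubgroup N)
  let β' : ↥(lvlGal E.fixingSubgroup N) → (↥N)ˣ := fun σ =>
    Units.mk0 ⟨((β (lift σ) : Qbˣ) : Qb), hval (lift σ)⟩
      (fun h0 => (β (lift σ)).ne_zero (congrArg Subtype.val h0))
  have hβ' : ∀ s : ↥E.fixingSubgroup,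
      (((β' (lvlHom E.fixingSubgroup N s) : (↥N)ˣ) : ↥N) : Qb) = ((β s : Qbˣ) : Qb) := by
    intro s
    show ((β (lift (lvlHom E.fixingSubgroup N s)) : Qbˣ) : Qb) = _
    rw [hdep s _ (hlift _).symm]
  haveI : Finite (↥N ≃ₐ[ℚ] ↥N) := inferInstance
  have hsmul : ∀ (s : ↥E.fixingSubgroup) (x : ↥N),
      (((lvlHom E.fixingSubgroup N s) • x : ↥N) : Qb) = (s : GQ) (x : Qb) :=
    fun s x => lvlHom_apply_coe E.fixingSubgroup N s x
  obtain ⟨z', hz'⟩ := DescH853.hilbert90 (N := ↥(lvlGal E.fixingSubgroup N)) (L := ↥N) β' (by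
    intro n m
    obtain ⟨s, rfl⟩ := lvlHom_surjective E.fixingSubgroup N n
    obtain ⟨t, rfl⟩ := lvlHom_surjective E.fixingSubgroup N m
    apply Subtype.ext
    rw [← map_mul]
    show (((β' (lvlHom E.fixingSubgroup N (s * t)) : (↥N)ˣ) : ↥N) : Qb) =
      (((β' (lvlHom E.fixingSubgroup N s) : (↥N)ˣ) : ↥N) : Qb) *
        (((lvlHom E.fixingSubgroup N s) •
          ((β' (lvlHom E.fixingSubgroup N t) : (↥N)ˣ) : ↥N) : ↥N) : Qb)
    rw [hsmul, hβ', hβ', hβ']
    exact hcoc s t)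
  refine ⟨unitsInclQ N z', fun s => ?_⟩
  have h := congrArg (fun x : ↥N => (x : Qb)) (hz' (lvlHom E.fixingSubgroup N s))
  have h' : (((β' (lvlHom E.fixingSubgroup N s) : (↥N)ˣ) : ↥N) : Qb) *
      (((lvlHom E.fixingSubgroup N s) • ((z' : (↥N)ˣ) : ↥N) : ↥N) : Qb) =
      (((z' : (↥N)ˣ) : ↥N) : Qb) := h
  rw [hsmul, hβ'] at h'
  exact h'

/-! ## HP-D2' : down -/

/-- **HP-D2'.**  Inflation to the absolute level is injective on classes. -/
theorem globDown : GlobDownSpec := by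
  intro U E _ _ hEU f c hinf hcls
  obtain ⟨b, ⟨Fb, hFb, hb⟩, hdb⟩ := (mem_levelCoboundaries₂_iff _ _ _).1
    ((continuousH2π_eq_zero_iff _ _ c).1 hcls)
  haveI := hFb
  -- normalisation constants
  have hf1 : ∀ τ : ↥(lvlGal U E),
      (f : ↥(lvlGal U E) × ↥(lvlGal U E) → LRep ↥(lvlGal U E) E) (1, τ) =
        (f : ↥(lvlGal U E) × ↥(lvlGal U E) → LRep ↥(lvlGal U E) E) (1, 1) :=
    fun τ => cocycles₂_map_one_fst f τ
  have hf2 : ∀ σ : ↥(lvlGal U E),
      (f : ↥(lvlGal U E) × ↥(lvlGal U E) → LRep ↥(lvlGal U E) E) (σ, 1) =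
        (LRep ↥(lvlGal U E) E).ρ σ
          ((f : ↥(lvlGal U E) × ↥(lvlGal U E) → LRep ↥(lvlGal U E) E) (1, 1)) :=
    fun σ => cocycles₂_map_one_snd f σ
  generalize ha₀ : (f : ↥(lvlGal U E) × ↥(lvlGal U E) → LRep ↥(lvlGal U E) E) (1, 1) = a₀
    at hf1 hf2
  -- the basic identity
  have hdb2 : ∀ g h : ↥U, (Rec.gModOn U).ρ g (b h) - b (g * h) + b g =
      inclLin U E ((f : ↥(lvlGal U E) × ↥(lvlGal U E) → LRep ↥(lvlGal U E) E)
        (lvlHom U E g, lvlHom U E h)) := by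
    intro g h
    have := congrFun hdb (g, h)
    rw [d₁₂_hom_apply, hinf] at this
    exact this
  -- `b₁ := b - ι a₀`
  obtain ⟨b₁, hb₁def⟩ : ∃ b₁ : ↥U → Rec.gModOn U, ∀ u, b₁ u = b u - inclLin U E a₀ :=
    ⟨fun u => b u - inclLin U E a₀, fun _ => rfl⟩
  have hb₁ : ∀ g h : ↥U, (Rec.gModOn U).ρ g (b₁ h) - b₁ (g * h) + b₁ g =
      inclLin U E ((f : ↥(lvlGal U E) × ↥(lvlGal U E) → LRep ↥(lvlGal U E) E)
        (lvlHom U E g, lvlHom U E h) - (LRep ↥(lvlGal U E) E).ρ (lvlHom U E g) a₀) := by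
    intro g h
    rw [hb₁def, hb₁def, hb₁def, map_sub, map_sub, inclLin_equivariant, ← hdb2 g h]
    abel
  have hb₁S : ∀ s : ↥U, (s : GQ) ∈ E.fixingSubgroup → ∀ h : ↥U,
      (Rec.gModOn U).ρ s (b₁ h) - b₁ (s * h) + b₁ s = 0 := by
    intro s hs h
    rw [hb₁, lvlHom_eq_one_of_mem U E hs, hf1, map_one, Module.End.one_apply, sub_self, map_zero]
  have hb₁S' : ∀ g s : ↥U, (s : GQ) ∈ E.fixingSubgroup →
      (Rec.gModOn U).ρ g (b₁ s) - b₁ (g * s) + b₁ g = 0 := by
    intro g s hs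
    rw [hb₁, lvlHom_eq_one_of_mem U E hs, hf2, sub_self, map_zero]
  -- Hilbert 90
  obtain ⟨w, hw⟩ : ∃ w : Rec.gModOn U, ∀ s : ↥U, (s : GQ) ∈ E.fixingSubgroup →
      b₁ s + (Rec.gModOn U).ρ s w = w := by
   obtain ⟨z, hz⟩ := hilbert90_abs E Fb
    (fun s => Additive.toMul (b₁ (Subgroup.inclusion hEU s)))
    (by
      intro s t
      have h := hb₁S (Subgroup.inclusion hEU s) s.2 (Subgroup.inclusion hEU t)
      have h3 : b₁ (Subgroup.inclusion hEU s) +
            (Rec.gModOn U).ρ (Subgroup.inclusion hEU s) (b₁ (Subgroup.inclusion hEU t)) -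
          b₁ (Subgroup.inclusion hEU s * Subgroup.inclusion hEU t) = 0 := by
        rw [← h]
        abel
      have h2 : b₁ (Subgroup.inclusion hEU s * Subgroup.inclusion hEU t) =
          b₁ (Subgroup.inclusion hEU s) +
            (Rec.gModOn U).ρ (Subgroup.inclusion hEU s) (b₁ (Subgroup.inclusion hEU t)) :=
        (sub_eq_zero.1 h3).symm
      rw [map_mul, h2]
      rfl)
    (by
      intro s t ht
      have h : b₁ (Subgroup.inclusion hEU s * Subgroup.inclusion hEU t) =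
          b₁ (Subgroup.inclusion hEU s) := by
        rw [hb₁def, hb₁def, hb (Subgroup.inclusion hEU s) (Subgroup.inclusion hEU t) ht]
      simp only [map_mul, h])
   refine ⟨Rec.toGMod U z, fun s hs => ?_⟩
   apply Additive.toMul.injective
   apply Units.ext
   exact hz ⟨(s : GQ), hs⟩
  -- `b₂ := b₁ - w + ρ w`
  obtain ⟨b₂, hb₂def⟩ : ∃ b₂ : ↥U → Rec.gModOn U,
      ∀ u, b₂ u = b₁ u - w + (Rec.gModOn U).ρ u w :=
    ⟨fun u => b₁ u - w + (Rec.gModOn U).ρ u w, fun _ => rfl⟩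
  have hb₂ : ∀ g h : ↥U, (Rec.gModOn U).ρ g (b₂ h) - b₂ (g * h) + b₂ g =
      inclLin U E ((f : ↥(lvlGal U E) × ↥(lvlGal U E) → LRep ↥(lvlGal U E) E)
        (lvlHom U E g, lvlHom U E h) - (LRep ↥(lvlGal U E) E).ρ (lvlHom U E g) a₀) := by
    intro g h
    rw [← hb₁ g h, hb₂def, hb₂def, hb₂def, map_add, map_sub, map_mul, Module.End.mul_apply]
    abel
  have hb₂S : ∀ s : ↥U, (s : GQ) ∈ E.fixingSubgroup → b₂ s = 0 := by
    intro s hs
    rw [hb₂def, sub_add_eq_add_sub, hw s hs, sub_self]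
  have hb₂r : ∀ g s : ↥U, (s : GQ) ∈ E.fixingSubgroup → b₂ (g * s) = b₂ g := by
    intro g s hs
    have h := hb₂ g s
    rw [lvlHom_eq_one_of_mem U E hs, hf2, sub_self, map_zero, hb₂S s hs, map_zero, zero_sub,
      neg_add_eq_zero] at h
    exact h
  have hb₂fix : ∀ s : ↥U, (s : GQ) ∈ E.fixingSubgroup → ∀ h : ↥U,
      (Rec.gModOn U).ρ s (b₂ h) = b₂ h := by
    intro s hs h
    have e := hb₂ s h
    rw [lvlHom_eq_one_of_mem U E hs, hf1, map_one, Module.End.one_apply, sub_self, map_zero,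
      hb₂S s hs, add_zero, sub_eq_zero] at e
    rw [e]
    have hconj : ((h⁻¹ * s * h : ↥U) : GQ) ∈ E.fixingSubgroup :=
      conj_mem_fixingSubgroup E (h : GQ) (s : GQ) hs
    have h2 : s * h = h * (h⁻¹ * s * h) := by group
    rw [h2]
    exact hb₂r h _ hconj
  have hb₂dep : ∀ u u' : ↥U, lvlHom U E u = lvlHom U E u' → b₂ u' = b₂ u := by
    intro u u' h
    obtain ⟨s, hs, rfl⟩ := exists_mul_of_lvlHom_eq U E h
    exact hb₂r u s hs
  -- descent of `b₂`
  let lift : ↥(lvlGal U E) → ↥U := Function.surjInv (lvlHom_surjective U E)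
  have hlift : ∀ σ, lvlHom U E (lift σ) = σ := Function.surjInv_eq (lvlHom_surjective U E)
  have hexb : ∀ σ : ↥(lvlGal U E), ∃ y : LRep ↥(lvlGal U E) E,
      inclLin U E y = b₂ (lift σ) :=
    fun σ => exists_inclLin_eq U E hEU _ (fun s hs => hb₂fix s hs _)
  choose b' hb' using hexb
  have hbb : ∀ u : ↥U, inclLin U E (b' (lvlHom U E u)) = b₂ u := by
    intro u
    rw [hb']
    exact hb₂dep u _ (hlift _).symm
  have hdb' : ∀ σ τ : ↥(lvlGal U E),
      (LRep ↥(lvlGal U E) E).ρ σ (b' τ) - b' (σ * τ) + b' σ =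
        (f : ↥(lvlGal U E) × ↥(lvlGal U E) → LRep ↥(lvlGal U E) E) (σ, τ) -
          (LRep ↥(lvlGal U E) E).ρ σ a₀ := by
    intro σ τ
    obtain ⟨u, rfl⟩ := lvlHom_surjective U E σ
    obtain ⟨v, rfl⟩ := lvlHom_surjective U E τ
    apply inclLin_injective U E
    rw [← hb₂ u v, map_add, map_sub, inclLin_equivariant, ← map_mul, hbb, hbb, hbb]
  rw [H2π_eq_zero_iff]
  refine ⟨fun σ => b' σ + a₀, ?_⟩
  funext ⟨σ, τ⟩
  rw [d₁₂_hom_apply]
  have h := hdb' σ τ
  rw [map_add, ← sub_eq_zero]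
  rw [← sub_eq_zero] at h
  rw [← h]
  abel

end Fermat.Agent.S55.G.HP.H934
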