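/-
S55 (Poitou–Tate), layer G — adapter HP (Hasse principle): FROZEN INTERFACE.
Sub-architect: helper421.   Plan, proofs sketches and owners: `coord/S55-G-HP.md`.

TARGET:  `Rec.HassePrincipleSpec p`  (helper1, `G/Rec/Spec.lean`), `p` an odd prime:
a class of `p`-power order in `Br(K) = gBr U` which is trivial at all finite places is trivial.

Only `def XxxSpec : Prop` (no `sorry`).  Producers prove `theorem xxx : XxxSpec` (or
`theorem xxx_of (h : OtherSpec) … : XxxSpec`); the assembly is `HP/Main.lean`: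

  hassePrinciple_of : p ≠ 2 → HasseFinSpec → GlobDescentSpec → GlobUpSpec → GlobResIndexSpec →
      PlaceEmbSpec → LocalTransferSpec → Rec.LocResSpec → Rec.HassePrincipleSpec p
  hasseFin_of : PClassH1Spec → ClassShortExactSpec → ShapiroJSpec → LocFieldSpec →
      ExistsUnramOutSpec → DivKillSpec → HasseFinSpec

Block F = finite level (model of `G/Defs.lean`), block D = dictionary `gBr U` ↔ finite level.
-/
import Fermat.Agent.S55.G.HP.Defs
import Fermat.Agent.S55.G.Spec
import Fermat.Agent.S55.G.Rec.Spec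

set_option autoImplicit false

open scoped NumberField TensorProduct
open IsDedekindDomain CategoryTheory groupCohomology

noncomputable section

namespace Fermat.Agent.S55.G.HP

local notation "Qb" => AlgebraicClosure ℚ
local notation "GQ" => (AlgebraicClosure ℚ ≃ₐ[ℚ] AlgebraicClosure ℚ)

/-! ## Block F : the Hasse principle at finite level -/

/-- **HP-F0.**  `H¹(G, C_S(L)) = 0` for a `p`-group `G` (`p` odd, `p ∈ S`, `L/L^G` unramified
outside `S`, `μ_p ⊂ L^G`).  This is `PClassUpperSpec` for `H = ⊤`, transported along `⊤ ≃ G`. -/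
def PClassH1Spec : Prop :=
  ∀ (p : ℕ) [hp : Fact p.Prime], p ≠ 2 →
  ∀ (S : Finset Nat.Primes) (G L : Type) [Group G] [Finite G] [Field L] [NumberField L]
    [MulSemiringAction G L] [FaithfulSMul G L],
    (⟨p, hp.out⟩ : Nat.Primes) ∈ S → IsPGroup p G → IsUnramOut S G L →
    HasFixedRootOfUnity p G L →
    Limits.IsZero (groupCohomology (CRep S G L) 1)

/-- **HP-F1.**  Only finitely many primes ramify: there is a finite set `S₀` of primes such that
`L/L^G` is unramified outside every `S ⊇ S₀`.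
(Proof without discriminants: for each `g ≠ 1` pick `x_g ∈ 𝒪_L` with `g x_g ≠ x_g`; `S₀` := the
primes below the finitely many prime ideals containing some `g x_g - x_g`.) -/
def ExistsUnramOutSpec : Prop :=
  ∀ (G L : Type) [Group G] [Finite G] [Field L] [NumberField L] [MulSemiringAction G L]
    [FaithfulSMul G L],
    ∃ S₀ : Finset Nat.Primes, ∀ S : Finset Nat.Primes, S₀ ⊆ S → IsUnramOut S G L

/-- **HP-F2.**  A class `y ∈ H²(G, Lˣ)` has no divisor component for `S` large: there is a finite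
`S₀` such that for all `S ⊇ S₀` the image of `y` in `H²(G, J_S(L) × Div^S(L))` is the image of its
`J_S`-component.  (Proof: a cocycle representing `y` has finitely many values; `S₀` := the primes
below the support of their divisors; then `ord^S ∘ c = 0` as a cochain, so `diag ∘ c = inl ∘
(jdiag ∘ c)` as cochains.) -/
def DivKillSpec : Prop :=
  ∀ (G L : Type) [Group G] [Finite G] [Field L] [NumberField L] [MulSemiringAction G L]
    (y : groupCohomology (LRep G L) 2),
    ∃ S₀ : Finset Nat.Primes, ∀ S : Finset Nat.Primes, S₀ ⊆ S →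
      (T.coeffMap (diagRepHom S G L) 2).hom y =
        (T.coeffMap (jInlRepHom S G L) 2).hom ((T.coeffMap (lDiagRepHom S G L) 2).hom y)

/-- **HP-F3 (finite-level Hasse principle).**  Let `p` be odd, `G` a finite `p`-group acting
faithfully on the number field `L`, `μ_p ⊂ L^G`.  A class `y ∈ H²(G, Lˣ)` whose localisations
`H²(D_𝔪, L_𝔪ˣ)` vanish at all places `𝔪` (above all finite sets `S` of primes) is zero.
(Proof: choose `S ∋ p` by HP-F1, HP-F2; then the image of `y` in `H²(G, J_S × Div^S)` is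
`inl_*` of its `J_S`-component, which vanishes by `ShapiroJSpec` (injectivity) since
`locMapJ ∘ (lDiag)_* = locMapL`; and `H²(G, Lˣ) → H²(G, J_S × Div^S)` is injective by the long
exact sequence of `ClassShortExactSpec` and `H¹(G, C_S(L)) = 0`.) -/
def HasseFinSpec : Prop :=
  ∀ (p : ℕ) [Fact p.Prime], p ≠ 2 →
  ∀ (G L : Type) [Group G] [Finite G] [Field L] [NumberField L] [MulSemiringAction G L]
    [FaithfulSMul G L],
    IsPGroup p G → HasFixedRootOfUnity p G L →
    ∀ y : groupCohomology (LRep G L) 2,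
      (∀ (S : Finset Nat.Primes) (𝔪 : SPlace S L), (locMapL S G 𝔪 2).hom y = 0) → y = 0

/-! ## Block D : dictionary between `gBr U` and the finite levels -/

/-- **HP-D1 (descent).**  Every level cocycle on an open `U ≤ G_ℚ` is the inflation of a cocycle
of a finite level `E`, normal over `ℚ`, with `Gal(ℚ̄/E) ≤ U`; `E` can be chosen above any given
finite `E₀`.  (Proof: `c` is constant mod `Gal(ℚ̄/F₁)` and has finitely many values, all in a
finite `F₂`; `E` := normal closure of `E₀ F₀ F₁ F₂`, `F₀` a level of `U`;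
`f(ū, v̄) := c(u, v)`.) -/
def GlobDescentSpec : Prop :=
  ∀ (U : Subgroup GQ), Rec.IsOpenQ U →
    ∀ (c : ↥(levelCocycles₂ U.subtype (Rec.gModOn U))) (E₀ : IntermediateField ℚ Qb),
      FiniteDimensional ℚ E₀ →
      ∃ (E : IntermediateField ℚ Qb) (_ : FiniteDimensional ℚ E) (_ : Normal ℚ E)
        (f : cocycles₂ (LRep ↥(lvlGal U E) E)),
        E₀ ≤ E ∧ E.fixingSubgroup ≤ U ∧ IsGlobInflation U E f c

/-- **HP-D2 (up).**  A finite-level coboundary inflates to a level coboundary. -/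
def GlobUpSpec : Prop :=
  ∀ (U : Subgroup GQ) (E : IntermediateField ℚ Qb) [FiniteDimensional ℚ E] [Normal ℚ E]
    (f : cocycles₂ (LRep ↥(lvlGal U E) E))
    (c : ↥(levelCocycles₂ U.subtype (Rec.gModOn U))),
    IsGlobInflation U E f c → (H2π (LRep ↥(lvlGal U E) E)).hom f = 0 →
      continuousH2π U.subtype (Rec.gModOn U) c = 0

/-- **HP-D2' (down).**  Inflation to the absolute level is injective on classes, for levels `E`
with `Gal(ℚ̄/E) ≤ U`  (Hilbert 90 + inflation–restriction at finite level). -/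
def GlobDownSpec : Prop :=
  ∀ (U : Subgroup GQ) (E : IntermediateField ℚ Qb) [FiniteDimensional ℚ E] [Normal ℚ E],
    E.fixingSubgroup ≤ U →
    ∀ (f : cocycles₂ (LRep ↥(lvlGal U E) E))
      (c : ↥(levelCocycles₂ U.subtype (Rec.gModOn U))),
      IsGlobInflation U E f c → continuousH2π U.subtype (Rec.gModOn U) c = 0 →
        (H2π (LRep ↥(lvlGal U E) E)).hom f = 0

/-- **HP-D3 (`cor ∘ res = index` on `Br`).**  If the restriction of `x ∈ Br(K)` to `Br(K')`
vanishes then `[K' : K] • x = 0`.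
(Proof: descend to a level `E` with `Gal(ℚ̄/E) ≤ U'` (HP-D1); by HP-D2' the restriction of the
finite-level class to `lvlGal U' E ≤ lvlGal U E` vanishes; `T.ResIndexSpec`; HP-D2.) -/
def GlobResIndexSpec : Prop :=
  ∀ (U U' : Subgroup GQ) (h : U' ≤ U), Rec.IsOpenQ U' → ∀ x : Rec.gBr U,
    Rec.gRes h x = 0 → U'.relIndex U • x = 0

/-- **HP-D4a (places are embeddings).**  Every place `𝔪` of `E ⊗ ℚ_S` is induced by an embedding
`ι_q ∘ g⁻¹ : E → ℚ̄_q`, `q ∈ S`, `g ∈ G_ℚ`: there is a ring embedding `σ : E_𝔪 → ℚ̄_q` with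
`σ (x ⊗ 1) = ι_q (g⁻¹ x)` and `σ (1 ⊗ y) = y_q`.
(Proof: `ℚ_S → E_𝔪` factors through exactly one projection `ℚ_S → ℚ_q` (idempotents);
`E_𝔪/ℚ_q` is algebraic, so it embeds into `ℚ̄_q` over `ℚ_q`; the image of `E` is algebraic over
`ℚ`, hence inside `ι_q(ℚ̄)`; extend `E → ℚ̄` to an automorphism `g⁻¹` of `ℚ̄`.) -/
def PlaceEmbSpec : Prop :=
  ∀ (E : IntermediateField ℚ Qb) [FiniteDimensional ℚ E] (S : Finset Nat.Primes)
    (𝔪 : SPlace S E),
    ∃ (q : S) (g : GQ),
      haveI : Fact ((q.1 : ℕ).Prime) := ⟨q.1.2⟩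
      ∃ σ : LocField S 𝔪 →+* PadicAlgCl (q.1 : ℕ),
        (∀ x : E, σ (toLoc S 𝔪 x) = padicEmbedding (q.1 : ℕ) (g⁻¹ (x : Qb))) ∧
        (∀ y : QS S, σ (LocField.ofQS S 𝔪 y) =
          algebraMap ℚ_[(q.1 : ℕ)] (PadicAlgCl (q.1 : ℕ)) (y q))

/-- **HP-D4b (local transfer).**  Let `𝔪` be the place of `E ⊗ ℚ_S` induced by `ι_q ∘ g⁻¹`
(in the sense of HP-D4a) and let the level cocycle `c` on `U ⊇ Gal(ℚ̄/E)` be the inflation of
the finite-level cocycle `f`.  If the localisation of `[c]` at the place `(q, g)` of `ℚ̄^U`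
vanishes in `lBr q (locSub q g U)`, then the localisation of `[f]` at `𝔪` vanishes in
`H²(D_𝔪, E_𝔪ˣ)`.
(Proof: `τ ↦ (g·loc(τ)·g⁻¹)|_E` maps `V = locSub q g U` ONTO `D_𝔪`, compatibly with `σ`, with
kernel `Gal(ℚ̄_q / σ(E_𝔪))`; the localised level cocycle is the inflation of `σ ∘ f|_{D_𝔪}`;
inflation is injective on `H²` by Hilbert 90 — cf. `Rec.Loc.DownSpec`.) -/
def LocalTransferSpec : Prop :=
  ∀ (U : Subgroup GQ) (E : IntermediateField ℚ Qb) [FiniteDimensional ℚ E] [Normal ℚ E],
    E.fixingSubgroup ≤ U →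
    ∀ (f : cocycles₂ (LRep ↥(lvlGal U E) E))
      (c : ↥(levelCocycles₂ U.subtype (Rec.gModOn U))),
    IsGlobInflation U E f c →
    ∀ (S : Finset Nat.Primes) (𝔪 : SPlace S E) (q : S) (g : GQ),
      haveI : Fact ((q.1 : ℕ).Prime) := ⟨q.1.2⟩
      ∀ σ : LocField S 𝔪 →+* PadicAlgCl (q.1 : ℕ),
        (∀ x : E, σ (toLoc S 𝔪 x) = padicEmbedding (q.1 : ℕ) (g⁻¹ (x : Qb))) →
        (∀ y : QS S, σ (LocField.ofQS S 𝔪 y) =
          algebraMap ℚ_[(q.1 : ℕ)] (PadicAlgCl (q.1 : ℕ)) (y q)) →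
        Rec.locBr (q.1 : ℕ) g U (continuousH2π U.subtype (Rec.gModOn U) c) = 0 →
        (locMapL S ↥(lvlGal U E) 𝔪 2).hom ((H2π (LRep ↥(lvlGal U E) E)).hom f) = 0

end Fermat.Agent.S55.G.HP
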