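/-
S55 (Poitou–Tate), layer G, adapter HP — leaf HP-F2 `DivKillSpec` (subtask 493), helper106.

A class `y ∈ H²(G, Lˣ)` has no divisor component for `S` large: a cocycle representing `y` has
finitely many values, each with finite divisor support; `S₀` := the rational primes below these
supports.  For `S ⊇ S₀` the cochain `ord^S ∘ c` vanishes, so `diag ∘ c = inl ∘ (lDiag ∘ c)` as
cochains, hence as classes.

Main result: `Fermat.Agent.S55.G.HP.H106.divKill : DivKillSpec`.
-/
import Fermat.Agent.S55.G.HP.Spec

set_option autoImplicit false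

open scoped NumberField
open IsDedekindDomain CategoryTheory groupCohomology

noncomputable section

namespace Fermat.Agent.S55.G.HP.H106

open Fermat.Agent.S55.G Fermat.Agent.S55.G.HP

/-- In a ring, a prime ideal containing the natural number `n ≠ 0` contains a prime factor
of `n`. -/
lemma exists_prime_natCast_mem {R : Type*} [CommRing R] (P : Ideal R) [hP : P.IsPrime] :
    ∀ n : ℕ, n ≠ 0 → (n : R) ∈ P → ∃ q : ℕ, q.Prime ∧ (q : R) ∈ P := by
  intro n
  induction n using Nat.strong_induction_on with
  | _ n ih =>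
    intro hn0 hn
    have hn1 : n ≠ 1 := by
      rintro rfl
      apply hP.ne_top
      rw [Ideal.eq_top_iff_one]
      simpa using hn
    obtain ⟨m, hm⟩ := Nat.minFac_dvd n
    have hmf : (n.minFac).Prime := Nat.minFac_prime hn1
    have hm0 : m ≠ 0 := by
      rintro rfl
      exact hn0 (by simpa using hm)
    have hlt : m < n := by
      have h2 : 2 ≤ n.minFac := hmf.two_le
      have hmpos : 0 < m := Nat.pos_of_ne_zero hm0
      calc m < 2 * m := by omega
        _ ≤ n.minFac * m := Nat.mul_le_mul_right m h2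
        _ = n := hm.symm
    have hprod : ((n.minFac : ℕ) : R) * (m : R) ∈ P := by
      have : (n : R) = ((n.minFac : ℕ) : R) * (m : R) := by
        conv_lhs => rw [hm]
        push_cast
        rfl
      rwa [← this]
    rcases hP.mem_or_mem hprod with h | h
    · exact ⟨n.minFac, hmf, h⟩
    · exact ih m hlt hm0 h

variable {L : Type} [Field L] [NumberField L]

/-- Every finite prime of a number field lies above a rational prime. -/
lemma exists_primes_mem (w : HeightOneSpectrum (𝓞 L)) :
    ∃ q : Nat.Primes, ((q : ℕ) : 𝓞 L) ∈ w.asIdeal := by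
  have := w.isPrime
  have hmem : ((Ideal.absNorm w.asIdeal : ℕ) : 𝓞 L) ∈ w.asIdeal := Ideal.absNorm_mem w.asIdeal
  have hne : Ideal.absNorm w.asIdeal ≠ 0 := by
    intro h
    exact w.ne_bot (Ideal.absNorm_eq_zero_iff.1 h)
  obtain ⟨q, hq, hqm⟩ := exists_prime_natCast_mem w.asIdeal _ hne hmem
  exact ⟨⟨q, hq⟩, hqm⟩

/-- A chosen rational prime below `w`. -/
def below (w : HeightOneSpectrum (𝓞 L)) : Nat.Primes := (exists_primes_mem w).choose

lemma below_mem (w : HeightOneSpectrum (𝓞 L)) : ((below w : ℕ) : 𝓞 L) ∈ w.asIdeal :=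
  (exists_primes_mem w).choose_spec

/-- The rational primes below the divisor support of `x ∈ Lˣ`. -/
def suppPrimes (x : Additive Lˣ) : Finset Nat.Primes :=
  (ordAt_support_finite x).toFinset.image below

lemma ordAt_eq_zero_of_not_isAbove {S : Finset Nat.Primes} {x : Additive Lˣ}
    (hS : suppPrimes x ⊆ S) (w : HeightOneSpectrum (𝓞 L)) (hw : ¬ IsAbove S L w) :
    ordAt w x = 0 := by
  by_contra h
  apply hw
  refine ⟨below w, hS ?_, below_mem w⟩
  rw [suppPrimes, Finset.mem_image]
  exact ⟨w, (Set.Finite.mem_toFinset _).2 h, rfl⟩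

lemma ordHom_eq_zero {S : Finset Nat.Primes} {x : Additive Lˣ} (hS : suppPrimes x ⊆ S) :
    ordHom S L x = 0 := by
  have hx : x ∈ sUnit S L := (mem_sUnit_iff S L x).2 fun w =>
    ordAt_eq_zero_of_not_isAbove hS w.1 w.2
  exact hx

lemma diagHom_eq_inl {S : Finset Nat.Primes} {x : Additive Lˣ} (hS : suppPrimes x ⊆ S) :
    diagHom S L x = (unitsDiag S L x, 0) := by
  refine Prod.ext rfl ?_
  exact ordHom_eq_zero hS

/-- The map induced on `H²` by a morphism of representations, on cocycle representatives. -/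
lemma coeffMap_H2π {k G : Type} [CommRing k] [Group G] {A B : Rep.{0} k G} (f : A ⟶ B)
    (c : cocycles₂ A) :
    (T.coeffMap f 2).hom ((H2π A).hom c) = (H2π B).hom (mapCocycles₂ (MonoidHom.id G) f c) :=
  congr($(H2π_comp_map (A := A) (B := B) (MonoidHom.id G) f) c)

/-- If `g ∘ f` and `h` agree on the values of the cocycle `c`, then `h_* [c] = g_* (f_* [c])`. -/
lemma coeffMap_eq_of_values {k G : Type} [CommRing k] [Group G] {A B C : Rep.{0} k G}
    (f : A ⟶ B) (g : B ⟶ C) (h : A ⟶ C) (c : cocycles₂ A)
    (hfg : ∀ p : G × G, g.hom (f.hom ((c : G × G → A) p)) = h.hom ((c : G × G → A) p)) :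
    (T.coeffMap h 2).hom ((H2π A).hom c) =
      (T.coeffMap g 2).hom ((T.coeffMap f 2).hom ((H2π A).hom c)) := by
  rw [coeffMap_H2π h, coeffMap_H2π f, coeffMap_H2π g]
  congr 1
  apply Subtype.ext
  funext p
  exact (hfg p).symm

/-- **HP-F2.** -/
theorem divKill : DivKillSpec := by
  intro G L _ _ _ _ _ y
  classical
  let _ : Fintype G := Fintype.ofFinite G
  induction y using H2_induction_on with
  | h c =>
    refine ⟨Finset.univ.biUnion fun p : G × G => suppPrimes ((c : G × G → Additive Lˣ) p), ?_⟩
    intro S hS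
    have hc : ∀ p : G × G, suppPrimes ((c : G × G → Additive Lˣ) p) ⊆ S := fun p =>
      (Finset.subset_biUnion_of_mem
        (fun p : G × G => suppPrimes ((c : G × G → Additive Lˣ) p)) (Finset.mem_univ p)).trans hS
    exact coeffMap_eq_of_values (lDiagRepHom S G L) (jInlRepHom S G L) (diagRepHom S G L) c
      fun p => (diagHom_eq_inl (hc p)).symm

end Fermat.Agent.S55.G.HP.H106
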