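import Fermat.Agent.S55.G.HP.UnramOutH371

/-!
# S55 / layer G / adapter HP, leaf HP-F2 (helper371): `DivKillSpec`

A class `y ∈ H²(G, Lˣ)` has no divisor component for `S` large.  A cocycle `c` representing `y`
has finitely many values; `S₀` := the rational primes below the finitely many primes of `L` in
the supports of the divisors of the `c (g, h)`.  For `S ⊇ S₀`, `ord^S ∘ c = 0`, hence
`diag ∘ c = inl ∘ (jdiag ∘ c)` as cochains.
-/

set_option autoImplicit false

open scoped NumberField
open IsDedekindDomain CategoryTheory groupCohomology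

noncomputable section

namespace Fermat.Agent.S55.G.HP.H371

/-- Every finite prime of a number field lies above a rational prime. -/
theorem exists_prime_natCast_mem {L : Type} [Field L] [NumberField L]
    (w : HeightOneSpectrum (𝓞 L)) : ∃ q : Nat.Primes, ((q : ℕ) : 𝓞 L) ∈ w.asIdeal := by
  have := w.isPrime
  have h0 : Ideal.absNorm w.asIdeal ≠ 0 := by
    intro h
    exact w.ne_bot (Ideal.absNorm_eq_zero_iff.1 h)
  obtain ⟨q, hq, -, hqw⟩ := exists_prime_dvd_of_natCast_mem w.asIdeal _ h0 (Ideal.absNorm_mem _)
  exact ⟨⟨q, hq⟩, hqw⟩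

/-- **HP-F2.** -/
theorem divKill : DivKillSpec := by
  intro G L _ _ _ _ _ y
  classical
  induction y using groupCohomology.H2_induction_on with
  | h c =>
  have : Fintype G := Fintype.ofFinite G
  choose Q hQ using fun w : HeightOneSpectrum (𝓞 L) => exists_prime_natCast_mem w
  let S₀ : Finset Nat.Primes :=
    Finset.univ.biUnion fun gh : G × G =>
      (ordAt_support_finite (c.1 gh)).toFinset.image Q
  refine ⟨S₀, fun S hS => ?_⟩
  have key : ∀ gh : G × G, ordHom S L (c.1 gh) = 0 := by
    intro gh
    ext w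
    rw [ordHom_apply, Finsupp.zero_apply]
    by_contra hne
    apply w.2
    refine ⟨Q w.1, hS ?_, hQ w.1⟩
    rw [Finset.mem_biUnion]
    refine ⟨gh, Finset.mem_univ _, Finset.mem_image.2 ⟨w.1, ?_, rfl⟩⟩
    rw [Set.Finite.mem_toFinset]
    exact hne
  have e1 := groupCohomology.H2π_comp_map_apply (MonoidHom.id G) (diagRepHom S G L) c
  have e2 := groupCohomology.H2π_comp_map_apply (MonoidHom.id G) (lDiagRepHom S G L) c
  have e3 := groupCohomology.H2π_comp_map_apply (MonoidHom.id G) (jInlRepHom S G L)
    (groupCohomology.mapCocycles₂ (MonoidHom.id G) (lDiagRepHom S G L) c)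
  refine (e1.trans ?_).trans ((congrArg _ e2).trans e3).symm
  congr 1
  apply Subtype.ext
  funext gh
  change diagHom S L (c.1 gh) = (unitsDiag S L (c.1 gh), 0)
  exact Prod.ext rfl (key gh)

end Fermat.Agent.S55.G.HP.H371
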