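import Fermat.Agent.S55.G.HP.DescH54
import Fermat.Agent.S55.G.H953.Hilbert90
import Fermat.Agent.S55.L.Inv481.InflInjCore

/-!
# S55 / G / HP, leaf HP-D2' (helper54): `globDown : GlobDownSpec`

Inflation from a finite level `E` (normal over `ℚ`, `Gal(ℚ̄/E) ≤ U`) to the absolute level is
injective on classes.

Proof.  If `c = Inf_E f = d b` with `b` level-constant, then by `H54.descent_core` there is a
finite normal level `F ⊇ E` to which `c` and `b` descend: `c = Inf_F f_F`, `b = Inf_F b'`,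
`d b' = f_F`.  As cochains `f_F = Inf_{E → F} f`, so the inflation of `f` to the level `F` is a
coboundary.  Inflation `H²(lvlGal U E, Eˣ) → H²(lvlGal U F, Fˣ)` is injective
(`L.Inv481.mem_coboundaries₂_of_inflation`; the kernel of `lvlGal U F → lvlGal U E` is a finite
group acting faithfully on `F` with fixed field `E`, Hilbert 90 is `G.H953.hilbert90_ringAut`).
-/

set_option autoImplicit false
set_option linter.unusedSectionVars false
set_option linter.style.haveILetI false

noncomputable section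

namespace Fermat.Agent.S55.G.HP.H54

open groupCohomology Fermat.Agent.S55.G Fermat.Agent.S55.G.Rec Fermat.Agent.S55.G.HP

local notation "Qb" => AlgebraicClosure ℚ
local notation "GQ" => (AlgebraicClosure ℚ ≃ₐ[ℚ] AlgebraicClosure ℚ)

section Tower

variable (U : Subgroup GQ) (E F : IntermediateField ℚ Qb) [Normal ℚ E] [Normal ℚ F]
  (hEF : E ≤ F)

include hEF in
lemma lvlHom_ker_le : (lvlHom U F).ker ≤ (lvlHom U E).ker := by
  intro u hu
  rw [MonoidHom.mem_ker] at hu ⊢
  exact lvlHom_eq_one_of_mem U E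
    (IntermediateField.fixingSubgroup_antitone hEF (mem_fixingSubgroup_of_lvlHom_eq_one U F hu))

/-- The projection `lvlGal U F → lvlGal U E` for `E ≤ F`. -/
def lvlProj : ↥(lvlGal U F) →* ↥(lvlGal U E) :=
  (lvlHom U F).liftOfRightInverse (Function.surjInv (lvlHom_surjective U F))
    (Function.rightInverse_surjInv (lvlHom_surjective U F))
    ⟨lvlHom U E, lvlHom_ker_le U E F hEF⟩

lemma lvlProj_lvlHom (u : ↥U) : lvlProj U E F hEF (lvlHom U F u) = lvlHom U E u :=
  MonoidHom.liftOfRightInverse_comp_apply _ _ _ _ u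

lemma lvlProj_surjective : Function.Surjective (lvlProj U E F hEF) := by
  intro σ
  obtain ⟨u, rfl⟩ := lvlHom_surjective U E σ
  exact ⟨lvlHom U F u, lvlProj_lvlHom U E F hEF u⟩

/-- The inclusion `Eˣ → Fˣ`, additively. -/
def towerIncl : LRep ↥(lvlGal U E) ↥E →+ LRep ↥(lvlGal U F) ↥F :=
  (MonoidHom.toAdditive
    (Units.map ((IntermediateField.inclusion hEF : ↥E →ₐ[ℚ] ↥F) : ↥E →* ↥F)) :
      Additive (↥E)ˣ →+ Additive (↥F)ˣ)

lemma inclLin_towerIncl (x : LRep ↥(lvlGal U E) ↥E) :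
    inclLin U F (towerIncl U E F hEF x) = inclLin U E x := by
  apply Additive.toMul.injective
  apply Units.ext
  rfl

lemma towerIncl_injective : Function.Injective (towerIncl U E F hEF) := by
  intro x y h
  apply inclLin_injective U E
  rw [← inclLin_towerIncl U E F hEF x, ← inclLin_towerIncl U E F hEF y, h]

lemma towerIncl_equivariant (g : ↥(lvlGal U F)) (x : LRep ↥(lvlGal U E) ↥E) :
    towerIncl U E F hEF ((LRep ↥(lvlGal U E) ↥E).ρ (lvlProj U E F hEF g) x) =
      (LRep ↥(lvlGal U F) ↥F).ρ g (towerIncl U E F hEF x) := by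
  obtain ⟨u, rfl⟩ := lvlHom_surjective U F g
  apply inclLin_injective U F
  rw [inclLin_towerIncl, lvlProj_lvlHom, inclLin_equivariant, inclLin_equivariant,
    inclLin_towerIncl]

/-- elements of `Fˣ` fixed by the kernel of `lvlGal U F → lvlGal U E` lie in `Eˣ`
(needs `Gal(ℚ̄/E) ≤ U`) -/
lemma exists_towerIncl_eq (hEU : E.fixingSubgroup ≤ U) (y : LRep ↥(lvlGal U F) ↥F)
    (hy : ∀ s : ↥(lvlGal U F), lvlProj U E F hEF s = 1 → (LRep ↥(lvlGal U F) ↥F).ρ s y = y) :
    ∃ x : LRep ↥(lvlGal U E) ↥E, towerIncl U E F hEF x = y := by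
  obtain ⟨x, hx⟩ := exists_inclLin_eq U E hEU (inclLin U F y) (by
    intro s hs
    rw [← inclLin_equivariant, hy]
    rw [lvlProj_lvlHom]
    exact lvlHom_eq_one_of_mem U E hs)
  refine ⟨x, ?_⟩
  apply inclLin_injective U F
  rw [inclLin_towerIncl, hx]

/-- The kernel of `lvlGal U F → lvlGal U E` acting on `F` by ring automorphisms. -/
def kerAut : ↥(lvlProj U E F hEF).ker →* (↥F ≃+* ↥F) where
  toFun s := (((s : ↥(lvlGal U F)) : F ≃ₐ[ℚ] F) : ↥F ≃+* ↥F)
  map_one' := rfl
  map_mul' _ _ := rfl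

lemma kerAut_injective : Function.Injective (kerAut U E F hEF) := by
  intro s t h
  apply Subtype.ext
  apply Subtype.ext
  apply AlgEquiv.ext
  intro x
  exact DFunLike.congr_fun h x

/-- **Hilbert 90** for the kernel of `lvlGal U F → lvlGal U E`. -/
lemma hilbert90_ker [FiniteDimensional ℚ F] (z : ↥(lvlGal U F) → LRep ↥(lvlGal U F) ↥F)
    (hz : ∀ s t : ↥(lvlGal U F), lvlProj U E F hEF s = 1 → lvlProj U E F hEF t = 1 →
      z (s * t) = (LRep ↥(lvlGal U F) ↥F).ρ s (z t) + z s) :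
    ∃ m : LRep ↥(lvlGal U F) ↥F, ∀ s : ↥(lvlGal U F), lvlProj U E F hEF s = 1 →
      (LRep ↥(lvlGal U F) ↥F).ρ s m - m = z s := by
  haveI : Finite ↥(lvlProj U E F hEF).ker := inferInstance
  obtain ⟨β, hβ⟩ := H953.hilbert90_ringAut (kerAut U E F hEF) (kerAut_injective U E F hEF)
    (fun d => (Additive.toMul (z (d : ↥(lvlGal U F))) : (↥F)ˣ)) (by
      intro g h
      have := hz g h g.2 h.2
      have h2 := congrArg (fun a : LRep ↥(lvlGal U F) ↥F => (Additive.toMul a : (↥F)ˣ)) this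
      exact h2)
  refine ⟨Additive.ofMul β, fun s hs => ?_⟩
  have := hβ ⟨s, hs⟩
  exact congrArg (fun a : (↥F)ˣ => (Additive.ofMul a : LRep ↥(lvlGal U F) ↥F)) this

end Tower

/-- **HP-D2'.** Inflation to the absolute level is injective on classes. -/
theorem globDown : GlobDownSpec := by
  intro U E hE _ hEU f c hinf hcls
  rw [continuousH2π_eq_zero_iff, mem_levelCoboundaries₂_iff] at hcls
  obtain ⟨b, hbl, hdb⟩ := hcls
  obtain ⟨F, hF, hN, fF, b', hEF, hFU, hinfF, hinfb, hdb'⟩ :=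
    descent_core U E hE hEU c 1 b hbl (by rw [one_smul]; exact hdb) E hE
  haveI := hF; haveI := hN
  rw [H2π_eq_zero_iff]
  refine L.Inv481.mem_coboundaries₂_of_inflation (LRep ↥(lvlGal U E) ↥E)
    (LRep ↥(lvlGal U F) ↥F) (lvlProj U E F hEF) (lvlProj_surjective U E F hEF)
    (towerIncl U E F hEF) (towerIncl_injective U E F hEF) (towerIncl_equivariant U E F hEF)
    (exists_towerIncl_eq U E F hEF hEU) (hilbert90_ker U E F hEF) f ⟨b', ?_⟩
  rw [hdb', one_smul]
  apply glInfl₂_injective U F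
  rw [← hinfF, hinf]
  funext ⟨u, v⟩
  show inclLin U E (f (lvlHom U E u, lvlHom U E v)) =
    inclLin U F (towerIncl U E F hEF (f (lvlProj U E F hEF (lvlHom U F u),
      lvlProj U E F hEF (lvlHom U F v))))
  rw [lvlProj_lvlHom, lvlProj_lvlHom, inclLin_towerIncl]

end Fermat.Agent.S55.G.HP.H54
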