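/-
S55 (Poitou–Tate), layer G, adapter HP — leaf **HP-F1** (`ExistsUnramOutSpec`), helper741.

`existsUnramOut : HP.ExistsUnramOutSpec` :
for a finite group `G` acting faithfully on a number field `L` there is a finite set `S₀` of
rational primes such that `L/L^G` is unramified outside every `S ⊇ S₀` (in the sense of
`G.IsUnramOut`).

Proof (no discriminants): for `g ≠ 1` pick `x_g ∈ 𝓞 L` with `g • x_g ≠ x_g` (faithfulness, clear
denominators), put `n_g := absNorm (span {g • x_g - x_g}) ≠ 0` and let `S₀` be the set of prime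
factors of the `n_g`.  If `g ≠ 1` lies in the inertia group of `w`, then `g • x_g - x_g ∈ w`, so
`n_g ∈ w` (`Ideal.absNorm_mem`), so some prime factor `q` of `n_g` lies in `w`: `w` is above `S₀`.
-/
import Fermat.Agent.S55.G.HP.Spec

set_option autoImplicit false

open scoped NumberField
open IsDedekindDomain

noncomputable section

namespace Fermat.Agent.S55.G.HP.H741

/-- A natural number `n ≠ 0` lying in a prime ideal has a prime factor lying in that ideal. -/
theorem exists_prime_factor_mem {R : Type*} [CommRing R] (P : Ideal R) [hP : P.IsPrime] :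
    ∀ n : ℕ, n ≠ 0 → (n : R) ∈ P → ∃ q : ℕ, q.Prime ∧ q ∣ n ∧ (q : R) ∈ P := by
  intro n
  induction n using Nat.recOnMul with
  | zero => intro h; exact absurd rfl h
  | one =>
    intro _ h
    exfalso
    apply hP.ne_top
    rw [Ideal.eq_top_iff_one]
    simpa using h
  | prime p hp => intro _ h; exact ⟨p, hp, dvd_rfl, h⟩
  | mul a b iha ihb =>
    intro hab h
    have ha : a ≠ 0 := fun h0 => hab (by rw [h0, zero_mul])
    have hb : b ≠ 0 := fun h0 => hab (by rw [h0, mul_zero])
    rw [Nat.cast_mul] at h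
    rcases hP.mem_or_mem h with h' | h'
    · obtain ⟨q, hq, hqa, hqP⟩ := iha ha h'
      exact ⟨q, hq, hqa.mul_right b, hqP⟩
    · obtain ⟨q, hq, hqb, hqP⟩ := ihb hb h'
      exact ⟨q, hq, hqb.mul_left a, hqP⟩

variable {G L : Type} [Group G] [Field L] [NumberField L] [MulSemiringAction G L]

/-- An element acting nontrivially on `L` moves some algebraic integer. -/
theorem exists_integer_smul_ne [FaithfulSMul G L] {g : G} (hg : g ≠ 1) :
    ∃ x : 𝓞 L, g • x ≠ x := by
  by_contra h
  have h : ∀ x : 𝓞 L, g • x = x := fun x => by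
    by_contra hx
    exact h ⟨x, hx⟩
  apply hg
  apply FaithfulSMul.eq_of_smul_eq_smul (α := L)
  intro a
  obtain ⟨x, y, -, rfl⟩ := IsFractionRing.div_surjective (A := 𝓞 L) a
  have hx : g • (algebraMap (𝓞 L) L x) = algebraMap (𝓞 L) L x :=
    congrArg (algebraMap (𝓞 L) L) (h x)
  have hy : g • (algebraMap (𝓞 L) L y) = algebraMap (𝓞 L) L y :=
    congrArg (algebraMap (𝓞 L) L) (h y)
  have hdiv : g • (algebraMap (𝓞 L) L x / algebraMap (𝓞 L) L y) =
      g • (algebraMap (𝓞 L) L x) / g • (algebraMap (𝓞 L) L y) :=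
    map_div₀ (MulSemiringAction.toRingHom G L g) _ _
  rw [one_smul, hdiv, hx, hy]

/-- **HP-F1**: only finitely many primes ramify in `L/L^G`. -/
theorem existsUnramOut : ExistsUnramOutSpec := by
  intro G L _ _ _ _ _ _
  classical
  have : Fintype G := Fintype.ofFinite G
  have hx : ∀ g : G, g ≠ 1 → ∃ x : 𝓞 L, g • x ≠ x := fun g hg => exists_integer_smul_ne hg
  choose! x hx using hx
  let n : G → ℕ := fun g => Ideal.absNorm (Ideal.span {g • x g - x g})
  let S₀ : Finset Nat.Primes :=
    (Finset.univ : Finset G).biUnion fun g =>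
      (n g).primeFactors.attach.image fun q => ⟨q.1, Nat.prime_of_mem_primeFactors q.2⟩
  refine ⟨S₀, fun S hS w hw g hgw => ?_⟩
  by_cases hg : g = 1
  · subst hg
    intro y
    exact one_smul _ _
  exfalso
  apply hw
  have hd : g • x g - x g ∈ w.asIdeal := hgw (x g)
  have hle : Ideal.span {g • x g - x g} ≤ w.asIdeal := by
    rw [Ideal.span_le, Set.singleton_subset_iff]
    exact hd
  have hn : ((n g : ℕ) : 𝓞 L) ∈ w.asIdeal := hle (Ideal.absNorm_mem _)
  have hn0 : n g ≠ 0 := by
    intro h0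
    have h1 : Ideal.span {g • x g - x g} = ⊥ := Ideal.absNorm_eq_zero_iff.mp h0
    rw [Ideal.span_singleton_eq_bot, sub_eq_zero] at h1
    exact hx g hg h1
  have := w.isPrime
  obtain ⟨q, hq, hqn, hqw⟩ := exists_prime_factor_mem w.asIdeal (n g) hn0 hn
  have hqmem : q ∈ (n g).primeFactors := Nat.mem_primeFactors.mpr ⟨hq, hqn, hn0⟩
  have hqS : (⟨q, hq⟩ : Nat.Primes) ∈ S₀ :=
    Finset.mem_biUnion.mpr ⟨g, Finset.mem_univ g,
      Finset.mem_image.mpr ⟨⟨q, hqmem⟩, Finset.mem_attach _ _, rfl⟩⟩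
  exact ⟨(⟨q, hq⟩ : Nat.Primes), hS hqS, hqw⟩

end Fermat.Agent.S55.G.HP.H741
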