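import Fermat.Agent.S55.G.HP.Spec

/-!
# S55 / layer G / adapter HP, leaf HP-F0                                          (helper287)

`pClassH1_of : G.PClassUpperSpec → HP.PClassH1Spec` — `H¹(G, C_S(L)) = 0` for a `p`-group `G`
is the upper-bound spec at `H = ⊤`, transported along `⊤ ≃* G`.
-/

set_option autoImplicit false

open CategoryTheory groupCohomology

noncomputable section

namespace Fermat.Agent.S55.G.HP.H287

open Fermat.Agent.S55.G

/-- `Hⁿ(⊤, A|⊤) ≅ Hⁿ(G, A)`. -/
def topIso {k G : Type} [CommRing k] [Group G] (A : Rep.{0} k G) (n : ℕ) :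
    groupCohomology (T.resSub A (⊤ : Subgroup G)) n ≅ groupCohomology A n :=
  groupCohomology.mapIso (A := A) (B := T.resSub A (⊤ : Subgroup G))
    (Subgroup.topEquiv : (⊤ : Subgroup G) ≃* G) (LinearEquiv.refl k A.V) (fun _ => rfl) n

/-- **HP-F0.** -/
theorem pClassH1_of (hUP : PClassUpperSpec) : PClassH1Spec := by
  intro p hp hp2 S G L _ _ _ _ _ _ hpS hG hunr hζ
  exact Limits.IsZero.of_iso (hUP p hp2 S G L hpS hG hunr hζ ⊤).1 (topIso (CRep S G L) 1).symm

end Fermat.Agent.S55.G.HP.H287

end
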