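/-
S55 (Poitou–Tate), layer G, adapter HP — leaf HP-D3 (helper297).

`globResIndex_of : GlobDescentSpec → GlobUpSpec → GlobDownSpec → T.ResIndexSpec → GlobResIndexSpec`

If the restriction of `x ∈ Br(K) = gBr U` to `Br(K') = gBr U'` vanishes (`U' ≤ U` open), then
`[U : U'] • x = 0`.  Proof: descend to a finite normal level `E` with `Gal(ℚ̄/E) ≤ U'`; the
restricted finite-level class vanishes (down); `res = 0 ⇒ index • x = 0` at finite level
(`T.ResIndexSpec`); inflate back (up); the finite-level index is `[U : U']` because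
`ker (restrictNormalHom E) = Gal(ℚ̄/E) ≤ U'`.
-/
import Fermat.Agent.S55.G.HP.Spec
import Fermat.Agent.S55.T.Spec

set_option autoImplicit false

open CategoryTheory groupCohomology

noncomputable section

namespace Fermat.Agent.S55.G.HP.H297

local notation "Qb" => AlgebraicClosure ℚ
local notation "GQ" => (AlgebraicClosure ℚ ≃ₐ[ℚ] AlgebraicClosure ℚ)

/-- The finite-level index is the index `[U : U']` when `Gal(ℚ̄/E) ≤ U' ≤ U`. -/
lemma relIndex_lvlGal (U U' : Subgroup GQ) (E : IntermediateField ℚ Qb) [Normal ℚ E]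
    (hE : E.fixingSubgroup ≤ U') (h : U' ≤ U) :
    (lvlGal U' E).relIndex (lvlGal U E) = U'.relIndex U := by
  have hk : (AlgEquiv.restrictNormalHom (F := ℚ) (K₁ := Qb) E).ker ≤ E.fixingSubgroup := by
    intro σ hσ
    rw [IntermediateField.mem_fixingSubgroup_iff]
    intro x hx
    have h1 : AlgEquiv.restrictNormalHom (F := ℚ) (K₁ := Qb) E σ = 1 := hσ
    have h2 := AlgEquiv.restrictNormal_commutes σ E ⟨x, hx⟩
    have h3 : σ.restrictNormal E = 1 := h1
    rw [h3] at h2
    exact h2.symm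
  have h1 : U' ⊔ (AlgEquiv.restrictNormalHom (F := ℚ) (K₁ := Qb) E).ker = U' :=
    sup_of_le_left (hk.trans hE)
  have h2 : U ⊔ (AlgEquiv.restrictNormalHom (F := ℚ) (K₁ := Qb) E).ker = U :=
    sup_of_le_left ((hk.trans hE).trans h)
  have h3 := Subgroup.relIndex_map_map (AlgEquiv.restrictNormalHom (F := ℚ) (K₁ := Qb) E) U' U
  rw [h1, h2] at h3
  exact h3

/-- Restriction of a finite-level cocycle from `lvlGal U E` to `lvlGal U' E`. -/
def resCocycle {U U' : Subgroup GQ} (E : IntermediateField ℚ Qb) [Normal ℚ E] (h : U' ≤ U)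
    (f : cocycles₂ (LRep ↥(lvlGal U E) E)) : cocycles₂ (LRep ↥(lvlGal U' E) E) :=
  ⟨lvlRes₂ U E h (f : ↥(lvlGal U E) × ↥(lvlGal U E) → Additive (↥E)ˣ),
    (mem_cocycles₂_iff (A := LRep ↥(lvlGal U' E) E) _).2 fun g h' j =>
      (mem_cocycles₂_iff (A := LRep ↥(lvlGal U E) E) _).1 f.2
        (lvlIncl E h g) (lvlIncl E h h') (lvlIncl E h j)⟩

lemma resCocycle_apply {U U' : Subgroup GQ} (E : IntermediateField ℚ Qb) [Normal ℚ E]
    (h : U' ≤ U) (f : cocycles₂ (LRep ↥(lvlGal U E) E)) (a b : ↥(lvlGal U' E)) :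
    resCocycle E h f (a, b) = f (lvlIncl E h a, lvlIncl E h b) := rfl

/-- The coefficient inclusion `Eˣ → ℚ̄ˣ`, additively. -/
def inclAdd (E : IntermediateField ℚ Qb) : Additive (↥E)ˣ →+ Additive Qbˣ :=
  MonoidHom.toAdditive (unitsInclQ E)

lemma glInfl₂_eq_inclAdd (U : Subgroup GQ) (E : IntermediateField ℚ Qb) [Normal ℚ E]
    (f : ↥(lvlGal U E) × ↥(lvlGal U E) → Additive (↥E)ˣ) (p : ↥U × ↥U) :
    glInfl₂ U E f p = inclAdd E (f (lvlHom U E p.1, lvlHom U E p.2)) := rfl

/-- Multiples of inflations are inflations. -/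
lemma isGlobInflation_nsmul (U : Subgroup GQ) (E : IntermediateField ℚ Qb) [Normal ℚ E] (n : ℕ)
    (f : cocycles₂ (LRep ↥(lvlGal U E) E))
    (c : ↥(levelCocycles₂ U.subtype (Rec.gModOn U))) (h : IsGlobInflation U E f c) :
    IsGlobInflation U E (n • f) (n • c) := by
  unfold IsGlobInflation at h ⊢
  funext p
  have h1 : ((n • c : ↥(levelCocycles₂ U.subtype (Rec.gModOn U))) : ↥U × ↥U → Rec.gModOn U) p
      = n • (c : ↥U × ↥U → Rec.gModOn U) p := rfl
  have h3 : glInfl₂ U E
      ((n • f : cocycles₂ (LRep ↥(lvlGal U E) E)) :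
        ↥(lvlGal U E) × ↥(lvlGal U E) → Additive (↥E)ˣ) p
      = n • glInfl₂ U E (f : ↥(lvlGal U E) × ↥(lvlGal U E) → Additive (↥E)ˣ) p :=
    map_nsmul (inclAdd E) n
      ((f : ↥(lvlGal U E) × ↥(lvlGal U E) → Additive (↥E)ˣ) (lvlHom U E p.1, lvlHom U E p.2))
  exact h1.trans ((congrArg (fun y => n • y) (congrFun h p)).trans h3.symm)

/-- A cocycle which is a coboundary on `H` has vanishing restriction to `H`. -/
lemma resMap_H2π_eq_zero {k G : Type} [CommRing k] [Group G] (A : Rep.{0} k G) (H : Subgroup G)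
    (f : cocycles₂ A) (b : H → A)
    (hb : ∀ s t : H, f ((s : G), (t : G)) = A.ρ s (b t) - b (s * t) + b s) :
    (T.resMap A H 2).hom ((H2π A).hom f) = 0 := by
  set_option backward.isDefEq.respectTransparency false in
  have hcomp : (T.resMap A H 2).hom ((H2π A).hom f) =
      H2π (Rep.res H.subtype A) (mapCocycles₂ H.subtype (𝟙 (Rep.res H.subtype A)) f) := by
    rw [← H2π_comp_map_apply H.subtype]
  set_option backward.isDefEq.respectTransparency false in
  rw [hcomp, H2π_eq_zero_iff]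
  refine ⟨b, ?_⟩
  funext ⟨s, t⟩
  set_option backward.isDefEq.respectTransparency false in
  rw [d₁₂_hom_apply]
  exact (hb s t).symm

/-- A cocycle with vanishing class is a coboundary (elementwise form). -/
lemma exists_of_H2π_hom_eq_zero {k G : Type} [CommRing k] [Group G] (A : Rep.{0} k G)
    (f : cocycles₂ A)
    (h : (H2π A).hom f = 0) :
    ∃ b : G → A, ∀ s t : G, f (s, t) = A.ρ s (b t) - b (s * t) + b s := by
  set_option backward.isDefEq.respectTransparency false in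
  obtain ⟨b, hb⟩ := (H2π_eq_zero_iff f).1 h
  refine ⟨b, fun s t => ?_⟩
  have h1 := congrFun hb (s, t)
  set_option backward.isDefEq.respectTransparency false in
  rw [d₁₂_hom_apply] at h1
  exact h1.symm

/-- The restricted level cocycle is the inflation of the restricted finite-level cocycle. -/
lemma isGlobInflation_res {U U' : Subgroup GQ} (E : IntermediateField ℚ Qb) [Normal ℚ E]
    (h : U' ≤ U) (f : cocycles₂ (LRep ↥(lvlGal U E) E))
    (c : ↥(levelCocycles₂ U.subtype (Rec.gModOn U))) (hfc : IsGlobInflation U E f c) :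
    IsGlobInflation U' E (resCocycle E h f)
      (levelCocycles₂Map (rH := U.subtype) (rG := U'.subtype) (Subgroup.inclusion h)
        (fun _ => rfl) (LinearMap.id : Rec.gModOn U →ₗ[ℤ] Rec.gModOn U') (fun _ _ => rfl) c) := by
  unfold IsGlobInflation
  funext p
  exact congrFun hfc (Subgroup.inclusion h p.1, Subgroup.inclusion h p.2)

/-- A finite-level cocycle whose restriction to `lvlGal U' E` is a coboundary has vanishing
restriction (in the sense of `T.resMap`) to the subgroup `(lvlGal U' E).subgroupOf _`. -/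
lemma resMap_eq_zero_of_resCocycle {U U' : Subgroup GQ}
    (E : IntermediateField ℚ Qb) [Normal ℚ E]
    (h : U' ≤ U) (f : cocycles₂ (LRep ↥(lvlGal U E) E))
    (h0 : (H2π (LRep ↥(lvlGal U' E) E)).hom (resCocycle E h f) = 0) :
    (T.resMap (LRep ↥(lvlGal U E) E) ((lvlGal U' E).subgroupOf (lvlGal U E)) 2).hom
      ((H2π (LRep ↥(lvlGal U E) E)).hom f) = 0 := by
  have hex : ∃ b : ↥(lvlGal U' E) → (LRep ↥(lvlGal U' E) E), ∀ s t : ↥(lvlGal U' E),
      resCocycle E h f (s, t) = (LRep ↥(lvlGal U' E) E).ρ s (b t) - b (s * t) + b s :=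
    exists_of_H2π_hom_eq_zero (LRep ↥(lvlGal U' E) E) (resCocycle E h f) h0
  obtain ⟨b, hb⟩ := hex
  refine resMap_H2π_eq_zero (LRep ↥(lvlGal U E) E) ((lvlGal U' E).subgroupOf (lvlGal U E)) f
      (fun k => b ⟨k.1.1, k.2⟩) ?_
  intro s t
  exact hb ⟨s.1.1, s.2⟩ ⟨t.1.1, t.2⟩

/-- Finite-level step: `res = 0 ⇒ index • x = 0`. -/
lemma nsmul_H2π_eq_zero (hRI : T.ResIndexSpec) {U U' : Subgroup GQ}
    (E : IntermediateField ℚ Qb) [FiniteDimensional ℚ E] [Normal ℚ E]
    (h : U' ≤ U) (hE : E.fixingSubgroup ≤ U') (f : cocycles₂ (LRep ↥(lvlGal U E) E))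
    (h0 : (H2π (LRep ↥(lvlGal U' E) E)).hom (resCocycle E h f) = 0) :
    U'.relIndex U • (H2π (LRep ↥(lvlGal U E) E)).hom f = 0 := by
  have hidx := hRI ℤ ↥(lvlGal U E) (LRep ↥(lvlGal U E) E)
    ((lvlGal U' E).subgroupOf (lvlGal U E)) 2 (by norm_num)
    ((H2π (LRep ↥(lvlGal U E) E)).hom f) (resMap_eq_zero_of_resCocycle E h f h0)
  have hi : ((lvlGal U' E).subgroupOf (lvlGal U E)).index = U'.relIndex U :=
    relIndex_lvlGal U U' E hE h
  rw [hi] at hidx
  exact hidx

/-- Inflating back: a multiple of the finite-level class vanishes ⇒ the same multiple of the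
level class vanishes. -/
lemma nsmul_continuousH2π_eq_zero (hUp : GlobUpSpec) (U : Subgroup GQ)
    (E : IntermediateField ℚ Qb) [FiniteDimensional ℚ E] [Normal ℚ E]
    (f : cocycles₂ (LRep ↥(lvlGal U E) E))
    (c : ↥(levelCocycles₂ U.subtype (Rec.gModOn U))) (hfc : IsGlobInflation U E f c) (n : ℕ)
    (h0 : n • (H2π (LRep ↥(lvlGal U E) E)).hom f = 0) :
    n • continuousH2π U.subtype (Rec.gModOn U) c = 0 := by
  have h1 : (H2π (LRep ↥(lvlGal U E) E)).hom (n • f) = 0 := by
    rw [map_nsmul]; exact h0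
  have h2 := hUp U E (n • f) (n • c) (isGlobInflation_nsmul U E n f c hfc) h1
  rw [map_nsmul] at h2
  exact h2

/-- **HP-D3.** -/
theorem globResIndex_of (hD : GlobDescentSpec) (hUp : GlobUpSpec) (hDn : GlobDownSpec)
    (hRI : T.ResIndexSpec) : GlobResIndexSpec := by
  intro U U' h hopen x hx
  obtain ⟨c, rfl⟩ := Submodule.mkQ_surjective _ x
  obtain ⟨F, hFfin, hFU'⟩ := hopen
  obtain ⟨E, hEfin, hEnorm, f, hFE, hEU, hfc⟩ := hD U ⟨F, hFfin, hFU'.trans h⟩ c F hFfin
  have := hEfin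
  have := hEnorm
  have hEU' : E.fixingSubgroup ≤ U' :=
    (IntermediateField.fixingSubgroup_antitone hFE).trans hFU'
  have h0 : (H2π (LRep ↥(lvlGal U' E) E)).hom (resCocycle E h f) = 0 :=
    hDn U' E hEU' _ _ (isGlobInflation_res E h f c hfc) hx
  exact nsmul_continuousH2π_eq_zero hUp U E f c hfc _ (nsmul_H2π_eq_zero hRI E h hEU' f h0)

end Fermat.Agent.S55.G.HP.H297
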