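import Fermat.Agent.S55.G.HP.Spec

/-!
# S55 / layer G / adapter HP, leaf HP-F3: the finite-level Hasse principle   (helper123)

`hasseFin_of : PClassH1Spec → ClassShortExactSpec → ShapiroJSpec → LocFieldSpec →
    ExistsUnramOutSpec → DivKillSpec → HasseFinSpec`.

Proof.  Choose `S ∋ p` containing the sets of HP-F1 and HP-F2.  By the long exact sequence of
`0 → Lˣ → J_S × Div^S → C_S → 0` and `H¹(G, C_S) = 0`, the map `H²(G, Lˣ) → H²(G, J_S × Div^S)` is
injective.  By HP-F2 the image of `y` is `inl_*` of `z := (lDiag)_* y ∈ H²(G, J_S)`, and `z = 0`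
by Shapiro (injectivity), because `locMapJ ∘ (lDiag)_* = locMapL`.
-/

set_option autoImplicit false
set_option linter.unusedSectionVars false
set_option linter.style.haveILetI false

open scoped NumberField TensorProduct
open IsDedekindDomain CategoryTheory groupCohomology

noncomputable section

namespace Fermat.Agent.S55.G.HP.H123

open Fermat.Agent.S55.G Fermat.Agent.S55.G.HP

/-- Orbit representatives for the action of `G` on the (finitely many) places above `S`. -/
lemma exists_orbit_reps (S : Finset Nat.Primes) (G L : Type) [Group G] [Field L] [CharZero L]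
    [MulSemiringAction G L] [Finite (SPlace S L)] :
    ∃ R : Finset (SPlace S L),
      ∀ 𝔪 : SPlace S L, ∃! r : SPlace S L, r ∈ R ∧ ∃ g : G, sPlaceSMul S G g r = 𝔪 := by
  classical
  letI : MulAction G (SPlace S L) := sPlaceAction S G L
  haveI : Fintype (SPlace S L) := Fintype.ofFinite _
  let Q := MulAction.orbitRel.Quotient G (SPlace S L)
  haveI : Fintype Q := Fintype.ofFinite _
  let rep : Q → SPlace S L := fun q => Quotient.out q
  have hrep : ∀ q : Q, (Quotient.mk'' (rep q) : Q) = q := fun q => Quotient.out_eq q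
  have horb : ∀ a b : SPlace S L, (Quotient.mk'' a : Q) = Quotient.mk'' b ↔
      ∃ g : G, sPlaceSMul S G g b = a := by
    intro a b
    rw [Quotient.eq'']
    exact MulAction.orbitRel_apply
  refine ⟨Finset.univ.image rep, fun 𝔪 => ⟨rep (Quotient.mk'' 𝔪), ⟨?_, ?_⟩, ?_⟩⟩
  · exact Finset.mem_image_of_mem _ (Finset.mem_univ _)
  · exact (horb 𝔪 (rep (Quotient.mk'' 𝔪))).1 (hrep _).symm
  · rintro r ⟨hr, g, hg⟩
    obtain ⟨q, -, rfl⟩ := Finset.mem_image.1 hr
    have h1 : (Quotient.mk'' 𝔪 : Q) = Quotient.mk'' (rep q) := (horb 𝔪 (rep q)).2 ⟨g, hg⟩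
    rw [h1, hrep]

/-- `groupCohomology.map_comp` for `f = id`. -/
lemma map_id_comp_res {k : Type} [CommRing k] {G H : Type} [Group G] [Group H] (g : H →* G)
    {A B : Rep.{0} k G} {C : Rep.{0} k H} (φ : A ⟶ B) (ψ : Rep.res g B ⟶ C) (n : ℕ) :
    groupCohomology.map g ((Rep.resFunctor g).map φ ≫ ψ) n =
      groupCohomology.map (MonoidHom.id G) φ n ≫ groupCohomology.map g ψ n :=
  groupCohomology.map_comp (MonoidHom.id G) g φ ψ n

section Loc

variable (S : Finset Nat.Primes) (G L : Type) [Group G] [Field L] [CharZero L]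
  [MulSemiringAction G L]

lemma lToLocRepHom_eq (𝔪 : SPlace S L) :
    lToLocRepHom S G 𝔪 =
      (Rep.resFunctor (decomp S G 𝔪).subtype).map (lDiagRepHom S G L) ≫ jToLocRepHom S G 𝔪 := by
  apply Rep.hom_ext
  rfl

/-- `locMapJ ∘ (lDiag)_* = locMapL`. -/
lemma locMapJ_lDiag (𝔪 : SPlace S L) (n : ℕ) :
    T.coeffMap (lDiagRepHom S G L) n ≫ locMapJ S G 𝔪 n = locMapL S G 𝔪 n := by
  unfold locMapL locMapJ
  rw [lToLocRepHom_eq, map_id_comp_res]

lemma locMapJ_lDiag_apply (𝔪 : SPlace S L) (n : ℕ) (y : groupCohomology (LRep G L) n) :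
    (locMapJ S G 𝔪 n).hom ((T.coeffMap (lDiagRepHom S G L) n).hom y) =
      (locMapL S G 𝔪 n).hom y := by
  rw [← locMapJ_lDiag]
  rfl

end Loc

/-- **HP-F3.** The finite-level Hasse principle. -/
theorem hasseFin_of (h0 : PClassH1Spec) (hSES : ClassShortExactSpec) (hSh : ShapiroJSpec)
    (hLF : LocFieldSpec) (hUn : ExistsUnramOutSpec) (hDK : DivKillSpec) : HasseFinSpec := by
  intro p hpF hp2 G L _ _ _ _ _ _ hG hζ y hy
  classical
  obtain ⟨S₁, hS₁⟩ := hUn G L
  obtain ⟨S₂, hS₂⟩ := hDK G L y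
  set S : Finset Nat.Primes := S₁ ∪ S₂ ∪ {⟨p, hpF.out⟩} with hS
  have hpS : (⟨p, hpF.out⟩ : Nat.Primes) ∈ S :=
    Finset.mem_union_right _ (Finset.mem_singleton_self _)
  have hSne : S.Nonempty := ⟨_, hpS⟩
  have hS₁S : S₁ ⊆ S := fun x hx => Finset.mem_union_left _ (Finset.mem_union_left _ hx)
  have hS₂S : S₂ ⊆ S := fun x hx => Finset.mem_union_left _ (Finset.mem_union_right _ hx)
  have hSE := hSES S G L hSne
  have hz := h0 p hp2 S G L hpS hG (hS₁ S hS₁S) hζ
  -- the `J_S`-component vanishes (Shapiro)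
  have hz0 : (T.coeffMap (lDiagRepHom S G L) 2).hom y = 0 := by
    haveI := (hLF S L).1
    obtain ⟨R, hR⟩ := exists_orbit_reps S G L
    apply (hSh S G L R hR 2).1
    funext r
    show (locMapJ S G r.1 2).hom ((T.coeffMap (lDiagRepHom S G L) 2).hom y) =
      (locMapJ S G r.1 2).hom 0
    rw [locMapJ_lDiag_apply, hy S r.1, map_zero]
  -- the image in `H²(G, J_S × Div^S)` vanishes
  have hdiag : (T.coeffMap (diagRepHom S G L) 2).hom y = 0 := by
    rw [hS₂ S hS₂S, hz0, map_zero]
  -- exactness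
  have hex := mapShortComplex₁_exact hSE (i := 1) (j := 2) rfl
  obtain ⟨x, hx⟩ := (ShortComplex.moduleCat_exact_iff _).mp hex y hdiag
  have hx0 : x = 0 := by
    haveI : Subsingleton ↑(groupCohomology (CRep S G L) 1) :=
      ModuleCat.isZero_iff_subsingleton.mp hz
    exact Subsingleton.elim (α := ↑(groupCohomology (CRep S G L) 1)) x 0
  rw [← hx, hx0]
  exact map_zero _

end Fermat.Agent.S55.G.HP.H123

end
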