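import Fermat.Agent.S55.G.HP.Spec

/-!
# S55 / layer G / adapter HP, leaf HP-F3 (helper723): the finite-level Hasse principle

`hasseFin_of : PClassH1Spec → ClassShortExactSpec → ShapiroJSpec → LocFieldSpec →
  ExistsUnramOutSpec → DivKillSpec → HasseFinSpec`.
-/

set_option autoImplicit false
set_option linter.style.haveILetI false

open scoped NumberField TensorProduct
open IsDedekindDomain CategoryTheory groupCohomology

noncomputable section

namespace Fermat.Agent.S55.G.HP.H723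

open Fermat.Agent.S55 Fermat.Agent.S55.G Fermat.Agent.S55.G.HP

section Reps

variable (S : Finset Nat.Primes) (G L : Type) [Group G] [Field L] [CharZero L]
  [MulSemiringAction G L]

/-- A finite set of representatives of the `G`-orbits of places above `S`. -/
theorem exists_orbit_reps [Finite (SPlace S L)] :
    ∃ R : Finset (SPlace S L), ∀ 𝔪 : SPlace S L,
      ∃! r : SPlace S L, r ∈ R ∧ ∃ g : G, sPlaceSMul S G g r = 𝔪 := by
  classical
  letI : MulAction G (SPlace S L) := sPlaceAction S G L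
  let s : Setoid (SPlace S L) := MulAction.orbitRel G (SPlace S L)
  let out : SPlace S L → SPlace S L := fun 𝔪 => (Quotient.mk s 𝔪).out
  have hout : ∀ 𝔪, s.r (out 𝔪) 𝔪 := fun 𝔪 => Quotient.exact (Quotient.out_eq (Quotient.mk s 𝔪))
  have hout' : ∀ 𝔪 𝔫, s.r 𝔪 𝔫 → out 𝔪 = out 𝔫 := fun 𝔪 𝔫 h => by
    show (Quotient.mk s 𝔪).out = (Quotient.mk s 𝔫).out
    rw [Quotient.sound h]
  refine ⟨(Set.toFinite {r : SPlace S L | out r = r}).toFinset, fun 𝔪 => ⟨out 𝔪, ⟨?_, ?_⟩, ?_⟩⟩
  · rw [Set.Finite.mem_toFinset]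
    exact hout' _ _ (hout 𝔪)
  · -- `𝔪 ∈ orbit (out 𝔪)`
    have h : s.r 𝔪 (out 𝔪) := s.symm (hout 𝔪)
    obtain ⟨g, hg⟩ := (MulAction.orbitRel_apply.1 h : 𝔪 ∈ MulAction.orbit G (out 𝔪))
    exact ⟨g, hg⟩
  · rintro r ⟨hr, g, hg⟩
    rw [Set.Finite.mem_toFinset] at hr
    have h : s.r 𝔪 r := MulAction.orbitRel_apply.2 ⟨g, hg⟩
    have hr' : out r = r := hr
    rw [← hr']
    exact (hout' _ _ h).symm

/-- `loc_𝔪 ∘ (diag)_* = loc_𝔪` : functoriality of `groupCohomology.map`. -/
theorem locMapJ_lDiag (𝔪 : SPlace S L) (n : ℕ) (y : groupCohomology (LRep G L) n) :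
    (locMapJ S G 𝔪 n).hom ((T.coeffMap (lDiagRepHom S G L) n).hom y) =
      (locMapL S G 𝔪 n).hom y := by
  have h1 := groupCohomology.map_comp (A := LRep G L) (B := JRep G S L) (C := LocRep S G 𝔪)
    (MonoidHom.id G) (decomp S G 𝔪).subtype
    (lDiagRepHom S G L) (jToLocRepHom S G 𝔪) n
  have h2 : groupCohomology.map ((MonoidHom.id G).comp (decomp S G 𝔪).subtype)
      ((Rep.resFunctor (decomp S G 𝔪).subtype).map (lDiagRepHom S G L) ≫ jToLocRepHom S G 𝔪) n =
      locMapL S G 𝔪 n :=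
    groupCohomology.map_congr (MonoidHom.id_comp _) rfl n
  rw [h2] at h1
  have h3 := congrArg (fun f => f.hom y) h1
  exact h3.symm

end Reps

/-- **HP-F3.** The finite-level Hasse principle from its leaves. -/
theorem hasseFin_of (h0 : PClassH1Spec) (hSES : ClassShortExactSpec) (hSh : ShapiroJSpec)
    (hLF : LocFieldSpec) (hF1 : ExistsUnramOutSpec) (hF2 : DivKillSpec) : HasseFinSpec := by
  classical
  intro p hp hp2 G L _ _ _ _ _ _ hG hζ y hy
  obtain ⟨S₁, hS₁⟩ := hF1 G L
  obtain ⟨S₂, hS₂⟩ := hF2 G L y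
  -- the set `S`
  let S : Finset Nat.Primes := S₁ ∪ S₂ ∪ {⟨p, hp.out⟩}
  have hS₁S : S₁ ⊆ S := fun q hq => Finset.mem_union_left _ (Finset.mem_union_left _ hq)
  have hS₂S : S₂ ⊆ S := fun q hq => Finset.mem_union_left _ (Finset.mem_union_right _ hq)
  have hpS : (⟨p, hp.out⟩ : Nat.Primes) ∈ S :=
    Finset.mem_union_right _ (Finset.mem_singleton_self _)
  have hSne : S.Nonempty := ⟨_, hpS⟩
  have hur : IsUnramOut S G L := hS₁ S hS₁S
  -- the `J`-component of `y` vanishes (Shapiro)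
  haveI : Finite (SPlace S L) := (hLF S L).1
  obtain ⟨R, hR⟩ := exists_orbit_reps S G L
  have hinj := (hSh S G L R hR 2).1
  have hJ : (T.coeffMap (lDiagRepHom S G L) 2).hom y = 0 := by
    apply hinj
    funext r
    show (locMapJ S G r.1 2).hom ((T.coeffMap (lDiagRepHom S G L) 2).hom y) =
      (locMapJ S G r.1 2).hom 0
    rw [locMapJ_lDiag, hy S r.1, map_zero]
  -- hence the image of `y` in `H²(G, J × Div)` vanishes
  have hJD : (T.coeffMap (diagRepHom S G L) 2).hom y = 0 := by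
    rw [hS₂ S hS₂S, hJ, map_zero]
  -- the long exact sequence
  have hX : (classShortComplex S G L).ShortExact := hSES S G L hSne
  have hH1 : Limits.IsZero (groupCohomology (CRep S G L) 1) :=
    h0 p hp2 S G L hpS hG hur hζ
  have hex := mapShortComplex₁_exact hX (i := 1) (j := 2) rfl
  haveI : Mono (mapShortComplex₁ hX (i := 1) (j := 2) rfl).g :=
    hex.mono_g (hH1.eq_of_src _ _)
  have hmono : Function.Injective (mapShortComplex₁ hX (i := 1) (j := 2) rfl).g.hom :=
    (ModuleCat.mono_iff_injective _).1 inferInstance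
  apply hmono
  exact hJD.trans (map_zero _).symm

end Fermat.Agent.S55.G.HP.H723

end
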