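import Mathlib
import Fermat.Agent.S55.G.Rec.Hilbert90H844

/-!
# S55 / layer G / adapter HP, leaf HP-D4b (helper721): abstract cochain descent

Mathlib-only core of "inflation is injective on `H²`" at the level of cochains.

Setting: a group `V` acts on a field `Ω`; `ρ : V → D` is a surjective homomorphism with kernel
`N`; `σ : LF → Ω` is an embedding of a field `LF` on which `D` acts (`a`), compatible with `ρ`,
whose image contains the `N`-invariants of `Ω`.  Let `F` be a (normalised-type) 2-cochain of `D`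
with values in `LFˣ` and `B : V → Ωˣ` a 1-cochain, right-invariant under a subgroup `M` of
finite index cut out by a monoid `T → Ω`, with `d B = σ ∘ F ∘ (ρ × ρ)`.
Then `F = d β` for some `β : D → LFˣ`.

Proof: Hilbert 90 on `N` (helper844's `exists_unit_of_levelCocycle844`) normalises `B` on `N`;
the coboundary relation then shows that `B` is right `N`-invariant with `N`-invariant values.
-/

set_option autoImplicit false
set_option linter.unusedSectionVars false
set_option linter.style.haveILetI false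

namespace Fermat.Agent.S55.G.HP.H721

open Fermat.Agent.S55.G.Rec.H844

theorem exists_descent_cochain
    {V D Ω LF : Type*} [Group V] [Group D] [Field Ω] [Field LF] [MulSemiringAction V Ω]
    (ρ : V →* D) (hρ : Function.Surjective ρ)
    (σ : LF →+* Ω) (a : D →* (LF ≃+* LF))
    (hσa : ∀ (τ : V) (z : LF), σ (a (ρ τ) z) = τ • σ z)
    (hfix : ∀ w : Ω, (∀ τ : V, ρ τ = 1 → τ • w = w) → w ∈ Set.range σ)
    (F : D × D → LFˣ) (hF1 : ∀ d, F (1, d) = F (1, 1))
    (hF2 : ∀ d, (F (d, 1) : LF) = a d (F (1, 1) : LF))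
    (B : V → Ωˣ)
    (hB : ∀ τ₁ τ₂ : V, τ₁ • (B τ₂ : Ω) * B τ₁ = σ (F (ρ τ₁, ρ τ₂)) * B (τ₁ * τ₂))
    {T : Type*} [Monoid T] (ι : T →* Ω) (M : Subgroup V) [Finite (V ⧸ M)]
    (hM : ∀ τ : V, τ ∈ M ↔ ∀ θ : T, τ • ι θ = ι θ)
    (hBM : ∀ τ, ∀ s ∈ M, B (τ * s) = B τ) :
    ∃ β : D → LFˣ, ∀ d₁ d₂ : D,
      a d₁ (β d₂ : LF) * β d₁ = F (d₁, d₂) * β (d₁ * d₂) := by
  classical
  -- the constant `e = σ (F (1, 1))`
  set e : Ω := σ (F (1, 1)) with he
  have he0 : e ≠ 0 := by
    rw [he]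
    exact (map_ne_zero σ).2 (Units.ne_zero _)
  have hne : ∀ n : V, ρ n = 1 → n • e = e := by
    intro n hn
    have := hσa n (F (1, 1))
    rw [hn, map_one] at this
    exact this.symm
  have hσF1 : ∀ d, σ (F (1, d)) = e := fun d => by rw [hF1 d]
  have hσF2 : ∀ τ : V, σ (F (ρ τ, 1)) = τ • e := fun τ => by rw [hF2, hσa]
  -- Hilbert 90 on the kernel
  obtain ⟨β₀, hβ₀⟩ : ∃ β₀ : Ωˣ, ∀ n : V, ρ n = 1 → n • (β₀ : Ω) * B n = β₀ * e := by
    let H : Subgroup V := ρ.ker
    let N' : Subgroup H := M.subgroupOf H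
    haveI : M.FiniteIndex := Subgroup.finiteIndex_of_finite_quotient
    haveI : N'.FiniteIndex := inferInstance
    haveI : Finite (H ⧸ N') := Subgroup.finite_quotient_of_finiteIndex
    let X : H → Ωˣ := fun n => B n * (Units.mk0 e he0)⁻¹
    have hXval : ∀ n : H, (X n : Ω) = B n * e⁻¹ := fun n => by
      simp [X]
    obtain ⟨β₀, h⟩ := exists_unit_of_levelCocycle844 (H := H) (Ω := Ω) (T := T) ι N'
      (fun n hn => by
        rw [Subgroup.mem_subgroupOf, hM]
        exact hn)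
      (fun n hn θ => by
        rw [Subgroup.mem_subgroupOf, hM] at hn
        exact hn θ)
      X
      (fun n n' => by
        rw [hXval, hXval, hXval]
        have h1 := hB n n'
        have hn1 : ρ (n : V) = 1 := n.2
        have hn1' : ρ (n' : V) = 1 := n'.2
        rw [hn1, hn1'] at h1
        have h2 : (n : V) • e = e := hne n hn1
        have h3 : (n • ((B n' : Ω) * e⁻¹) : Ω) = (n : V) • (B n' : Ω) * e⁻¹ := by
          show (n : V) • ((B n' : Ω) * e⁻¹) = _
          rw [smul_mul', smul_inv'', h2]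
        rw [h3]
        have h4 : ((B ((n * n' : H) : V) : Ωˣ) : Ω) = B ((n : V) * (n' : V)) := rfl
        rw [h4]
        field_simp
        rw [h1]
        ring)
      (fun n s hs => by
        apply Units.ext
        rw [hXval, hXval]
        have : B ((n * s : H) : V) = B (n : V) := hBM n s hs
        rw [this])
    refine ⟨β₀, fun n hn => ?_⟩
    have := h ⟨n, hn⟩
    rw [hXval] at this
    have h5 : ((⟨n, hn⟩ : H) • (β₀ : Ω) : Ω) = n • (β₀ : Ω) := rfl
    rw [h5] at this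
    field_simp at this
    rw [this, mul_comm]
  -- the corrected cochain `B' τ = B τ * τ β₀ / β₀` (values in `Ω`)
  obtain ⟨B', hB'def⟩ : ∃ B' : V → Ω, ∀ τ, B' τ = B τ * (τ • (β₀ : Ω)) * (β₀ : Ω)⁻¹ :=
    ⟨fun τ => B τ * (τ • (β₀ : Ω)) * (β₀ : Ω)⁻¹, fun _ => rfl⟩
  have hβ0 : (β₀ : Ω) ≠ 0 := Units.ne_zero β₀
  have hτβ0 : ∀ τ : V, τ • (β₀ : Ω) ≠ 0 := fun τ =>
    (smul_ne_zero_iff_ne τ).2 hβ0
  have hB'0 : ∀ τ, B' τ ≠ 0 := fun τ => by
    rw [hB'def]
    exact mul_ne_zero (mul_ne_zero (Units.ne_zero _) (hτβ0 τ)) (inv_ne_zero hβ0)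
  have hB' : ∀ τ₁ τ₂ : V, τ₁ • B' τ₂ * B' τ₁ = σ (F (ρ τ₁, ρ τ₂)) * B' (τ₁ * τ₂) := by
    intro τ₁ τ₂
    rw [hB'def, hB'def, hB'def, smul_mul', smul_mul', smul_inv'', smul_smul]
    have h1 := hB τ₁ τ₂
    have h2 := hτβ0 τ₁
    have h3 := hτβ0 (τ₁ * τ₂)
    field_simp
    linear_combination h1
  have hB'n : ∀ n : V, ρ n = 1 → B' n = e := by
    intro n hn
    rw [hB'def]
    have h1 := hβ₀ n hn
    have h2 := hτβ0 n
    field_simp
    linear_combination h1
  -- right invariance under the kernel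
  have hinv : ∀ (τ n : V), ρ n = 1 → B' (τ * n) = B' τ := by
    intro τ n hn
    have h1 := hB' τ n
    rw [hn, hσF2, hB'n n hn] at h1
    have h2 : τ • e ≠ 0 := (smul_ne_zero_iff_ne τ).2 he0
    exact (mul_left_cancel₀ h2 h1).symm
  -- the values are fixed by the kernel
  have hfixed : ∀ (τ n : V), ρ n = 1 → n • B' τ = B' τ := by
    intro τ n hn
    have h1 := hB' n τ
    rw [hn, hσF1, hB'n n hn] at h1
    have h2 : n • B' τ = B' (n * τ) := by
      have : n • B' τ * e = B' (n * τ) * e := by rw [h1, mul_comm]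
      exact mul_right_cancel₀ he0 this
    rw [h2]
    have h3 : n * τ = τ * (τ⁻¹ * n * τ) := by group
    rw [h3]
    apply hinv
    rw [map_mul, map_mul, hn, map_inv, mul_one, inv_mul_cancel]
  -- descend
  have hrange : ∀ τ : V, ∃ z : LFˣ, σ (z : LF) = B' τ := by
    intro τ
    obtain ⟨z, hz⟩ := hfix (B' τ) (fun n hn => hfixed τ n hn)
    have hz0 : z ≠ 0 := by
      rintro rfl
      rw [map_zero] at hz
      exact hB'0 τ hz.symm
    exact ⟨Units.mk0 z hz0, hz⟩
  choose zf hzf using hrange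
  choose s hs using hρ
  refine ⟨fun d => zf (s d), fun d₁ d₂ => ?_⟩
  have key : ∀ τ : V, σ (zf (s (ρ τ)) : LF) = B' τ := by
    intro τ
    rw [hzf]
    have h1 : s (ρ τ) = τ * (τ⁻¹ * s (ρ τ)) := by group
    rw [h1]
    apply hinv
    rw [map_mul, map_inv, hs, inv_mul_cancel]
  apply σ.injective
  rw [map_mul, map_mul]
  have h1 : σ (a d₁ (zf (s d₂) : LF)) = s d₁ • σ (zf (s d₂) : LF) := by
    rw [← hσa, hs]
  rw [h1, hzf, hzf]
  have h2 := hB' (s d₁) (s d₂)
  rw [hs, hs] at h2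
  rw [h2]
  congr 1
  have h3 := key (s d₁ * s d₂)
  rw [map_mul, hs, hs] at h3
  exact h3.symm

end Fermat.Agent.S55.G.HP.H721
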