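import Fermat.Agent.S55.G.HP.PlaceEmbH721
import Fermat.Agent.S55.G.HP.LocalTransferCoreH721
import Fermat.Agent.S55.Bridge.Krasner

/-!
# S55 / layer G / adapter HP, leaf HP-D4b (helper721): local transfer

`localTransfer : LocalTransferSpec`.

Let `𝔪` be the place of `E ⊗ ℚ_S` induced by `ι_q ∘ g⁻¹` through `σ : E_𝔪 → ℚ̄_q`.
* `Φ = σ ∘ mk : E ⊗ ℚ_S → ℚ̄_q`, `Φ (x ⊗ y) = ι_q (g⁻¹ x) · y_q`, `ker Φ = 𝔪`;
* `ρ : V = locSub q g U → D_𝔪`, `τ ↦ (g · loc τ · g⁻¹)|_E`, is well defined, surjective, and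
  `σ ∘ locAut (ρ τ) = τ ∘ σ`;
* the elements of `ℚ̄_q` fixed by `ker ρ` lie in `σ (E_𝔪)`;
* the abstract cochain descent (`exists_descent_cochain`) turns a level-constant solution `b` of
  `d b = loc (infl f)` on `V` into a solution `β` of `d β = f|_{D_𝔪}` on `D_𝔪`.
-/

set_option autoImplicit false
set_option linter.unusedSectionVars false
set_option linter.style.haveILetI false

open scoped TensorProduct
open groupCohomology

noncomputable section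

namespace Fermat.Agent.S55.G.HP.H721

open Fermat.Agent.S55.G Fermat.Agent.S55.H721Psi Fermat.Agent.S55.G.Rec.H721

local notation "Qb" => AlgebraicClosure ℚ
local notation "GQ" => (AlgebraicClosure ℚ ≃ₐ[ℚ] AlgebraicClosure ℚ)

/-- Bundled primes are prime. -/
local instance factPrime' (q : Nat.Primes) : Fact ((q : ℕ).Prime) := ⟨q.2⟩

section Setup

variable (U : Subgroup GQ) (E : IntermediateField ℚ Qb) [FiniteDimensional ℚ E] [Normal ℚ E]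
  (S : Finset Nat.Primes) (𝔪 : SPlace S E) (q : S) (g : GQ)
  (σ : LocField S 𝔪 →+* PadicAlgCl (q.1 : ℕ))

/-- `Φ = σ ∘ mk`. -/
def phi : AS S E →+* PadicAlgCl (q.1 : ℕ) := σ.comp (LocField.mk S 𝔪)

variable {U E S 𝔪 q g σ}

lemma phi_eq_zero_iff (t : AS S E) : phi E S 𝔪 q σ t = 0 ↔ t ∈ 𝔪.asIdeal := by
  constructor
  · intro h
    have h1 : σ (LocField.mk S 𝔪 t) = σ 0 := by rw [map_zero]; exact h
    exact (LocField.mk_eq_zero_iff S 𝔪 t).1 (σ.injective h1)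
  · intro h
    have h1 : LocField.mk S 𝔪 t = 0 := (LocField.mk_eq_zero_iff S 𝔪 t).2 h
    show σ (LocField.mk S 𝔪 t) = 0
    rw [h1, map_zero]

/-- The restriction `(g · loc τ · g⁻¹)|_E ∈ lvlGal U E` of an element of `locSub q g U`. -/
lemma rhoAux_apply (τ : ↥(Rec.locSub (q.1 : ℕ) g U)) (x : E) :
    ((((lvlHom U E (Rec.locHom (q.1 : ℕ) g U τ) : ↥(lvlGal U E)) : E ≃ₐ[ℚ] E) x : E) : Qb) =
      (g * localGaloisToGlobal (q.1 : ℕ) τ * g⁻¹) (x : Qb) := by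
  rw [lvlHom_apply_coe]
  rfl

/-- The element of `ℚ_S` with `q`-component `z` and all other components `0`. -/
def singleQ (S : Finset Nat.Primes) (q : S) (z : ℚ_[(q.1 : ℕ)]) : QS S := by
  classical
  exact (Pi.single q z : ∀ q : S, Qq q.1)

lemma singleQ_same (z : ℚ_[(q.1 : ℕ)]) : singleQ S q z q = z := by
  classical
  exact Pi.single_eq_same (M := fun q : S => Qq q.1) q z

lemma sigma_singleQ' (σ : LocField S 𝔪 →+* PadicAlgCl (q.1 : ℕ))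
    (hσ2 : ∀ y : QS S, σ (LocField.ofQS S 𝔪 y) =
      algebraMap ℚ_[(q.1 : ℕ)] (PadicAlgCl (q.1 : ℕ)) (y q)) (z : ℚ_[(q.1 : ℕ)]) :
    σ (LocField.ofQS S 𝔪 (singleQ S q z)) =
      algebraMap ℚ_[(q.1 : ℕ)] (PadicAlgCl (q.1 : ℕ)) z :=
  (hσ2 _).trans (congrArg _ (singleQ_same z))

/-- `ℚ_q → E_𝔪` (a ring homomorphism because `𝔪` lies above `q`). -/
def qToLoc (σ : LocField S 𝔪 →+* PadicAlgCl (q.1 : ℕ))
    (hσ2 : ∀ y : QS S, σ (LocField.ofQS S 𝔪 y) =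
      algebraMap ℚ_[(q.1 : ℕ)] (PadicAlgCl (q.1 : ℕ)) (y q)) :
    ℚ_[(q.1 : ℕ)] →+* LocField S 𝔪 where
  toFun z := LocField.ofQS S 𝔪 (singleQ S q z)
  map_one' := σ.injective
    ((sigma_singleQ' σ hσ2 1).trans ((map_one _).trans (map_one σ).symm))
  map_mul' x y := σ.injective
    ((sigma_singleQ' σ hσ2 (x * y)).trans ((map_mul _ x y).trans
      ((congrArg₂ (· * ·) (sigma_singleQ' σ hσ2 x).symm (sigma_singleQ' σ hσ2 y).symm).trans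
        (map_mul σ _ _).symm)))
  map_zero' := σ.injective
    ((sigma_singleQ' σ hσ2 0).trans ((map_zero _).trans (map_zero σ).symm))
  map_add' x y := σ.injective
    ((sigma_singleQ' σ hσ2 (x + y)).trans ((map_add _ x y).trans
      ((congrArg₂ (· + ·) (sigma_singleQ' σ hσ2 x).symm (sigma_singleQ' σ hσ2 y).symm).trans
        (map_add σ _ _).symm)))

lemma qToLoc_apply (hσ2 : ∀ y : QS S, σ (LocField.ofQS S 𝔪 y) =
      algebraMap ℚ_[(q.1 : ℕ)] (PadicAlgCl (q.1 : ℕ)) (y q)) (z : ℚ_[(q.1 : ℕ)]) :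
    qToLoc σ hσ2 z = LocField.ofQS S 𝔪 (singleQ S q z) := rfl

lemma sigma_qToLoc (hσ2 : ∀ y : QS S, σ (LocField.ofQS S 𝔪 y) =
      algebraMap ℚ_[(q.1 : ℕ)] (PadicAlgCl (q.1 : ℕ)) (y q)) (z : ℚ_[(q.1 : ℕ)]) :
    σ (qToLoc σ hσ2 z) = algebraMap ℚ_[(q.1 : ℕ)] (PadicAlgCl (q.1 : ℕ)) z :=
  sigma_singleQ' σ hσ2 z

section WithHyp

variable (hσ1 : ∀ x : E, σ (toLoc S 𝔪 x) = padicEmbedding (q.1 : ℕ) (g⁻¹ (x : Qb)))
  (hσ2 : ∀ y : QS S, σ (LocField.ofQS S 𝔪 y) =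
    algebraMap ℚ_[(q.1 : ℕ)] (PadicAlgCl (q.1 : ℕ)) (y q))

include hσ1 hσ2

lemma phi_tmul (x : E) (y : QS S) :
    phi E S 𝔪 q σ (x ⊗ₜ[ℚ] y) =
      padicEmbedding (q.1 : ℕ) (g⁻¹ (x : Qb)) *
        algebraMap ℚ_[(q.1 : ℕ)] (PadicAlgCl (q.1 : ℕ)) (y q) := by
  have h : (x ⊗ₜ[ℚ] y : AS S E) = (x ⊗ₜ[ℚ] (1 : QS S)) * ((1 : E) ⊗ₜ[ℚ] y) := by
    rw [Algebra.TensorProduct.tmul_mul_tmul, mul_one, one_mul]
  rw [h, map_mul]
  have h1 : phi E S 𝔪 q σ (x ⊗ₜ[ℚ] (1 : QS S)) = σ (toLoc S 𝔪 x) := rfl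
  have h2 : phi E S 𝔪 q σ ((1 : E) ⊗ₜ[ℚ] y) = σ (LocField.ofQS S 𝔪 y) := rfl
  rw [h1, h2, hσ1, hσ2]

/-- Step 1: `Φ ∘ (γ ⊗ 1) = τ ∘ Φ` if `γ = (g · loc τ · g⁻¹)|_E`. -/
lemma phi_asAut (Γ : Subgroup (E ≃ₐ[ℚ] E)) (γ : Γ)
    (τ : PadicAlgCl (q.1 : ℕ) ≃ₐ[ℚ_[(q.1 : ℕ)]] PadicAlgCl (q.1 : ℕ))
    (hγ : ∀ x : E, (((γ : E ≃ₐ[ℚ] E) x : E) : Qb) =
      (g * localGaloisToGlobal (q.1 : ℕ) τ * g⁻¹) (x : Qb))
    (t : AS S E) :
    phi E S 𝔪 q σ (asAut S Γ E γ t) = τ (phi E S 𝔪 q σ t) := by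
  induction t using TensorProduct.induction_on with
  | zero => simp
  | tmul x y =>
    rw [asAut_tmul, phi_tmul hσ1 hσ2, phi_tmul hσ1 hσ2, map_mul, AlgEquiv.commutes]
    congr 1
    have h1 : ((γ • x : E) : Qb) = (g * localGaloisToGlobal (q.1 : ℕ) τ * g⁻¹) (x : Qb) := hγ x
    rw [h1, ← padicEmbedding_localGaloisToGlobal]
    congr 1
    simp only [AlgEquiv.mul_apply]
    exact AlgEquiv.symm_apply_apply g _
  | add a b ha hb =>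
    simp only [map_add, ha, hb]

lemma rhoAux_mem_decomp (τ : ↥(Rec.locSub (q.1 : ℕ) g U)) :
    lvlHom U E (Rec.locHom (q.1 : ℕ) g U τ) ∈ decomp S ↥(lvlGal U E) 𝔪 := by
  rw [mem_decomp_iff]
  refine MaximalSpectrum.ext (Ideal.ext fun t => ?_)
  rw [mem_sPlaceSMul_iff, ← phi_eq_zero_iff (σ := σ), ← phi_eq_zero_iff (σ := σ), ← map_inv,
    ← map_inv]
  rw [phi_asAut hσ1 hσ2 (lvlGal U E) _ ((τ⁻¹ : ↥(Rec.locSub (q.1 : ℕ) g U)) :
    PadicAlgCl (q.1 : ℕ) ≃ₐ[ℚ_[(q.1 : ℕ)]] PadicAlgCl (q.1 : ℕ)) (rhoAux_apply τ⁻¹)]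
  exact map_eq_zero_iff _ (AlgEquiv.injective _)

/-- `ρ : locSub q g U → D_𝔪`. -/
def rho : ↥(Rec.locSub (q.1 : ℕ) g U) →* ↥(decomp S ↥(lvlGal U E) 𝔪) :=
  ((lvlHom U E).comp (Rec.locHom (q.1 : ℕ) g U)).codRestrict _
    (fun τ => rhoAux_mem_decomp hσ1 hσ2 τ)

lemma rho_coe (τ : ↥(Rec.locSub (q.1 : ℕ) g U)) :
    ((rho hσ1 hσ2 τ : ↥(decomp S ↥(lvlGal U E) 𝔪)) : ↥(lvlGal U E)) =
      lvlHom U E (Rec.locHom (q.1 : ℕ) g U τ) := rfl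

/-- `σ ∘ locAut (ρ τ) = τ ∘ σ`. -/
lemma sigma_locAut_rho (τ : ↥(Rec.locSub (q.1 : ℕ) g U)) (z : LocField S 𝔪) :
    σ (locAut S ↥(lvlGal U E) 𝔪 (rho hσ1 hσ2 τ) z) =
      (τ : PadicAlgCl (q.1 : ℕ) ≃ₐ[ℚ_[(q.1 : ℕ)]] PadicAlgCl (q.1 : ℕ)) (σ z) := by
  obtain ⟨t, rfl⟩ := LocField.mk_surjective S 𝔪 z
  rw [locAut_mk]
  exact phi_asAut hσ1 hσ2 (lvlGal U E) _ _ (rhoAux_apply τ) t

/-! ### Surjectivity of `ρ` -/

omit hσ1 hσ2 in
lemma locAut_ofQS (Γ : Subgroup (E ≃ₐ[ℚ] E)) (d : ↥(decomp S ↥Γ 𝔪)) (y : QS S) :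
    locAut S ↥Γ 𝔪 d (LocField.ofQS S 𝔪 y) = LocField.ofQS S 𝔪 y := by
  show locAut S ↥Γ 𝔪 d (LocField.mk S 𝔪 (asIncl S E y)) = LocField.mk S 𝔪 (asIncl S E y)
  rw [locAut_mk, asAut_asIncl]

/-- Every element of the decomposition group is induced by an automorphism of `ℚ̄_q`. -/
theorem exists_lift (Γ : Subgroup (E ≃ₐ[ℚ] E)) (d : ↥(decomp S ↥Γ 𝔪)) :
    ∃ τ : PadicAlgCl (q.1 : ℕ) ≃ₐ[ℚ_[(q.1 : ℕ)]] PadicAlgCl (q.1 : ℕ),
      ∀ z : LocField S 𝔪, τ (σ z) = σ (locAut S ↥Γ 𝔪 d z) := by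
  letI algLF : Algebra ℚ_[(q.1 : ℕ)] (LocField S 𝔪) := (qToLoc σ hσ2).toAlgebra
  letI algΩ : Algebra (LocField S 𝔪) (PadicAlgCl (q.1 : ℕ)) := σ.toAlgebra
  haveI : IsScalarTower ℚ_[(q.1 : ℕ)] (LocField S 𝔪) (PadicAlgCl (q.1 : ℕ)) :=
    IsScalarTower.of_algebraMap_eq fun z => (sigma_qToLoc hσ2 z).symm
  let χ : LocField S 𝔪 ≃ₐ[ℚ_[(q.1 : ℕ)]] LocField S 𝔪 :=
    AlgEquiv.ofRingEquiv (f := locAut S ↥Γ 𝔪 d) fun z => by
      show locAut S ↥Γ 𝔪 d (LocField.ofQS S 𝔪 (singleQ S q z)) =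
        LocField.ofQS S 𝔪 (singleQ S q z)
      exact locAut_ofQS Γ d _
  refine ⟨χ.liftNormal (PadicAlgCl (q.1 : ℕ)), fun z => ?_⟩
  exact χ.liftNormal_commutes (PadicAlgCl (q.1 : ℕ)) z

theorem rho_surjective (hEU : E.fixingSubgroup ≤ U) :
    Function.Surjective (rho (U := U) hσ1 hσ2) := by
  intro d
  obtain ⟨τ, hτ⟩ := exists_lift hσ1 hσ2 (lvlGal U E) d
  -- `h := g · loc τ · g⁻¹` agrees with `d` on `E`
  have hagree : ∀ x : E, (g * localGaloisToGlobal (q.1 : ℕ) τ * g⁻¹) (x : Qb) =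
      ((((d : ↥(lvlGal U E)) : E ≃ₐ[ℚ] E) x : E) : Qb) := by
    intro x
    have hinj : Function.Injective
        (fun y : Qb => padicEmbedding (q.1 : ℕ) (g⁻¹ y)) :=
      (padicEmbedding (q.1 : ℕ)).injective.comp (AlgEquiv.injective _)
    apply hinj
    show padicEmbedding (q.1 : ℕ) (g⁻¹ ((g * localGaloisToGlobal (q.1 : ℕ) τ * g⁻¹) (x : Qb))) =
      padicEmbedding (q.1 : ℕ) (g⁻¹ ((((d : ↥(lvlGal U E)) : E ≃ₐ[ℚ] E) x : E) : Qb))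
    have h1 : g⁻¹ ((g * localGaloisToGlobal (q.1 : ℕ) τ * g⁻¹) (x : Qb)) =
        localGaloisToGlobal (q.1 : ℕ) τ (g⁻¹ (x : Qb)) := by
      simp only [AlgEquiv.mul_apply]
      exact AlgEquiv.symm_apply_apply g _
    rw [h1, padicEmbedding_localGaloisToGlobal, ← hσ1, ← hσ1, hτ, locAut_toLoc]
    rfl
  obtain ⟨u, hu, hud⟩ := (d : ↥(lvlGal U E)).2
  have hux : ∀ x : E, u (x : Qb) = ((((d : ↥(lvlGal U E)) : E ≃ₐ[ℚ] E) x : E) : Qb) := by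
    intro x
    rw [← hud]
    exact (AlgEquiv.restrictNormal_commutes u E x).symm
  have hmem : g * localGaloisToGlobal (q.1 : ℕ) τ * g⁻¹ ∈ U := by
    have h2 : u⁻¹ * (g * localGaloisToGlobal (q.1 : ℕ) τ * g⁻¹) ∈ E.fixingSubgroup := by
      rw [IntermediateField.mem_fixingSubgroup_iff]
      intro x hx
      show u⁻¹ ((g * localGaloisToGlobal (q.1 : ℕ) τ * g⁻¹) x) = x
      rw [hagree ⟨x, hx⟩, ← hux ⟨x, hx⟩]
      exact AlgEquiv.symm_apply_apply u x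
    have h3 := U.mul_mem hu (hEU h2)
    rwa [mul_inv_cancel_left] at h3
  refine ⟨⟨τ, hmem⟩, ?_⟩
  apply Subtype.ext
  apply Subtype.ext
  apply AlgEquiv.ext
  intro x
  apply Subtype.ext
  rw [rho_coe, rhoAux_apply]
  exact hagree x

/-! ### The invariants of `ker ρ` -/

/-- An element of `ℚ̄_q` fixed by all `τ` fixing `σ (E_𝔪)` pointwise lies in `σ (E_𝔪)`. -/
theorem mem_range_sigma_of_fixed (w : PadicAlgCl (q.1 : ℕ))
    (hw : ∀ τ : PadicAlgCl (q.1 : ℕ) ≃ₐ[ℚ_[(q.1 : ℕ)]] PadicAlgCl (q.1 : ℕ),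
      (∀ z : LocField S 𝔪, τ (σ z) = σ z) → τ w = w) :
    w ∈ Set.range σ := by
  let K' : IntermediateField ℚ_[(q.1 : ℕ)] (PadicAlgCl (q.1 : ℕ)) :=
    Subfield.toIntermediateField σ.fieldRange fun z =>
      ⟨qToLoc σ hσ2 z, sigma_qToLoc hσ2 z⟩
  have hK' : ∀ y, y ∈ K' ↔ y ∈ Set.range σ := fun y => Iff.rfl
  have h1 : w ∈ IntermediateField.fixedField K'.fixingSubgroup := by
    rw [IntermediateField.mem_fixedField_iff]
    intro τ hτ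
    apply hw
    intro z
    exact (IntermediateField.mem_fixingSubgroup_iff _ _).1 hτ _ ⟨z, rfl⟩
  rw [InfiniteGalois.fixedField_fixingSubgroup] at h1
  exact (hK' w).1 h1

theorem fixed_of_rho_eq_one (hEU : E.fixingSubgroup ≤ U) (w : PadicAlgCl (q.1 : ℕ))
    (hw : ∀ τ : ↥(Rec.locSub (q.1 : ℕ) g U), rho (U := U) hσ1 hσ2 τ = 1 →
      (τ : PadicAlgCl (q.1 : ℕ) ≃ₐ[ℚ_[(q.1 : ℕ)]] PadicAlgCl (q.1 : ℕ)) w = w) :
    w ∈ Set.range σ := by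
  apply mem_range_sigma_of_fixed hσ1 hσ2
  intro τ hτ
  -- `g · loc τ · g⁻¹` fixes `E`
  have hfixE : g * localGaloisToGlobal (q.1 : ℕ) τ * g⁻¹ ∈ E.fixingSubgroup := by
    rw [IntermediateField.mem_fixingSubgroup_iff]
    intro x hx
    have hinj : Function.Injective
        (fun y : Qb => padicEmbedding (q.1 : ℕ) (g⁻¹ y)) :=
      (padicEmbedding (q.1 : ℕ)).injective.comp (AlgEquiv.injective _)
    apply hinj
    show padicEmbedding (q.1 : ℕ) (g⁻¹ ((g * localGaloisToGlobal (q.1 : ℕ) τ * g⁻¹) x)) =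
      padicEmbedding (q.1 : ℕ) (g⁻¹ x)
    have h1 : g⁻¹ ((g * localGaloisToGlobal (q.1 : ℕ) τ * g⁻¹) x) =
        localGaloisToGlobal (q.1 : ℕ) τ (g⁻¹ x) := by
      simp only [AlgEquiv.mul_apply]
      exact AlgEquiv.symm_apply_apply g _
    rw [h1, padicEmbedding_localGaloisToGlobal]
    have h2 := hσ1 ⟨x, hx⟩
    rw [← h2]
    exact hτ _
  have hmem : g * localGaloisToGlobal (q.1 : ℕ) τ * g⁻¹ ∈ U := hEU hfixE
  apply hw ⟨τ, hmem⟩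
  apply Subtype.ext
  apply Subtype.ext
  apply AlgEquiv.ext
  intro x
  apply Subtype.ext
  rw [rho_coe, rhoAux_apply]
  exact (IntermediateField.mem_fixingSubgroup_iff _ _).1 hfixE x x.2

end WithHyp

end Setup

/-! ### Assembly -/

/-- The stabiliser of a finite extension has finite index, also after pulling back along any
homomorphism into the Galois group. -/
lemma finite_quotient_comap_fixing_h721 {K Ω : Type*} [Field K] [Field Ω] [Algebra K Ω]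
    (E : IntermediateField K Ω) [FiniteDimensional K E] {H : Type*} [Group H]
    (f : H →* (Ω ≃ₐ[K] Ω)) : Finite (H ⧸ (E.fixingSubgroup.comap f)) := by
  let φ : H → (E →ₐ[K] Ω) := fun g => ((f g : Ω ≃ₐ[K] Ω) : Ω →ₐ[K] Ω).comp E.val
  have hφ : ∀ g g' : H, φ g = φ g' → g⁻¹ * g' ∈ E.fixingSubgroup.comap f := by
    intro g g' h
    rw [Subgroup.mem_comap, IntermediateField.mem_fixingSubgroup_iff]
    intro x hx
    have := DFunLike.congr_fun h ⟨x, hx⟩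
    change f g x = f g' x at this
    rw [map_mul, map_inv, AlgEquiv.mul_apply, ← this]
    exact (f g).symm_apply_apply x
  have hinj : Function.Injective
      (fun t : H ⧸ (E.fixingSubgroup.comap f) => φ (Quotient.out t)) := by
    intro t t' h
    have := hφ _ _ h
    rw [← QuotientGroup.eq, QuotientGroup.out_eq', QuotientGroup.out_eq'] at this
    exact this
  exact Finite.of_injective _ hinj

/-- Multiplicative criterion for a 2-cochain of a unit representation to be a coboundary. -/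
lemma mem_coboundaries₂_unitsRepr {G : Type} [Group G] {R : Type} [CommRing R]
    (φ : G →* (R ≃+* R)) (c : G × G → Additive Rˣ) (β : G → Rˣ)
    (h : ∀ d₁ d₂, Units.map ((φ d₁ : R ≃+* R) : R →* R) (β d₂) * β d₁ =
      (Additive.toMul (c (d₁, d₂)) : Rˣ) * β (d₁ * d₂)) :
    c ∈ coboundaries₂ (Rep.of (unitsRepr G φ)) := by
  obtain ⟨b, hb⟩ : ∃ b : G → Additive Rˣ, ∀ d, b d = Additive.ofMul (β d) :=
    ⟨fun d => Additive.ofMul (β d), fun _ => rfl⟩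
  refine ⟨b, ?_⟩
  funext ⟨d₁, d₂⟩
  rw [d₁₂_hom_apply]
  apply Additive.toMul.injective
  show Units.map ((φ d₁ : R ≃+* R) : R →* R) (Additive.toMul (b d₂)) /
    Additive.toMul (b (d₁ * d₂)) * Additive.toMul (b d₁) = Additive.toMul (c (d₁, d₂))
  rw [hb, hb, hb]
  show Units.map ((φ d₁ : R ≃+* R) : R →* R) (β d₂) / β (d₁ * d₂) * β d₁ =
    Additive.toMul (c (d₁, d₂))
  rw [div_mul_eq_mul_div, h, mul_div_assoc, div_self', mul_one]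

set_option maxHeartbeats 1600000 in
/-- **HP-D4b** : local transfer. -/
theorem localTransfer : LocalTransferSpec := by
  intro U E _ _ hEU f c hfc S 𝔪 q g σ hσ1 hσ2 hloc
  -- unpack the hypothesis: a level-constant 1-cochain `x` on `V` with `d x = loc c`
  rw [Rec.locBr_mk, continuousH2π_eq_zero_iff] at hloc
  obtain ⟨x, ⟨F₀, hF₀, hxF⟩, hdx⟩ := (mem_levelCoboundaries₂_iff _ _ _).1 hloc
  haveI := hF₀
  obtain ⟨E₁, hE₁, hE₁F⟩ :=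
    Fermat.Agent.S55.Bridge.exists_local_level_of_global (q.1 : ℕ) F₀
  haveI := hE₁
  -- the multiplicative cochains
  obtain ⟨B, hBdef⟩ : ∃ B : ↥(Rec.locSub (q.1 : ℕ) g U) → (PadicAlgCl (q.1 : ℕ))ˣ,
      ∀ τ, B τ = Additive.toMul (x τ) := ⟨fun τ => Additive.toMul (x τ), fun _ => rfl⟩
  obtain ⟨Fm, hFm⟩ : ∃ Fm : ↥(decomp S ↥(lvlGal U E) 𝔪) × ↥(decomp S ↥(lvlGal U E) 𝔪) →
      (LocField S 𝔪)ˣ, ∀ d₁ d₂, Fm (d₁, d₂) =
        Units.map (toLoc S 𝔪 : E →* LocField S 𝔪)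
          (Additive.toMul (f ((d₁ : ↥(lvlGal U E)), (d₂ : ↥(lvlGal U E))))) :=
    ⟨fun p => Units.map (toLoc S 𝔪 : E →* LocField S 𝔪)
      (Additive.toMul (f ((p.1 : ↥(lvlGal U E)), (p.2 : ↥(lvlGal U E))))), fun _ _ => rfl⟩
  have hFmcoe : ∀ d₁ d₂, ((Fm (d₁, d₂) : (LocField S 𝔪)ˣ) : LocField S 𝔪) =
      toLoc S 𝔪 (((Additive.toMul (f ((d₁ : ↥(lvlGal U E)), (d₂ : ↥(lvlGal U E)))) :
        (↥E)ˣ) : E)) := by
    intro d₁ d₂
    rw [hFm]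
    rfl
  have hF1 : ∀ d, Fm (1, d) = Fm (1, 1) := by
    intro d
    rw [hFm, hFm]
    have := cocycles₂_map_one_fst f (d : ↥(lvlGal U E))
    rw [Subgroup.coe_one, this]
  have hF2 : ∀ d, ((Fm (d, 1) : (LocField S 𝔪)ˣ) : LocField S 𝔪) =
      locAut S ↥(lvlGal U E) 𝔪 d ((Fm (1, 1) : (LocField S 𝔪)ˣ) : LocField S 𝔪) := by
    intro d
    rw [hFmcoe, hFmcoe, locAut_toLoc]
    have := cocycles₂_map_one_snd f (d : ↥(lvlGal U E))
    rw [Subgroup.coe_one, this]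
    rfl
  have hB : ∀ τ₁ τ₂ : ↥(Rec.locSub (q.1 : ℕ) g U),
      τ₁ • ((B τ₂ : (PadicAlgCl (q.1 : ℕ))ˣ) : PadicAlgCl (q.1 : ℕ)) * B τ₁ =
        σ (Fm (rho (U := U) hσ1 hσ2 τ₁, rho (U := U) hσ1 hσ2 τ₂)) * B (τ₁ * τ₂) := by
    intro τ₁ τ₂
    have h1 := congrFun hdx (τ₁, τ₂)
    rw [d₁₂_hom_apply] at h1
    have h2 : (τ₁ • B τ₂) / B (τ₁ * τ₂) * B τ₁ =
        Rec.locPushMul (q.1 : ℕ) g
          (Additive.toMul (c.1 (Rec.locHom (q.1 : ℕ) g U τ₁, Rec.locHom (q.1 : ℕ) g U τ₂))) := by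
      rw [hBdef, hBdef, hBdef]
      exact congrArg Additive.toMul h1
    have h3 : τ₁ • B τ₂ * B τ₁ =
        Rec.locPushMul (q.1 : ℕ) g
          (Additive.toMul (c.1 (Rec.locHom (q.1 : ℕ) g U τ₁, Rec.locHom (q.1 : ℕ) g U τ₂))) *
          B (τ₁ * τ₂) := by
      rw [← h2, div_mul_eq_mul_div, div_mul_cancel]
    have h4 := congrArg (fun u : (PadicAlgCl (q.1 : ℕ))ˣ => (u : PadicAlgCl (q.1 : ℕ))) h3
    simp only [Units.val_mul] at h4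
    rw [hFmcoe, hσ1]
    refine h4.trans ?_
    congr 1
    rw [Rec.locPushMul_coe]
    have h5 : c.1 = glInfl₂ U E (f : ↥(lvlGal U E) × ↥(lvlGal U E) → Additive (↥E)ˣ) := hfc
    rw [h5, glInfl₂_apply]
    rfl
  haveI := finite_quotient_comap_fixing_h721 E₁ (Rec.locSub (q.1 : ℕ) g U).subtype
  obtain ⟨β, hβ⟩ := exists_descent_cochain
    (V := ↥(Rec.locSub (q.1 : ℕ) g U)) (D := ↥(decomp S ↥(lvlGal U E) 𝔪))
    (Ω := PadicAlgCl (q.1 : ℕ)) (LF := LocField S 𝔪)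
    (rho (U := U) hσ1 hσ2) (rho_surjective hσ1 hσ2 hEU) σ (locAut S ↥(lvlGal U E) 𝔪)
    (fun τ z => sigma_locAut_rho hσ1 hσ2 τ z)
    (fun w hw => fixed_of_rho_eq_one hσ1 hσ2 hEU w hw)
    Fm hF1 hF2 B hB
    (T := ↥E₁) ((algebraMap E₁ (PadicAlgCl (q.1 : ℕ)) : E₁ →* PadicAlgCl (q.1 : ℕ)))
    (E₁.fixingSubgroup.comap (Rec.locSub (q.1 : ℕ) g U).subtype)
    (by
      intro τ
      rw [Subgroup.mem_comap, IntermediateField.mem_fixingSubgroup_iff]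
      constructor
      · intro h θ
        exact h θ θ.2
      · intro h y hy
        exact h ⟨y, hy⟩)
    (by
      intro τ s hs
      rw [hBdef, hBdef, hxF τ s (hE₁F _ hs)])
  -- the goal
  have key : (⇑(mapCocycles₂ (decomp S ↥(lvlGal U E) 𝔪).subtype
      (lToLocRepHom S ↥(lvlGal U E) 𝔪) f) :
        ↥(decomp S ↥(lvlGal U E) 𝔪) × ↥(decomp S ↥(lvlGal U E) 𝔪) → LocRep S ↥(lvlGal U E) 𝔪) ∈
      coboundaries₂ (LocRep S ↥(lvlGal U E) 𝔪) := by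
    refine mem_coboundaries₂_unitsRepr (locAut S ↥(lvlGal U E) 𝔪) _ β ?_
    intro d₁ d₂
    apply Units.ext
    have h6 := hβ d₁ d₂
    rw [hFmcoe] at h6
    exact h6
  have h0 := (H2π_eq_zero_iff _).2 key
  have h1 := H2π_comp_map_apply (decomp S ↥(lvlGal U E) 𝔪).subtype
    (lToLocRepHom S ↥(lvlGal U E) 𝔪) f
  exact h1.trans h0

end Fermat.Agent.S55.G.HP.H721
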