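/-
S55 (Poitou–Tate), layer G — adapter HP (Hasse principle): ASSEMBLY.
Sub-architect: helper421.   Plan: `coord/S55-G-HP.md` §1.

  hassePrinciple_of : p ≠ 2 → HasseFinSpec → GlobDescentSpec → GlobUpSpec → GlobResIndexSpec →
      PlaceEmbSpec → LocalTransferSpec → Rec.LocResSpec → Rec.HassePrincipleSpec p

No `sorry`.
-/
import Fermat.Agent.S55.G.HP.Spec
import Fermat.Agent.S55.G.Rec.Spec2

set_option autoImplicit false

open scoped NumberField TensorProduct
open IsDedekindDomain CategoryTheory groupCohomology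

noncomputable section

namespace Fermat.Agent.S55.G.HP

local notation "Qb" => AlgebraicClosure ℚ
local notation "GQ" => (AlgebraicClosure ℚ ≃ₐ[ℚ] AlgebraicClosure ℚ)

/-- A `p`-group of field automorphisms fixes the `p`-th roots of unity. -/
lemma smul_eq_of_isPGroup {p : ℕ} [hp : Fact p.Prime] {G L : Type} [Group G] [Field L]
    [MulSemiringAction G L] (hG : IsPGroup p G) {ζ : L} (hζ : IsPrimitiveRoot ζ p) (g : G) :
    g • ζ = ζ := by
  have h1 : (g • ζ) ^ p = 1 := by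
    rw [← smul_pow', hζ.pow_eq_one, smul_one]
  obtain ⟨a, -, ha⟩ := hζ.eq_pow_of_pow_eq_one h1
  have hiter : ∀ n : ℕ, g ^ n • ζ = ζ ^ (a ^ n) := by
    intro n
    induction n with
    | zero => simp
    | succ n ih =>
      rw [pow_succ', mul_smul, ih, smul_pow', ← ha, ← pow_mul, pow_succ, mul_comm]
  obtain ⟨m, hm⟩ := hG g
  have h2 : ζ ^ (a ^ (p ^ m)) = ζ ^ 1 := by
    rw [← hiter, hm, one_smul, pow_one]
  have hfin : IsOfFinOrder ζ := isOfFinOrder_iff_pow_eq_one.2 ⟨p, hp.out.pos, hζ.pow_eq_one⟩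
  have h3 : a ^ (p ^ m) ≡ 1 [MOD p] := by
    have := hfin.pow_eq_pow_iff_modEq.1 h2
    rwa [← hζ.eq_orderOf] at this
  have h4 : ((a : ZMod p)) = 1 := by
    have h5 : ((a ^ (p ^ m) : ℕ) : ZMod p) = ((1 : ℕ) : ZMod p) :=
      (ZMod.natCast_eq_natCast_iff _ _ _).2 h3
    rw [Nat.cast_pow, ZMod.pow_card_pow, Nat.cast_one] at h5
    exact h5
  have h6 : a ≡ 1 [MOD p] := by
    rw [← ZMod.natCast_eq_natCast_iff, h4, Nat.cast_one]
  have h7 : ζ ^ a = ζ ^ 1 := by
    rw [hfin.pow_eq_pow_iff_modEq, ← hζ.eq_orderOf]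
    exact h6
  rw [← ha, h7, pow_one]

/-- In an abelian group, an element killed by two coprime integers is zero. -/
lemma eq_zero_of_coprime_nsmul {A : Type*} [AddCommGroup A] {m n : ℕ} (h : Nat.Coprime m n)
    {x : A} (hm : m • x = 0) (hn : n • x = 0) : x = 0 := by
  have h1 : ((m : ℤ).gcd n : ℤ) = 1 := by
    rw [Int.gcd_natCast_natCast, h]
    rfl
  have h2 := Int.gcd_eq_gcd_ab (m : ℤ) n
  rw [h1] at h2
  have h3 : (1 : ℤ) • x = 0 := by
    rw [h2, add_smul, mul_comm (m : ℤ), mul_comm (n : ℤ), mul_smul, mul_smul, natCast_zsmul,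
      natCast_zsmul, hm, hn, smul_zero, smul_zero, add_zero]
  rwa [one_smul] at h3

section Restrict

variable {U U' : Subgroup GQ} (h : U' ≤ U) (E : IntermediateField ℚ Qb) [Normal ℚ E]

/-- Restriction of a finite-level cocycle to the image of a smaller subgroup. -/
def lvlResCocycle (f : cocycles₂ (LRep ↥(lvlGal U E) E)) : cocycles₂ (LRep ↥(lvlGal U' E) E) :=
  ⟨lvlRes₂ U E h (f : ↥(lvlGal U E) × ↥(lvlGal U E) → Additive (↥E)ˣ),
    (mem_cocycles₂_iff (A := LRep ↥(lvlGal U' E) E) _).2 fun a b c =>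
      (mem_cocycles₂_iff (A := LRep ↥(lvlGal U E) E) _).1 f.2
        (lvlIncl E h a) (lvlIncl E h b) (lvlIncl E h c)⟩

/-- Restriction of a level cocycle to a smaller subgroup. -/
def gResCocycle (c : ↥(levelCocycles₂ U.subtype (Rec.gModOn U))) :
    ↥(levelCocycles₂ U'.subtype (Rec.gModOn U')) :=
  levelCocycles₂Map (rH := U.subtype) (rG := U'.subtype) (Subgroup.inclusion h) (fun _ => rfl)
    (LinearMap.id : Rec.gModOn U →ₗ[ℤ] Rec.gModOn U') (fun _ _ => rfl) c

lemma gRes_mk (c : ↥(levelCocycles₂ U.subtype (Rec.gModOn U))) :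
    Rec.gRes h (continuousH2π U.subtype (Rec.gModOn U) c) =
      continuousH2π U'.subtype (Rec.gModOn U') (gResCocycle h c) := rfl

lemma isGlobInflation_res {f : cocycles₂ (LRep ↥(lvlGal U E) E)}
    {c : ↥(levelCocycles₂ U.subtype (Rec.gModOn U))} (hfc : IsGlobInflation U E f c) :
    IsGlobInflation U' E (lvlResCocycle h E f) (gResCocycle h c) := by
  funext ⟨u, v⟩
  have := congrFun hfc (Subgroup.inclusion h u, Subgroup.inclusion h v)
  exact this

end Restrict

/-- The Sylow step: an open `U ⊇ Gal(ℚ̄/E)` contains an open `U' ⊇ Gal(ℚ̄/E)` of index prime to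
`p` whose image in `Gal(E/ℚ)` is a `p`-group. -/
lemma exists_sylow_sub (p : ℕ) [hp : Fact p.Prime] (U : Subgroup GQ) (E : IntermediateField ℚ Qb)
    [FiniteDimensional ℚ E] [Normal ℚ E] (hEU : E.fixingSubgroup ≤ U) :
    ∃ U' : Subgroup GQ, U' ≤ U ∧ E.fixingSubgroup ≤ U' ∧ IsPGroup p ↥(lvlGal U' E) ∧
      ¬ p ∣ U'.relIndex U := by
  obtain ⟨P⟩ : Nonempty (Sylow p ↥(lvlGal U E)) := inferInstance
  obtain ⟨P', hP'⟩ : ∃ P' : Subgroup (E ≃ₐ[ℚ] E),
      P' = (P : Subgroup ↥(lvlGal U E)).map (lvlGal U E).subtype := ⟨_, rfl⟩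
  obtain ⟨U', hU'⟩ : ∃ U' : Subgroup GQ,
      U' = U ⊓ P'.comap (AlgEquiv.restrictNormalHom E) := ⟨_, rfl⟩
  have hle : U' ≤ U := hU' ▸ inf_le_left
  have hEU' : E.fixingSubgroup ≤ U' := by
    intro s hs
    rw [hU']
    refine ⟨hEU hs, ?_⟩
    have h1 : AlgEquiv.restrictNormalHom E s = 1 := by
      refine AlgEquiv.ext fun x => Subtype.ext ?_
      exact (AlgEquiv.restrictNormal_commutes s E x).trans
        ((IntermediateField.mem_fixingSubgroup_iff E s).1 hs x x.2)
    show AlgEquiv.restrictNormalHom E s ∈ P'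
    rw [h1]
    exact one_mem _
  have hlvl : lvlGal U' E ≤ P' := by
    rintro _ ⟨u, hu, rfl⟩
    rw [hU'] at hu
    exact hu.2
  have hpg : IsPGroup p ↥(lvlGal U' E) := by
    have h1 : IsPGroup p ↥P' := by
      rw [hP']
      exact P.isPGroup'.map (lvlGal U E).subtype
    exact h1.to_le hlvl
  have hsub : U'.subgroupOf U = (P : Subgroup ↥(lvlGal U E)).comap (lvlHom U E) := by
    ext u
    rw [Subgroup.mem_subgroupOf, Subgroup.mem_comap, hU', hP']
    constructor
    · rintro ⟨-, h2⟩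
      obtain ⟨y, hy, hyu⟩ := h2
      have : y = lvlHom U E u := Subtype.ext hyu
      rwa [← this]
    · intro h2
      exact ⟨u.2, ⟨lvlHom U E u, h2, rfl⟩⟩
  have hidx : ¬ p ∣ U'.relIndex U := by
    rw [Subgroup.relIndex, hsub, Subgroup.index_comap_of_surjective _ (lvlHom_surjective U E)]
    exact P.not_dvd_index
  exact ⟨U', hle, hEU', hpg, hidx⟩

/-- Local triviality at the absolute level gives local triviality at finite level
(HP-D4a + HP-D4b). -/
lemma finite_level_locally_trivial (hEmb : PlaceEmbSpec) (hLT : LocalTransferSpec)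
    (U : Subgroup GQ) (E : IntermediateField ℚ Qb) [FiniteDimensional ℚ E] [Normal ℚ E]
    (hEU : E.fixingSubgroup ≤ U) (f : cocycles₂ (LRep ↥(lvlGal U E) E))
    (c : ↥(levelCocycles₂ U.subtype (Rec.gModOn U))) (hfc : IsGlobInflation U E f c)
    (hloc : ∀ (q : ℕ) [Fact q.Prime] (g : GQ),
      Rec.locBr q g U (continuousH2π U.subtype (Rec.gModOn U) c) = 0)
    (S : Finset Nat.Primes) (𝔪 : SPlace S E) :
    (locMapL S ↥(lvlGal U E) 𝔪 2).hom ((H2π (LRep ↥(lvlGal U E) E)).hom f) = 0 := by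
  have h := hEmb E S 𝔪
  obtain ⟨q, h⟩ := h
  obtain ⟨g, h⟩ := h
  obtain ⟨σ, h⟩ := h
  obtain ⟨hσ1, hσ2⟩ := h
  exact hLT U E hEU f c hfc S 𝔪 q g σ hσ1 hσ2 (@hloc (q.1 : ℕ) ⟨q.1.2⟩ g)

/-- The restriction of a locally trivial class is locally trivial. -/
lemma locally_trivial_res (hLR : Rec.LocResSpec) {U U' : Subgroup GQ} (h : U' ≤ U)
    (c : ↥(levelCocycles₂ U.subtype (Rec.gModOn U)))
    (hloc : ∀ (q : ℕ) [Fact q.Prime] (g : GQ),
      Rec.locBr q g U (continuousH2π U.subtype (Rec.gModOn U) c) = 0)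
    (q : ℕ) [Fact q.Prime] (g : GQ) :
    Rec.locBr q g U' (continuousH2π U'.subtype (Rec.gModOn U') (gResCocycle h c)) = 0 := by
  have h1 := hLR q g U U' h (continuousH2π U.subtype (Rec.gModOn U) c)
  rw [hloc q g, map_zero] at h1
  exact h1

/-- The finite-level part of the assembly: a locally trivial level cocycle which is the
inflation of a finite-level cocycle of a `p`-group level containing `ζ_p` is a coboundary. -/
lemma eq_zero_of_pgroup_level (p : ℕ) [hp : Fact p.Prime] (hp2 : p ≠ 2)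
    (hFin : HasseFinSpec) (hUp : GlobUpSpec) (hEmb : PlaceEmbSpec) (hLT : LocalTransferSpec)
    (U : Subgroup GQ) (E : IntermediateField ℚ Qb) [FiniteDimensional ℚ E] [Normal ℚ E]
    (hEU : E.fixingSubgroup ≤ U) (hpg : IsPGroup p ↥(lvlGal U E))
    {ζ : Qb} (hζ : IsPrimitiveRoot ζ p) (hζE : ζ ∈ E)
    (f : cocycles₂ (LRep ↥(lvlGal U E) E))
    (c : ↥(levelCocycles₂ U.subtype (Rec.gModOn U))) (hfc : IsGlobInflation U E f c)
    (hloc : ∀ (q : ℕ) [Fact q.Prime] (g : GQ),
      Rec.locBr q g U (continuousH2π U.subtype (Rec.gModOn U) c) = 0) :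
    continuousH2π U.subtype (Rec.gModOn U) c = 0 := by
  have : NumberField E := ⟨⟩
  have hμ : HasFixedRootOfUnity p ↥(lvlGal U E) E := by
    have hζ' : IsPrimitiveRoot (⟨ζ, hζE⟩ : E) p :=
      IsPrimitiveRoot.of_map_of_injective (f := algebraMap E Qb) hζ (algebraMap E Qb).injective
    exact ⟨⟨ζ, hζE⟩, hζ', fun g => smul_eq_of_isPGroup hpg hζ' g⟩
  have hy : (H2π (LRep ↥(lvlGal U E) E)).hom f = 0 :=
    hFin p hp2 ↥(lvlGal U E) E hpg hμ _
      (finite_level_locally_trivial hEmb hLT U E hEU f c hfc hloc)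
  exact hUp U E f c hfc hy

/-- **HP (assembly).**  The Hasse principle for the `p`-primary part of the Brauer group of a
number field, `p` odd, from the finite-level Hasse principle and the dictionary. -/
theorem hassePrinciple_of (p : ℕ) [hp : Fact p.Prime] (hp2 : p ≠ 2)
    (hFin : HasseFinSpec) (hDesc : GlobDescentSpec) (hUp : GlobUpSpec) (hRI : GlobResIndexSpec)
    (hEmb : PlaceEmbSpec) (hLT : LocalTransferSpec) (hLR : Rec.LocResSpec) :
    Rec.HassePrincipleSpec p := by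
  intro U hU x hx hloc
  obtain ⟨k, hk⟩ := hx
  obtain ⟨c, rfl⟩ := Submodule.mkQ_surjective _ x
  -- a level containing `μ_p`
  obtain ⟨ζ, hζ⟩ : ∃ ζ : Qb, IsPrimitiveRoot ζ p := by
    haveI : NeZero ((p : ℕ) : Qb) := ⟨by exact_mod_cast hp.out.ne_zero⟩
    exact HasEnoughRootsOfUnity.exists_primitiveRoot Qb p
  have hint : IsIntegral ℚ ζ := (hζ.isIntegral hp.out.pos).tower_top
  have hfd₀ : FiniteDimensional ℚ (IntermediateField.adjoin ℚ {ζ}) :=
    IntermediateField.adjoin.finiteDimensional hint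
  obtain ⟨E, hfd, hn, f, hE₀, hEU, hinfl⟩ := hDesc U hU c _ hfd₀
  have := hfd
  have := hn
  have hζE : ζ ∈ E := hE₀ (IntermediateField.mem_adjoin_simple_self ℚ ζ)
  -- Sylow subgroup and the corresponding open subgroup `U'`
  obtain ⟨U', hle, hEU', hpg, hidx⟩ := exists_sylow_sub p U E hEU
  have hopen' : Rec.IsOpenQ U' := ⟨E, hfd, hEU'⟩
  -- the restricted class vanishes
  have hres : Rec.gRes hle (continuousH2π U.subtype (Rec.gModOn U) c) = 0 :=
    eq_zero_of_pgroup_level p hp2 hFin hUp hEmb hLT U' E hEU' hpg hζ hζE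
      (lvlResCocycle hle E f) (gResCocycle hle c) (isGlobInflation_res hle E hinfl)
      (fun q _ g => locally_trivial_res hLR hle c hloc q g)
  have hkill := hRI U U' hle hopen' _ hres
  exact eq_zero_of_coprime_nsmul
    ((Nat.Coprime.pow_right k ((Nat.Prime.coprime_iff_not_dvd hp.out).2 hidx).symm)) hkill hk

end Fermat.Agent.S55.G.HP
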