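import Fermat.Agent.S55.G.HP.Spec

/-!
# S55 / layer G / adapter HP, leaf HP-D4a: `placeEmb : PlaceEmbSpec`              (helper287)

Every place `𝔪` of `E ⊗ ℚ_S` (a maximal ideal) is induced by an embedding
`ι_q ∘ g⁻¹ : E → ℚ̄_q`, `q ∈ S`, `g ∈ G_ℚ`.

Steps (all reusable):
* `exists_single_one`   : a ring hom from a finite product of rings to a domain maps exactly one
  of the standard idempotents to `1`;
* `mem_range_padicEmbedding` : an element of `ℚ̄_q` which is algebraic over `ℚ` is in the image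
  of `padicEmbedding q`;
* `exists_aut_padicEmbedding` : every `ℚ`-algebra map `Φ : ℚ̄ → ℚ̄_q` is `ι_q ∘ h`, `h ∈ G_ℚ`;
* `placeEmb`.
-/

set_option autoImplicit false
set_option linter.style.haveILetI false

open scoped NumberField TensorProduct
open Polynomial

noncomputable section

namespace Fermat.Agent.S55.G.HP.H287

open Fermat.Agent.S55.G

local notation "Qb" => AlgebraicClosure ℚ
local notation "GQ" => (AlgebraicClosure ℚ ≃ₐ[ℚ] AlgebraicClosure ℚ)

local instance isAlgebraicQbar_h287 : Algebra.IsAlgebraic ℚ (AlgebraicClosure ℚ) :=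
  AlgebraicClosure.isAlgebraic ℚ

/-- A ring homomorphism from a finite product of rings to a domain maps one of the standard
idempotents to `1`. -/
lemma exists_single_one {ι : Type*} [Fintype ι] [DecidableEq ι] {R : ι → Type*}
    [∀ i, CommRing (R i)] {K : Type*} [CommRing K] [IsDomain K] (φ : (∀ i, R i) →+* K) :
    ∃ i, φ (Pi.single i 1) = 1 := by
  have h1 : φ (∑ i, Pi.single i (1 : R i)) = 1 := by
    have : (∑ i, Pi.single i (1 : R i)) = (1 : ∀ i, R i) :=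
      Finset.univ_sum_single (1 : ∀ i, R i)
    rw [this, map_one]
  rw [map_sum] at h1
  have h2 : ∃ i, φ (Pi.single i 1) ≠ 0 := by
    by_contra h
    rw [not_exists] at h
    rw [Finset.sum_eq_zero (fun i _ => not_not.1 (h i))] at h1
    exact zero_ne_one h1
  obtain ⟨i, hi⟩ := h2
  refine ⟨i, ?_⟩
  have hid : φ (Pi.single i 1) * φ (Pi.single i 1) = 1 * φ (Pi.single i 1) := by
    rw [← map_mul, ← Pi.single_mul, mul_one, one_mul]
  exact mul_right_cancel₀ hi hid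

/-- An element of `ℚ̄_q` which is algebraic over `ℚ` lies in the image of `padicEmbedding q`. -/
lemma mem_range_padicEmbedding (q : ℕ) [Fact q.Prime] (z : PadicAlgCl q)
    (hz : IsAlgebraic ℚ z) : z ∈ (padicEmbedding q).range := by
  have hP : ((minpoly ℚ z).map (algebraMap ℚ Qb)).Splits := IsAlgClosed.splits _
  have hP0 : (minpoly ℚ z).map (algebraMap ℚ Qb) ≠ 0 :=
    Polynomial.map_ne_zero (minpoly.ne_zero hz.isIntegral)
  have hroot : (((minpoly ℚ z).map (algebraMap ℚ Qb)).map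
      ((padicEmbedding q : Qb →ₐ[ℚ] PadicAlgCl q) : Qb →+* PadicAlgCl q)).IsRoot z := by
    rw [Polynomial.map_map, AlgHom.comp_algebraMap, IsRoot.def, eval_map_algebraMap,
      minpoly.aeval]
  obtain ⟨w, hw⟩ := hP.mem_range_of_isRoot hP0 hroot
  exact ⟨w, hw⟩

/-- Every `ℚ`-algebra map `ℚ̄ → ℚ̄_q` is `padicEmbedding q ∘ h` for an automorphism `h` of `ℚ̄`. -/
lemma exists_aut_padicEmbedding (q : ℕ) [Fact q.Prime] (Φ : Qb →ₐ[ℚ] PadicAlgCl q) :
    ∃ h : GQ, ∀ z : Qb, padicEmbedding q (h z) = Φ z := by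
  have hΦ : ∀ z : Qb, Φ z ∈ (padicEmbedding q).range := fun z =>
    mem_range_padicEmbedding q (Φ z) (IsAlgebraic.algHom Φ (Algebra.IsAlgebraic.isAlgebraic z))
  let e : Qb ≃ₐ[ℚ] (padicEmbedding q).range :=
    AlgEquiv.ofInjective (padicEmbedding q) (padicEmbedding q).toRingHom.injective
  let h₀ : Qb →ₐ[ℚ] Qb := (e.symm : (padicEmbedding q).range →ₐ[ℚ] Qb).comp
    (Φ.codRestrict (padicEmbedding q).range hΦ)
  have hh₀ : ∀ z : Qb, padicEmbedding q (h₀ z) = Φ z := by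
    intro z
    have h1 : e (h₀ z) = Φ.codRestrict (padicEmbedding q).range hΦ z :=
      e.apply_symm_apply _
    have h2 := congrArg (fun w : (padicEmbedding q).range => (w : PadicAlgCl q)) h1
    exact h2
  refine ⟨AlgEquiv.ofBijective h₀ (Algebra.IsAlgebraic.algHom_bijective h₀), fun z => ?_⟩
  exact hh₀ z

/-- **HP-D4a.** -/
theorem placeEmb : PlaceEmbSpec := by
  intro E _ S 𝔪
  classical
  -- Step 1: `ℚ_S → E_𝔪` factors through exactly one projection
  let φ' : (∀ q : S, Qq q.1) →+* LocField S 𝔪 :=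
    (LocField.ofQS S 𝔪).comp ((QS.toPi S).symm : (∀ q : S, Qq q.1) →+* QS S)
  have hφ' : ∀ y : QS S, LocField.ofQS S 𝔪 y = φ' (QS.toPi S y) := by
    intro y
    show _ = LocField.ofQS S 𝔪 ((QS.toPi S).symm (QS.toPi S y))
    rw [AlgEquiv.symm_apply_apply]
  obtain ⟨q, hq1⟩ := exists_single_one φ'
  have hqF : Fact ((q.1 : ℕ).Prime) := ⟨q.1.2⟩
  let ψ : ℚ_[(q.1 : ℕ)] →+* LocField S 𝔪 :=
    { toFun := fun a => φ' (Pi.single q a)
      map_one' := hq1
      map_mul' := fun a b => by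
        rw [Pi.single_mul, map_mul]
      map_zero' := by
        rw [Pi.single_zero, map_zero]
      map_add' := fun a b => by
        rw [Pi.single_add, map_add] }
  have hψ : ∀ y : QS S, LocField.ofQS S 𝔪 y = ψ (QS.toPi S y q) := by
    intro y
    have hy : (QS.toPi S y * Pi.single q 1 : ∀ q : S, Qq q.1) =
        Pi.single q (QS.toPi S y q) := by
      funext i
      by_cases h : i = q
      · subst h; simp
      · simp [Pi.single_eq_of_ne h]
    calc LocField.ofQS S 𝔪 y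
        = φ' (QS.toPi S y) * φ' (Pi.single q 1) := by rw [hq1, mul_one, hφ']
      _ = φ' (QS.toPi S y * Pi.single q 1) := (map_mul _ _ _).symm
      _ = ψ (QS.toPi S y q) := by rw [hy]; rfl
  letI : Algebra ℚ_[(q.1 : ℕ)] (LocField S 𝔪) := ψ.toAlgebra
  have hψalg : ∀ a : ℚ_[(q.1 : ℕ)], algebraMap ℚ_[(q.1 : ℕ)] (LocField S 𝔪) a = ψ a :=
    fun _ => rfl
  -- Step 2: `E_𝔪` is algebraic over `ℚ_q`
  have hE : ∀ x : E, IsAlgebraic ℚ_[(q.1 : ℕ)] (toLoc S 𝔪 x) := by
    intro x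
    have hx : IsAlgebraic ℚ x := Algebra.IsAlgebraic.isAlgebraic x
    refine ⟨(minpoly ℚ x).map (algebraMap ℚ ℚ_[(q.1 : ℕ)]),
      Polynomial.map_ne_zero (minpoly.ne_zero hx.isIntegral), ?_⟩
    have hcomp : (algebraMap ℚ_[(q.1 : ℕ)] (LocField S 𝔪)).comp (algebraMap ℚ ℚ_[(q.1 : ℕ)]) =
        (toLoc S 𝔪).comp (algebraMap ℚ E) := Subsingleton.elim _ _
    rw [aeval_def, eval₂_map, hcomp, ← Polynomial.hom_eval₂, ← aeval_def, minpoly.aeval,
      map_zero]
  have halg : Algebra.IsAlgebraic ℚ_[(q.1 : ℕ)] (LocField S 𝔪) := by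
    refine ⟨fun z => ?_⟩
    obtain ⟨t, rfl⟩ := LocField.mk_surjective S 𝔪 z
    induction t using TensorProduct.induction_on with
    | zero => rw [map_zero]; exact isAlgebraic_zero
    | tmul x y =>
      have h1 : (x ⊗ₜ[ℚ] y : AS S E) = asDiag S E x * asIncl S E y := by
        show _ = (x ⊗ₜ[ℚ] (1 : QS S)) * ((1 : E) ⊗ₜ[ℚ] y)
        rw [Algebra.TensorProduct.tmul_mul_tmul, mul_one, one_mul]
      have h2 : LocField.mk S 𝔪 (x ⊗ₜ[ℚ] y) = toLoc S 𝔪 x * ψ (QS.toPi S y q) := by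
        rw [h1, map_mul, ← hψ]
        rfl
      rw [h2]
      exact (hE x).mul (isAlgebraic_algebraMap (QS.toPi S y q))
    | add a b ha hb => rw [map_add]; exact ha.add hb
  -- Step 3: embed `E_𝔪` into `ℚ̄_q` over `ℚ_q`
  let σ : LocField S 𝔪 →ₐ[ℚ_[(q.1 : ℕ)]] PadicAlgCl (q.1 : ℕ) := IsAlgClosed.lift
  -- Step 4: the embedding `E → ℚ̄_q` is `ι_q ∘ h` for an automorphism `h` of `ℚ̄`
  let f' : E →ₐ[ℚ] PadicAlgCl (q.1 : ℕ) :=
    ((σ : LocField S 𝔪 →+* PadicAlgCl (q.1 : ℕ)).comp (toLoc S 𝔪)).toRatAlgHom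
  obtain ⟨Φ, hΦ⟩ := IsAlgClosed.surjective_domRestrict_of_isAlgebraic (K := ℚ) (L := E)
    (M := PadicAlgCl (q.1 : ℕ)) (E := Qb) f'
  obtain ⟨h, hh⟩ := exists_aut_padicEmbedding (q.1 : ℕ) Φ
  refine ⟨q, h⁻¹, (σ : LocField S 𝔪 →+* PadicAlgCl (q.1 : ℕ)), ?_, ?_⟩
  · intro x
    rw [inv_inv, hh]
    have := congrArg (fun φ : E →ₐ[ℚ] PadicAlgCl (q.1 : ℕ) => φ x) hΦ
    exact this.symm
  · intro y
    rw [hψ y]
    exact σ.commutes (QS.toPi S y q)

end Fermat.Agent.S55.G.HP.H287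

end
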