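/-
S55 (Poitou–Tate), layer G — adapter HP, leaf **HP-D4a** (`PlaceEmbSpec`).   Owner: helper424.

Every place `𝔪` of `E ⊗ ℚ_S` is induced by an embedding `ι_q ∘ g⁻¹ : E → ℚ̄_q`.

* `extend_to_aut`          : an embedding `E →ₐ[ℚ] ℚ̄` of an intermediate field extends to `G_ℚ`;
* `exists_lift_to_Qbar`    : a `ℚ`-embedding `E → ℚ̄_q` (E algebraic) factors through `ι_q`;
* `placeEmb : PlaceEmbSpec`.

No `sorry`.
-/
import Fermat.Agent.S55.G.HP.Spec
import Fermat.Agent.S55.G.PL0H713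
import Fermat.Agent.S55.Bridge.Krasner

set_option autoImplicit false

open scoped NumberField TensorProduct

noncomputable section

namespace Fermat.Agent.S55.G.HP.H424

open Fermat.Agent.S55.G

local notation "Qb" => AlgebraicClosure ℚ
local notation "GQ" => (AlgebraicClosure ℚ ≃ₐ[ℚ] AlgebraicClosure ℚ)

/-- A `ℚ`-embedding of an intermediate field of `ℚ̄/ℚ` into `ℚ̄` extends to an automorphism. -/
theorem extend_to_aut (E : IntermediateField ℚ Qb) (f : E →ₐ[ℚ] Qb) :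
    ∃ h : GQ, ∀ x : E, h (x : Qb) = f x := by
  haveI : Algebra.IsAlgebraic ℚ Qb := AlgebraicClosure.isAlgebraic ℚ
  have hK : ∀ s : Qb, IsIntegral ℚ s ∧
      ((minpoly ℚ s).map (algebraMap ℚ Qb)).Splits := fun s =>
    ⟨Algebra.IsIntegral.isIntegral (R := ℚ) s, IsAlgClosed.splits _⟩
  obtain ⟨φ, hφ⟩ := IntermediateField.exists_algHom_of_splits hK f
  have hbij : Function.Bijective φ := Algebra.IsAlgebraic.algHom_bijective φ
  refine ⟨AlgEquiv.ofBijective φ hbij, fun x => ?_⟩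
  exact congrArg (fun ψ : E →ₐ[ℚ] Qb => ψ x) hφ

/-- A `ℚ`-embedding of an algebraic extension of `ℚ` inside `ℚ̄` into `ℚ̄_q` factors through
`ι_q`. -/
theorem exists_lift_to_Qbar (q : ℕ) [Fact q.Prime] (E : IntermediateField ℚ Qb)
    (τ : E →ₐ[ℚ] PadicAlgCl q) :
    ∃ τ' : E →ₐ[ℚ] Qb, ∀ x : E, padicEmbedding q (τ' x) = τ x := by
  haveI : Algebra.IsAlgebraic ℚ Qb := AlgebraicClosure.isAlgebraic ℚ
  have hmem : ∀ x : E, τ x ∈ (padicEmbedding q).range := by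
    intro x
    have hint : IsIntegral ℚ (x : Qb) := Algebra.IsIntegral.isIntegral (R := ℚ) (x : Qb)
    have hintE : IsIntegral ℚ x := (isIntegral_algHom_iff E.val E.val.injective).1 hint
    have hroot : Polynomial.aeval (τ x) (minpoly ℚ x) = 0 := by
      rw [Polynomial.aeval_algHom_apply, minpoly.aeval, map_zero]
    obtain ⟨b', hb'⟩ := Bridge.mem_range_padicEmbedding_of_root q (minpoly ℚ x)
      (minpoly.ne_zero hintE) (τ x) hroot
    exact ⟨b', hb'⟩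
  let e : Qb ≃ₐ[ℚ] (padicEmbedding q).range :=
    AlgEquiv.ofInjective (padicEmbedding q) (padicEmbedding q).injective
  refine ⟨(e.symm : (padicEmbedding q).range →ₐ[ℚ] Qb).comp (τ.codRestrict _ hmem), fun x => ?_⟩
  have h1 : ((e (e.symm ⟨τ x, hmem x⟩) : (padicEmbedding q).range) : PadicAlgCl q) = τ x := by
    rw [AlgEquiv.apply_symm_apply]
  exact h1

/-- **HP-D4a.** -/
theorem placeEmb : PlaceEmbSpec := by
  intro E _ S 𝔪
  haveI : NumberField E := {}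
  let q : S := PL0H713.primeOf S E 𝔪
  haveI hq : Fact ((q.1 : ℕ).Prime) := ⟨q.1.2⟩
  letI alg : Algebra ℚ_[(q.1 : ℕ)] (LocField S 𝔪) := PL0H713.algQq S E 𝔪
  haveI hfin : Module.Finite ℚ_[(q.1 : ℕ)] (LocField S 𝔪) := PL0H713.finite_locField S E 𝔪
  haveI : Algebra.IsAlgebraic ℚ_[(q.1 : ℕ)] (LocField S 𝔪) := Algebra.IsAlgebraic.of_finite _ _
  let σ₀ : LocField S 𝔪 →ₐ[ℚ_[(q.1 : ℕ)]] PadicAlgCl (q.1 : ℕ) :=
    IsAlgClosed.lift
  let σ : LocField S 𝔪 →+* PadicAlgCl (q.1 : ℕ) := σ₀.toRingHom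
  let τ : E →ₐ[ℚ] PadicAlgCl (q.1 : ℕ) := (σ.comp (toLoc S 𝔪)).toRatAlgHom
  obtain ⟨τ', hτ'⟩ := exists_lift_to_Qbar (q.1 : ℕ) E τ
  obtain ⟨h, hh⟩ := extend_to_aut E τ'
  refine ⟨q, h⁻¹, σ, fun x => ?_, fun y => ?_⟩
  · rw [inv_inv, hh x, hτ' x]
    rfl
  · rw [PL0H713.ofQS_eq S E 𝔪 y]
    exact σ₀.commutes (QS.toPi S y q)

end Fermat.Agent.S55.G.HP.H424
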