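import Fermat.Agent.S55.G.HP.Spec
import Fermat.Agent.S55.H721.PsiCore

/-!
# S55 / layer G / adapter HP, leaf HP-D4a (helper721): places are embeddings

`placeEmb : PlaceEmbSpec`.

Proof.  `ev (q, gU) : E ⊗ ℚ_S → ℚ̄_q`, `x ⊗ y ↦ ι_q (g x) · y_q` (PSI core).  The family of all
`ev (q, c)` is jointly injective (Dedekind independence), each image is a field (algebraic over
`ℚ_q`), hence every maximal ideal `𝔪` is the kernel of some `ev (q, c)` (prime avoidance) and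
`σ := ev (q, c) mod 𝔪`.
-/

set_option autoImplicit false
set_option linter.unusedSectionVars false

open scoped TensorProduct

noncomputable section

namespace Fermat.Agent.S55.G.HP.H721

open Fermat.Agent.S55.G Fermat.Agent.S55.H721Psi

local notation "Qb" => AlgebraicClosure ℚ
local notation "GQ" => (AlgebraicClosure ℚ ≃ₐ[ℚ] AlgebraicClosure ℚ)

/-- Bundled primes are prime. -/
local instance factPrime (q : Nat.Primes) : Fact ((q : ℕ).Prime) := ⟨q.2⟩

variable (E : IntermediateField ℚ Qb) (S : Finset Nat.Primes)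

/-- The evaluation `E ⊗ ℚ_S → ℚ̄_q`, `x ⊗ y ↦ ι_q (g x) · y_q` at `(q, gU)`. -/
def evAt (q : S) (c : GQ ⧸ E.fixingSubgroup) : AS S E →ₐ[ℚ] PadicAlgCl (q.1 : ℕ) :=
  (psiAt (q.1 : ℕ) E c).comp (Algebra.TensorProduct.map (AlgHom.id ℚ E) (QS.proj S q))

lemma evAt_tmul (q : S) (c : GQ ⧸ E.fixingSubgroup) (x : E) (y : QS S) :
    evAt E S q c (x ⊗ₜ[ℚ] y) =
      embQ (q.1 : ℕ) E c x * algebraMap ℚ_[(q.1 : ℕ)] (PadicAlgCl (q.1 : ℕ)) (y q) := by
  simp only [evAt, AlgHom.comp_apply, Algebra.TensorProduct.map_tmul, AlgHom.id_apply,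
    psiAt_tmul]
  rfl

section Finite

variable [FiniteDimensional ℚ E]

/-- Every tensor is `∑ i, b_i ⊗ y_i`. -/
lemma exists_reprS [Fintype (GQ ⧸ E.fixingSubgroup)] (t : AS S E) :
    ∃ y : GQ ⧸ E.fixingSubgroup → QS S, t = ∑ i, cosetBasis E i ⊗ₜ[ℚ] y i := by
  induction t using TensorProduct.induction_on with
  | zero => exact ⟨0, by simp⟩
  | tmul x z =>
    refine ⟨fun i => (cosetBasis E).repr x i • z, ?_⟩
    conv_lhs => rw [← (cosetBasis E).sum_repr x]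
    rw [TensorProduct.sum_tmul]
    refine Finset.sum_congr rfl fun i _ => ?_
    rw [TensorProduct.smul_tmul]
  | add a b ha hb =>
    obtain ⟨y, rfl⟩ := ha
    obtain ⟨y', rfl⟩ := hb
    refine ⟨y + y', ?_⟩
    simp [TensorProduct.tmul_add, Finset.sum_add_distrib]

lemma evAt_sum [Fintype (GQ ⧸ E.fixingSubgroup)] (q : S)
    (y : GQ ⧸ E.fixingSubgroup → QS S) :
    (fun c => evAt E S q c (∑ i, cosetBasis E i ⊗ₜ[ℚ] y i)) =
      (conjMatrix (q.1 : ℕ) E).mulVec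
        (fun i => algebraMap ℚ_[(q.1 : ℕ)] (PadicAlgCl (q.1 : ℕ)) (y i q)) := by
  funext c
  rw [map_sum]
  simp only [evAt_tmul, Matrix.mulVec, dotProduct, conjMatrix, Matrix.of_apply]

/-- The evaluations are jointly injective. -/
theorem eq_zero_of_evAt_eq_zero (t : AS S E) (h : ∀ q c, evAt E S q c t = 0) : t = 0 := by
  classical
  letI : Fintype (GQ ⧸ E.fixingSubgroup) := Fintype.ofFinite _
  obtain ⟨y, rfl⟩ := exists_reprS E S t
  have hy : ∀ i, y i = 0 := by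
    intro i
    funext q
    have h1 := evAt_sum E S q y
    have h2 : (fun c => evAt E S q c (∑ i, cosetBasis E i ⊗ₜ[ℚ] y i)) = 0 := by
      funext c
      exact h q c
    rw [h2] at h1
    have hinj := Matrix.mulVec_injective_iff_isUnit.2 (isUnit_conjMatrix (q.1 : ℕ) E)
    have h3 : (fun i => algebraMap ℚ_[(q.1 : ℕ)] (PadicAlgCl (q.1 : ℕ)) (y i q)) = 0 := by
      apply hinj
      rw [← h1, Matrix.mulVec_zero]
    have h4 : y i q = (0 : ℚ_[(q.1 : ℕ)]) :=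
      (algebraMap ℚ_[(q.1 : ℕ)] (PadicAlgCl (q.1 : ℕ))).injective
        (by simpa using congrFun h3 i)
    exact h4
  simp [hy]

/-- The image of `evAt` contains `ℚ_q`. -/
lemma algebraMap_mem_range_evAt (q : S) (c : GQ ⧸ E.fixingSubgroup) (z : ℚ_[(q.1 : ℕ)]) :
    algebraMap ℚ_[(q.1 : ℕ)] (PadicAlgCl (q.1 : ℕ)) z ∈ Set.range (evAt E S q c) := by
  classical
  refine ⟨(1 : E) ⊗ₜ[ℚ] (Pi.single q z : ∀ q : S, Qq q.1), ?_⟩
  rw [evAt_tmul, map_one, one_mul]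
  congr 1
  exact Pi.single_eq_same (M := fun q : S => Qq q.1) q z

/-- The image of `evAt`, as a `ℚ_q`-subalgebra of `ℚ̄_q`. -/
def evRange (q : S) (c : GQ ⧸ E.fixingSubgroup) :
    Subalgebra ℚ_[(q.1 : ℕ)] (PadicAlgCl (q.1 : ℕ)) where
  carrier := Set.range (evAt E S q c)
  mul_mem' := by
    rintro _ _ ⟨a, rfl⟩ ⟨b, rfl⟩
    exact ⟨a * b, map_mul _ _ _⟩
  add_mem' := by
    rintro _ _ ⟨a, rfl⟩ ⟨b, rfl⟩
    exact ⟨a + b, map_add _ _ _⟩
  algebraMap_mem' := algebraMap_mem_range_evAt E S q c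

/-- The image of `evAt` is a field: every nonzero value is the inverse of a value. -/
lemma exists_evAt_mul_eq_one (q : S) (c : GQ ⧸ E.fixingSubgroup) (a : AS S E)
    (ha : evAt E S q c a ≠ 0) : ∃ a' : AS S E, evAt E S q c (a * a') = 1 := by
  have hmem : evAt E S q c a ∈ evRange E S q c := ⟨a, rfl⟩
  have halg : IsAlgebraic ℚ_[(q.1 : ℕ)] (evAt E S q c a) :=
    Algebra.IsAlgebraic.isAlgebraic _
  have hinv := (evRange E S q c).inv_mem_of_algebraic (x := ⟨_, hmem⟩) halg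
  obtain ⟨a', ha'⟩ := hinv
  refine ⟨a', ?_⟩
  rw [map_mul, ha']
  exact mul_inv_cancel₀ ha

/-- Every maximal ideal of `E ⊗ ℚ_S` is the kernel of an evaluation. -/
theorem exists_evAt_ker_eq (𝔪 : SPlace S E) :
    ∃ (q : S) (c : GQ ⧸ E.fixingSubgroup), ∀ a : AS S E, a ∈ 𝔪.asIdeal ↔ evAt E S q c a = 0 := by
  classical
  letI : Fintype (GQ ⧸ E.fixingSubgroup) := Fintype.ofFinite _
  haveI hmax := 𝔪.isMaximal
  haveI hprime : 𝔪.asIdeal.IsPrime := hmax.isPrime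
  -- prime avoidance
  have key : ∃ (q : S) (c : GQ ⧸ E.fixingSubgroup),
      ∀ a : AS S E, evAt E S q c a = 0 → a ∈ 𝔪.asIdeal := by
    by_contra hcon
    simp only [not_exists, not_forall] at hcon
    choose f hf0 hfm using hcon
    have hprod : (∏ q : S, ∏ c : GQ ⧸ E.fixingSubgroup, f q c) = 0 := by
      apply eq_zero_of_evAt_eq_zero E S
      intro q c
      rw [map_prod]
      apply Finset.prod_eq_zero (Finset.mem_univ q)
      rw [map_prod]
      exact Finset.prod_eq_zero (Finset.mem_univ c) (hf0 q c)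
    have hmem : (∏ q : S, ∏ c : GQ ⧸ E.fixingSubgroup, f q c) ∈ 𝔪.asIdeal := by
      rw [hprod]
      exact zero_mem _
    rw [Ideal.IsPrime.prod_mem_iff] at hmem
    obtain ⟨q, -, hq⟩ := hmem
    rw [Ideal.IsPrime.prod_mem_iff] at hq
    obtain ⟨c, -, hc⟩ := hq
    exact hfm q c hc
  obtain ⟨q, c, hqc⟩ := key
  refine ⟨q, c, fun a => ⟨fun ha => ?_, hqc a⟩⟩
  by_contra hne
  obtain ⟨a', ha'⟩ := exists_evAt_mul_eq_one E S q c a hne
  have h1 : a * a' - 1 ∈ 𝔪.asIdeal := hqc _ (by rw [map_sub, ha', map_one, sub_self])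
  have h2 : a * a' ∈ 𝔪.asIdeal := Ideal.mul_mem_right _ _ ha
  have h3 : (1 : AS S E) ∈ 𝔪.asIdeal := by
    have := Ideal.sub_mem _ h2 h1
    simpa using this
  exact hprime.ne_top ((Ideal.eq_top_iff_one _).2 h3)

/-- **HP-D4a** : places are embeddings. -/
theorem placeEmb : PlaceEmbSpec := by
  intro E _ S 𝔪
  obtain ⟨q, c, hqc⟩ := exists_evAt_ker_eq E S 𝔪
  induction c using QuotientGroup.induction_on with
  | H g =>
    refine ⟨q, g⁻¹, ?_⟩
    refine ⟨Ideal.Quotient.lift 𝔪.asIdeal (evAt E S q (g : GQ ⧸ E.fixingSubgroup)).toRingHom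
      (fun a ha => (hqc a).1 ha), ?_, ?_⟩
    · intro x
      have : toLoc S 𝔪 x = Ideal.Quotient.mk 𝔪.asIdeal (x ⊗ₜ[ℚ] (1 : QS S)) := rfl
      rw [this]
      show evAt E S q (g : GQ ⧸ E.fixingSubgroup) (x ⊗ₜ[ℚ] (1 : QS S)) = _
      rw [evAt_tmul, embQ_mk, emb_apply, inv_inv]
      have h1 : ((1 : QS S) q : ℚ_[(q.1 : ℕ)]) = 1 := rfl
      rw [h1, map_one, mul_one]
    · intro y
      have : LocField.ofQS S 𝔪 y = Ideal.Quotient.mk 𝔪.asIdeal ((1 : E) ⊗ₜ[ℚ] y) := rfl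
      rw [this]
      show evAt E S q (g : GQ ⧸ E.fixingSubgroup) ((1 : E) ⊗ₜ[ℚ] y) = _
      rw [evAt_tmul, map_one, one_mul]

end Finite

end Fermat.Agent.S55.G.HP.H721
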