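import Fermat.Agent.S55.G.HP.Spec

/-!
# S55, layer G, adapter HP, leaf HP-D3 (helper784): `cor ∘ res = index` on `Br(K)`

`globResIndex_of : GlobDescentSpec → GlobUpSpec → GlobDownSpec → T.ResIndexSpec → GlobResIndexSpec`.

Proof: `x = [c]`; descend `c` to a finite level `E ⊇ F₀` (`Gal(ℚ̄/F₀) ≤ U'`), `c = infl f`;
the restriction of `c` to `U'` is the inflation of `f|_{lvlGal U' E}`, whose class vanishes by
`GlobDownSpec`; `T.ResIndexSpec` gives `[G : H] • [f] = 0` for `G = lvlGal U E`,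
`H = lvlGal U' E`; `[G : H] = [U : U']` because `Gal(ℚ̄/E) ≤ U'`; inflate back with `GlobUpSpec`.

No `sorry`.
-/

set_option autoImplicit false
set_option linter.unusedSectionVars false
set_option linter.style.haveILetI false

open groupCohomology CategoryTheory

noncomputable section

namespace Fermat.Agent.S55.G.HP.H784

open Fermat.Agent.S55.G Fermat.Agent.S55.G.HP

local notation "Qb" => AlgebraicClosure ℚ
local notation "GQ" => (AlgebraicClosure ℚ ≃ₐ[ℚ] AlgebraicClosure ℚ)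

variable (U : Subgroup GQ) (E : IntermediateField ℚ Qb) [hEn : Normal ℚ E]

/-- The action of `lvlGal U' E` on `Eˣ` is the restriction of the action of `lvlGal U E`. -/
lemma lRepr_lvlIncl {U' : Subgroup GQ} (h : U' ≤ U) (a : ↥(lvlGal U' E)) (x : Additive (↥E)ˣ) :
    (LRep ↥(lvlGal U E) E).ρ (lvlIncl E h a) x = (LRep ↥(lvlGal U' E) E).ρ a x := rfl

/-- The restriction of a finite-level cocycle to `lvlGal U' E`. -/
def resCocycle {U' : Subgroup GQ} (h : U' ≤ U) (f : cocycles₂ (LRep ↥(lvlGal U E) E)) :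
    cocycles₂ (LRep ↥(lvlGal U' E) E) :=
  ⟨lvlRes₂ U E h (f : ↥(lvlGal U E) × ↥(lvlGal U E) → Additive (↥E)ˣ), by
    have hf := (mem_cocycles₂_iff (A := LRep ↥(lvlGal U E) E) _).1 f.2
    refine (mem_cocycles₂_iff (A := LRep ↥(lvlGal U' E) E) _).2 fun a b c => ?_
    have := hf (lvlIncl E h a) (lvlIncl E h b) (lvlIncl E h c)
    exact this⟩

@[simp] lemma resCocycle_apply {U' : Subgroup GQ} (h : U' ≤ U)
    (f : cocycles₂ (LRep ↥(lvlGal U E) E)) (a b : ↥(lvlGal U' E)) :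
    (resCocycle U E h f : ↥(lvlGal U' E) × ↥(lvlGal U' E) → Additive (↥E)ˣ) (a, b) =
      (f : ↥(lvlGal U E) × ↥(lvlGal U E) → Additive (↥E)ˣ) (lvlIncl E h a, lvlIncl E h b) := rfl

/-- The restriction of a level cocycle to `U' ≤ U` (the cocycle-level map under `Rec.gRes`). -/
def resLevel {U' : Subgroup GQ} (h : U' ≤ U)
    (c : ↥(levelCocycles₂ U.subtype (Rec.gModOn U))) :
    ↥(levelCocycles₂ U'.subtype (Rec.gModOn U')) :=
  levelCocycles₂Map (rH := U.subtype) (rG := U'.subtype) (Subgroup.inclusion h) (fun _ => rfl)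
    (LinearMap.id : Rec.gModOn U →ₗ[ℤ] Rec.gModOn U') (fun _ _ => rfl) c

lemma gRes_mk {U' : Subgroup GQ} (h : U' ≤ U)
    (c : ↥(levelCocycles₂ U.subtype (Rec.gModOn U))) :
    Rec.gRes h (continuousH2π U.subtype (Rec.gModOn U) c) =
      continuousH2π U'.subtype (Rec.gModOn U') (resLevel U h c) := rfl

/-- Restriction is compatible with inflation from a finite level. -/
lemma isGlobInflation_res {U' : Subgroup GQ} (h : U' ≤ U)
    (f : cocycles₂ (LRep ↥(lvlGal U E) E))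
    (c : ↥(levelCocycles₂ U.subtype (Rec.gModOn U))) (hinf : IsGlobInflation U E f c) :
    IsGlobInflation U' E (resCocycle U E h f) (resLevel U h c) := by
  funext p
  obtain ⟨u, v⟩ := p
  have h1 : (resLevel U h c : ↥U' × ↥U' → Rec.gModOn U') (u, v) =
      (c : ↥U × ↥U → Rec.gModOn U) (Subgroup.inclusion h u, Subgroup.inclusion h v) := rfl
  rw [h1, hinf]
  rfl

omit hEn in
lemma nsmul_ofMul_unitsInclQ (n : ℕ) (a : Additive (↥E)ˣ) :
    n • (Additive.ofMul (unitsInclQ E (Additive.toMul a)) : Additive Qbˣ) =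
      Additive.ofMul (unitsInclQ E (Additive.toMul (n • a))) := by
  rw [toMul_nsmul, map_pow, ofMul_pow]

/-- Multiples are compatible with inflation from a finite level. -/
lemma isGlobInflation_nsmul (n : ℕ) (f : cocycles₂ (LRep ↥(lvlGal U E) E))
    (c : ↥(levelCocycles₂ U.subtype (Rec.gModOn U))) (hinf : IsGlobInflation U E f c) :
    IsGlobInflation U E (n • f) (n • c) := by
  funext p
  obtain ⟨u, v⟩ := p
  have h1 : ((n • c : ↥(levelCocycles₂ U.subtype (Rec.gModOn U))) : ↥U × ↥U → Rec.gModOn U) (u, v)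
      = n • (c : ↥U × ↥U → Rec.gModOn U) (u, v) := rfl
  rw [h1, hinf]
  exact nsmul_ofMul_unitsInclQ E n
    ((f : ↥(lvlGal U E) × ↥(lvlGal U E) → Additive (↥E)ˣ) (lvlHom U E u, lvlHom U E v))

/-- If the restriction of a cocycle to a subgroup is a coboundary, the restriction of its class
vanishes. -/
lemma resMap_H2π_eq_zero {G : Type} [Group G] (A : Rep.{0} ℤ G) (H : Subgroup G)
    (f : cocycles₂ A) (b : ↥H → A.V)
    (hb : ∀ a₁ a₂ : ↥H, A.ρ a₁.1 (b a₂) - b (a₁ * a₂) + b a₁ = f (a₁.1, a₂.1)) :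
    (T.resMap A H 2).hom ((H2π A).hom f) = 0 := by
  have e1 := H2π_comp_map_apply (A := A) (B := T.resSub A H) H.subtype
    (𝟙 (T.resSub A H)) f
  refine e1.trans ?_
  rw [H2π_eq_zero_iff]
  refine ⟨b, ?_⟩
  funext p
  obtain ⟨a₁, a₂⟩ := p
  rw [d₁₂_hom_apply]
  exact hb a₁ a₂

/-- `T.ResIndexSpec` in degree 2, with the index given by an equation. -/
lemma nsmul_eq_zero_of_res (hRI : T.ResIndexSpec) {G : Type} [Group G] [Finite G]
    (A : Rep.{0} ℤ G) (H : Subgroup G) (n : ℕ) (hn : H.index = n) (f : cocycles₂ A)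
    (hy : (T.resMap A H 2).hom ((H2π A).hom f) = 0) : (H2π A).hom (n • f) = 0 := by
  subst hn
  rw [map_nsmul]
  exact hRI ℤ G A H 2 (by norm_num) _ hy

/-- `resMap_H2π_eq_zero` for `Lˣ`, in terms of `lRepr`. -/
lemma resMap_H2π_LRep_eq_zero (G L : Type) [Group G] [Field L] [MulSemiringAction G L]
    (H : Subgroup G) (f : cocycles₂ (LRep G L)) (b : ↥H → Additive Lˣ)
    (hb : ∀ a₁ a₂ : ↥H, lRepr G L a₁.1 (b a₂) - b (a₁ * a₂) + b a₁ =
      (f : G × G → Additive Lˣ) (a₁.1, a₂.1)) :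
    (T.resMap (LRep G L) H 2).hom ((H2π (LRep G L)).hom f) = 0 :=
  resMap_H2π_eq_zero (LRep G L) H f b hb

/-- A cocycle of `Lˣ` with trivial class is a coboundary (in terms of `lRepr`). -/
lemma exists_of_H2π_LRep_eq_zero (G L : Type) [Group G] [Field L] [MulSemiringAction G L]
    (f : cocycles₂ (LRep G L)) (hf : (H2π (LRep G L)).hom f = 0) :
    ∃ b : G → Additive Lˣ, ∀ x₁ x₂ : G, lRepr G L x₁ (b x₂) - b (x₁ * x₂) + b x₁ =
      (f : G × G → Additive Lˣ) (x₁, x₂) := by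
  obtain ⟨b, hb⟩ := (H2π_eq_zero_iff (A := LRep G L) _).1 hf
  refine ⟨b, fun x₁ x₂ => ?_⟩
  have h4 := congrFun hb (x₁, x₂)
  rw [d₁₂_hom_apply] at h4
  exact h4

/-- The coboundary relation on `lvlGal U' E` gives the coboundary relation on the corresponding
subgroup of `lvlGal U E`. -/
lemma coboundary_subgroupOf {U' : Subgroup GQ} (h : U' ≤ U)
    (f : ↥(lvlGal U E) × ↥(lvlGal U E) → Additive (↥E)ˣ) (b' : ↥(lvlGal U' E) → Additive (↥E)ˣ)
    (hb' : ∀ x₁ x₂ : ↥(lvlGal U' E), lRepr ↥(lvlGal U' E) E x₁ (b' x₂) - b' (x₁ * x₂) + b' x₁ =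
      f (lvlIncl E h x₁, lvlIncl E h x₂))
    (a₁ a₂ : ↥((lvlGal U' E).subgroupOf (lvlGal U E))) :
    lRepr ↥(lvlGal U E) E a₁.1 (b' ⟨a₂.1.1, Subgroup.mem_subgroupOf.1 a₂.2⟩) -
      b' ⟨(a₁ * a₂).1.1, Subgroup.mem_subgroupOf.1 (a₁ * a₂).2⟩ +
      b' ⟨a₁.1.1, Subgroup.mem_subgroupOf.1 a₁.2⟩ = f (a₁.1, a₂.1) :=
  hb' ⟨a₁.1.1, Subgroup.mem_subgroupOf.1 a₁.2⟩ ⟨a₂.1.1, Subgroup.mem_subgroupOf.1 a₂.2⟩

/-- `[lvlGal U E : lvlGal U' E] = [U : U']` if `Gal(ℚ̄/E) ≤ U' ≤ U`. -/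
lemma index_lvlGal {U' : Subgroup GQ} (h : U' ≤ U) (hEU' : E.fixingSubgroup ≤ U') :
    ((lvlGal U' E).subgroupOf (lvlGal U E)).index = U'.relIndex U := by
  have h1 : ((lvlGal U' E).subgroupOf (lvlGal U E)).index =
      (lvlGal U' E).relIndex (lvlGal U E) := rfl
  rw [h1]
  unfold lvlGal
  have hker : (AlgEquiv.restrictNormalHom (F := ℚ) (K₁ := Qb) E).ker = E.fixingSubgroup :=
    @IntermediateField.restrictNormalHom_ker _ _ _ _ _ E hEn
  rw [Subgroup.relIndex_map_map, hker, sup_eq_left.2 hEU', sup_eq_left.2 (hEU'.trans h)]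

/-- **HP-D3.** -/
theorem globResIndex_of (hD1 : GlobDescentSpec) (hUp : GlobUpSpec) (hDown : GlobDownSpec)
    (hRI : T.ResIndexSpec) : GlobResIndexSpec := by
  intro U U' h hU' x hx
  obtain ⟨c, rfl⟩ := Submodule.mkQ_surjective _ x
  obtain ⟨F₀, hF₀fin, hF₀le⟩ := hU'
  have hUopen : Rec.IsOpenQ U := ⟨F₀, hF₀fin, hF₀le.trans h⟩
  obtain ⟨E, hEfin, hEnorm, f, hF₀E, hEU, hinf⟩ := hD1 U hUopen c F₀ hF₀fin
  haveI := hEfin
  haveI := hEnorm
  have hEU' : E.fixingSubgroup ≤ U' :=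
    (IntermediateField.fixingSubgroup_antitone hF₀E).trans hF₀le
  -- the restricted class vanishes at finite level
  have hx' : continuousH2π U'.subtype (Rec.gModOn U') (resLevel U h c) = 0 := hx
  have hf' : (H2π (LRep ↥(lvlGal U' E) E)).hom (resCocycle U E h f) = 0 :=
    hDown U' E hEU' (resCocycle U E h f) (resLevel U h c) (isGlobInflation_res U E h f c hinf) hx'
  obtain ⟨b', hb'⟩ := exists_of_H2π_LRep_eq_zero ↥(lvlGal U' E) ↥E (resCocycle U E h f) hf'
  -- restriction to the subgroup `H` of `G = lvlGal U E`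
  have hres : (T.resMap (LRep ↥(lvlGal U E) E) ((lvlGal U' E).subgroupOf (lvlGal U E)) 2).hom
      ((H2π (LRep ↥(lvlGal U E) E)).hom f) = 0 :=
    resMap_H2π_LRep_eq_zero ↥(lvlGal U E) ↥E ((lvlGal U' E).subgroupOf (lvlGal U E)) f
      (fun a => b' ⟨a.1.1, Subgroup.mem_subgroupOf.1 a.2⟩)
      (coboundary_subgroupOf U E h _ b' hb')
  haveI : Finite ↥(lvlGal U E) := inferInstance
  -- `cor ∘ res = index` at finite level, then inflate back
  have hzero : (H2π (LRep ↥(lvlGal U E) E)).hom (U'.relIndex U • f) = 0 :=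
    nsmul_eq_zero_of_res hRI (LRep ↥(lvlGal U E) E) ((lvlGal U' E).subgroupOf (lvlGal U E))
      (U'.relIndex U) (index_lvlGal U E h hEU') f hres
  have := hUp U E (U'.relIndex U • f) (U'.relIndex U • c)
    (isGlobInflation_nsmul U E _ f c hinf) hzero
  rw [map_nsmul] at this
  exact this

end Fermat.Agent.S55.G.HP.H784
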