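import Fermat.Agent.S55.G.HP.Spec

/-!
# S55 / layer G / adapter HP, leaf HP-F1 (helper371): `ExistsUnramOutSpec`

Only finitely many primes ramify in `L/L^G` (in the sense of `G.IsUnramOut`): for each `g ≠ 1`
pick `x_g ∈ 𝓞_L` with `g x_g ≠ x_g` (faithfulness + clearing denominators); the absolute norm
`n_g ≠ 0` of the ideal `(g x_g - x_g)` lies in every prime containing `g x_g - x_g`.
`S₀` := the prime factors of the `n_g`.  No discriminants.
-/

set_option autoImplicit false

open scoped NumberField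
open IsDedekindDomain

namespace Fermat.Agent.S55.G.HP.H371

/-- A prime ideal containing a nonzero natural number contains one of its prime factors. -/
theorem exists_prime_dvd_of_natCast_mem {R : Type*} [CommRing R] (P : Ideal R) [hP : P.IsPrime]
    (n : ℕ) : n ≠ 0 → (n : R) ∈ P → ∃ q : ℕ, q.Prime ∧ q ∣ n ∧ (q : R) ∈ P := by
  induction n using Nat.recOnMul with
  | zero => intro h; exact absurd rfl h
  | one =>
    intro _ h
    rw [Nat.cast_one] at h
    exact absurd ((Ideal.eq_top_iff_one P).2 h) hP.ne_top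
  | prime p hp => intro _ h; exact ⟨p, hp, dvd_rfl, h⟩
  | mul a b iha ihb =>
    intro hab h
    rw [Nat.cast_mul] at h
    rcases hP.mem_or_mem h with h' | h'
    · obtain ⟨q, hq, hqa, hqP⟩ := iha (left_ne_zero_of_mul hab) h'
      exact ⟨q, hq, hqa.mul_right b, hqP⟩
    · obtain ⟨q, hq, hqb, hqP⟩ := ihb (right_ne_zero_of_mul hab) h'
      exact ⟨q, hq, hqb.mul_left a, hqP⟩

section

variable {G L : Type} [Group G] [Field L] [NumberField L] [MulSemiringAction G L]

/-- An automorphism fixing all integers is the identity. -/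
theorem smul_eq_of_forall_integer {g : G} (h : ∀ x : 𝓞 L, g • x = x) (x : L) : g • x = x := by
  obtain ⟨a, b, hb, rfl⟩ := IsFractionRing.div_surjective (A := 𝓞 L) x
  have ha' : g • (algebraMap (𝓞 L) L a) = algebraMap (𝓞 L) L a := by
    conv_rhs => rw [← h a]
    rfl
  have hb' : g • (algebraMap (𝓞 L) L b) = algebraMap (𝓞 L) L b := by
    conv_rhs => rw [← h b]
    rfl
  rw [smul_div₀', ha', hb']

end

/-- **HP-F1.** -/
theorem existsUnramOut : ExistsUnramOutSpec := by
  intro G L _ _ _ _ _ _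
  classical
  -- a moved integer for every `g ≠ 1`
  have hx : ∀ g : G, g ≠ 1 → ∃ x : 𝓞 L, g • x ≠ x := by
    intro g hg
    by_contra hcon
    simp only [not_exists, not_not] at hcon
    apply hg
    apply FaithfulSMul.eq_of_smul_eq_smul (α := L)
    intro x
    rw [one_smul]
    exact smul_eq_of_forall_integer hcon x
  choose! X hX using hx
  have : Fintype G := Fintype.ofFinite G
  -- the norms
  let nrm : G → ℕ := fun g => Ideal.absNorm (Ideal.span {g • X g - X g} : Ideal (𝓞 L))
  have hnrm : ∀ g : G, g ≠ 1 → nrm g ≠ 0 := by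
    intro g hg h0
    have : (Ideal.span {g • X g - X g} : Ideal (𝓞 L)) = ⊥ := Ideal.absNorm_eq_zero_iff.1 h0
    rw [Ideal.span_singleton_eq_bot, sub_eq_zero] at this
    exact hX g hg this
  let S₀ : Finset Nat.Primes :=
    Finset.univ.biUnion fun g : G =>
      ((nrm g).primeFactors.attach.image fun q =>
        (⟨q.1, Nat.prime_of_mem_primeFactors q.2⟩ : Nat.Primes))
  refine ⟨S₀, fun S hS w hw g hg x => ?_⟩
  by_cases hg1 : g = 1
  · rw [hg1, one_smul]
  exfalso
  apply hw
  have hmem : ((nrm g : ℕ) : 𝓞 L) ∈ w.asIdeal := by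
    have h1 : ((nrm g : ℕ) : 𝓞 L) ∈ (Ideal.span {g • X g - X g} : Ideal (𝓞 L)) :=
      Ideal.absNorm_mem _
    have h2 : (Ideal.span {g • X g - X g} : Ideal (𝓞 L)) ≤ w.asIdeal := by
      rw [Ideal.span_singleton_le_iff_mem]
      exact hg (X g)
    exact h2 h1
  have := w.isPrime
  obtain ⟨q, hq, hqn, hqw⟩ := exists_prime_dvd_of_natCast_mem w.asIdeal (nrm g) (hnrm g hg1) hmem
  refine ⟨⟨q, hq⟩, hS ?_, hqw⟩
  rw [Finset.mem_biUnion]
  refine ⟨g, Finset.mem_univ g, ?_⟩
  rw [Finset.mem_image]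
  have hqf : q ∈ (nrm g).primeFactors := Nat.mem_primeFactors.2 ⟨hq, hqn, hnrm g hg1⟩
  exact ⟨⟨q, hqf⟩, Finset.mem_attach _ _, rfl⟩

end Fermat.Agent.S55.G.HP.H371
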