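/-
S55 (Poitou–Tate), layer G, adapter HP — leaf **HP-F1** (`ExistsUnramOutSpec`).  helper885.

Only finitely many primes ramify in `L/L^G`: there is a finite set `S₀` of rational primes such
that for every `S ⊇ S₀` the (faithful) action of the finite group `G` on the number field `L` is
unramified outside `S` in the sense of `G.IsUnramOut`.

Proof (no discriminants): for each `g ≠ 1` pick an integer `x_g ∈ 𝓞 L` with `g x_g ≠ x_g`;
`S₀` := the prime divisors of the absolute norms of the ideals `(g x_g - x_g)`.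
Mathlib only.  Sorry-free.
-/
import Fermat.Agent.S55.G.HP.Spec

set_option autoImplicit false

open scoped NumberField
open IsDedekindDomain

noncomputable section

namespace Fermat.Agent.S55.G.HP.H885

/-- A nontrivial element of a group acting faithfully on a number field moves an integer. -/
lemma exists_integer_smul_ne (G L : Type) [Group G] [Field L] [NumberField L]
    [MulSemiringAction G L] [FaithfulSMul G L] (g : G) (hg : g ≠ 1) :
    ∃ x : 𝓞 L, g • x ≠ x := by
  by_contra hcon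
  have hcon : ∀ x : 𝓞 L, g • x = x := fun x => by
    by_contra hx
    exact hcon ⟨x, hx⟩
  apply hg
  refine FaithfulSMul.eq_of_smul_eq_smul (α := L) fun z => ?_
  obtain ⟨a, b, -, rfl⟩ := IsFractionRing.div_surjective (𝓞 L) z
  have ha : g • (algebraMap (𝓞 L) L a) = algebraMap (𝓞 L) L a :=
    congrArg (fun t : 𝓞 L => (t : L)) (hcon a)
  have hb : g • (algebraMap (𝓞 L) L b) = algebraMap (𝓞 L) L b :=
    congrArg (fun t : 𝓞 L => (t : L)) (hcon b)
  rw [one_smul, smul_div₀', ha, hb]

/-- If a nonzero natural number lies (as an element of `𝓞 L`) in a prime ideal `w`, then one of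
its prime factors does. -/
lemma exists_prime_factor_mem {L : Type} [Field L] [NumberField L]
    (w : HeightOneSpectrum (𝓞 L)) :
    ∀ n : ℕ, n ≠ 0 → ((n : ℕ) : 𝓞 L) ∈ w.asIdeal →
      ∃ q : ℕ, q.Prime ∧ q ∣ n ∧ ((q : ℕ) : 𝓞 L) ∈ w.asIdeal := by
  intro n
  induction n using Nat.recOnMul with
  | zero => intro h; exact absurd rfl h
  | one =>
    intro _ h
    exfalso
    apply w.isPrime.ne_top
    rw [Ideal.eq_top_iff_one]
    simpa using h
  | prime p hp =>
    intro _ h
    exact ⟨p, hp, dvd_rfl, h⟩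
  | mul a b iha ihb =>
    intro hab h
    have ha0 : a ≠ 0 := fun h0 => hab (by simp [h0])
    have hb0 : b ≠ 0 := fun h0 => hab (by simp [h0])
    rw [Nat.cast_mul] at h
    rcases w.isPrime.mem_or_mem h with h' | h'
    · obtain ⟨q, hq, hqa, hqw⟩ := iha ha0 h'
      exact ⟨q, hq, hqa.mul_right b, hqw⟩
    · obtain ⟨q, hq, hqb, hqw⟩ := ihb hb0 h'
      exact ⟨q, hq, hqb.mul_left a, hqw⟩

/-- **HP-F1.**  Only finitely many primes ramify. -/
theorem existsUnramOut : ExistsUnramOutSpec := by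
  intro G L _ _ _ _ _ _
  classical
  have : Fintype G := Fintype.ofFinite G
  -- the chosen moved integers
  choose! xg hxg using fun g : G => exists_integer_smul_ne G L g
  -- the norms
  let n : G → ℕ := fun g => Ideal.absNorm (Ideal.span {g • xg g - xg g} : Ideal (𝓞 L))
  have hn0 : ∀ g : G, g ≠ 1 → n g ≠ 0 := by
    intro g hg h0
    have h1 : (Ideal.span {g • xg g - xg g} : Ideal (𝓞 L)) = ⊥ := Ideal.absNorm_eq_zero_iff.1 h0
    rw [Ideal.span_singleton_eq_bot, sub_eq_zero] at h1
    exact hxg g hg h1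
  -- the set `S₀`
  let S₀ : Finset Nat.Primes :=
    (Finset.univ : Finset G).biUnion fun g =>
      ((n g).primeFactors.subtype Nat.Prime).map
        ⟨fun q => (⟨q.1, q.2⟩ : Nat.Primes), fun a b h => Subtype.ext (congrArg Subtype.val h)⟩
  refine ⟨S₀, fun S hS w hw g hg => ?_⟩
  by_cases hg1 : g = 1
  · intro x; rw [hg1, one_smul]
  exfalso
  apply hw
  have hmem : g • xg g - xg g ∈ w.asIdeal := hg (xg g)
  have hspan : (Ideal.span {g • xg g - xg g} : Ideal (𝓞 L)) ≤ w.asIdeal :=
    (Ideal.span_singleton_le_iff_mem _).2 hmem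
  have hnw : ((n g : ℕ) : 𝓞 L) ∈ w.asIdeal := hspan (Ideal.absNorm_mem _)
  obtain ⟨q, hq, hqn, hqw⟩ := exists_prime_factor_mem w (n g) (hn0 g hg1) hnw
  have hqS₀ : (⟨q, hq⟩ : Nat.Primes) ∈ S₀ :=
    Finset.mem_biUnion.2 ⟨g, Finset.mem_univ g, Finset.mem_map.2
      ⟨⟨q, hq⟩, Finset.mem_subtype.2 (Nat.mem_primeFactors.2 ⟨hq, hqn, hn0 g hg1⟩), rfl⟩⟩
  exact ⟨⟨q, hq⟩, Finset.mem_of_subset hS hqS₀, hqw⟩

end Fermat.Agent.S55.G.HP.H885
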